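import Fermat.Agent.WaringAsymptotic.Moment
import Fermat.Agent.ThreePrimes.Circle

/-!
# Weyl's inequality from the mean value theorem

`|∑_{x ≤ P} e (α x ^ k)| ^ (k (k-1)) ≪ P ^ (k (k-1) + ε) (1/q + 1/P + q/P ^ k)`: the sum is
averaged over the translations `x ↦ x - y`, the completed sums are raised to the power `k (k-1)`,
and the main conjecture for degree `k - 1` is used through the large sieve, spaced by the
coefficient `α k y` of `x ^ (k-1)`.
-/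

set_option autoImplicit false

noncomputable section

namespace FA.WaringAsymptotic

open Finset FA.ThreePrimes
open scoped ComplexConjugate

theorem norm_geom_range_le (x : ℝ) (N : ℕ) :
    ‖∑ l ∈ range N, eAdd (l * x)‖ ≤ clip (N : ℝ) x := by
  have h := norm_geom_le x 0 N
  rw [Nat.sub_zero] at h
  refine le_trans (le_of_eq ?_) h
  rw [show ∑ n ∈ Ioc 0 N, eAdd (n * x) = eAdd x * ∑ l ∈ range N, eAdd (l * x) from ?_, norm_mul,
    norm_eAdd, one_mul]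
  rw [mul_sum]
  refine sum_nbij' (fun n => n - 1) (fun l => l + 1) (fun n hn => ?_) (fun l hl => ?_)
    (fun n hn => ?_) (fun l _ => by omega) fun n hn => ?_
  · rw [mem_Ioc] at hn; rw [mem_range]; omega
  · rw [mem_range] at hl; rw [mem_Ioc]; omega
  · rw [mem_Ioc] at hn; omega
  · rw [mem_Ioc] at hn
    rw [← eAdd_add, Nat.cast_sub hn.1]
    push_cast
    ring_nf

theorem prod_eAdd_eq {ι : Type*} (s : Finset ι) (f : ι → ℝ) :
    ∏ i ∈ s, eAdd (f i) = eAdd (∑ i ∈ s, f i) := by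
  induction s using Finset.cons_induction with
  | empty => simp
  | cons i s hi ih => rw [prod_cons, sum_cons, ih, eAdd_add]

/-- **The large sieve with a mean value**: `∑_y |∑_{r < Q} c r e (γ y · (r, …, r ^ j))| ^ (2 t)` is
at most the number of solutions times the largest row of the kernel. -/
theorem sum_pow_le_solutions {ι : Type*} (T : Finset ι) {j Q t : ℕ} (c : ℕ → ℂ)
    (hc : ∀ r, ‖c r‖ ≤ 1) (γ : ι → Fin j → ℝ) {A : ℝ} (hA0 : 0 ≤ A)
    (hA : ∀ y ∈ T, ∑ y' ∈ T,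
      ∏ i : Fin j, ‖∑ l ∈ range (t * Q ^ (i.1 + 1) + 1), eAdd (l * (γ y' i - γ y i))‖ ≤ A) :
    ∑ y ∈ T, ‖∑ r ∈ range Q, c r * eAdd (∑ i, γ y i * (r : ℝ) ^ (i.1 + 1))‖ ^ (2 * t) ≤
      (VMC.solutions j t Q).card * A := by
  obtain ⟨B, hB⟩ : ∃ B, B = Fintype.piFinset fun _ : Fin t => range Q := ⟨_, rfl⟩
  obtain ⟨ψ, hψ⟩ : ∃ ψ : (Fin t → ℕ) → Fin j → ℕ, ψ = fun x i => ∑ l, x l ^ (i.1 + 1) :=
    ⟨_, rfl⟩
  obtain ⟨V, hV⟩ : ∃ V, V = Fintype.piFinset fun i : Fin j => range (t * Q ^ (i.1 + 1) + 1) :=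
    ⟨_, rfl⟩
  have hmaps : ∀ x ∈ B, ψ x ∈ V := fun x hx => by
    rw [hV, Fintype.mem_piFinset]
    refine fun i => mem_range.2 (Nat.lt_succ_of_le ?_)
    rw [hψ]
    refine (sum_le_card_nsmul _ _ (Q ^ (i.1 + 1)) fun l _ => ?_).trans_eq (by simp)
    rw [hB, Fintype.mem_piFinset] at hx
    exact Nat.pow_le_pow_left (mem_range.1 (hx l)).le _
  obtain ⟨b, hb⟩ : ∃ b : (Fin j → ℕ) → ℂ,
      b = fun v => ∑ x ∈ B.filter (fun x => ψ x = v), ∏ l, c (x l) := ⟨_, rfl⟩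
  obtain ⟨E, hE⟩ : ∃ E : ι → (Fin j → ℕ) → ℂ,
      E = fun y v => eAdd (∑ i, γ y i * (v i : ℝ)) := ⟨_, rfl⟩
  obtain ⟨G, hG⟩ : ∃ G : ι → ℂ, G = fun y => ∑ v ∈ V, b v * E y v := ⟨_, rfl⟩
  have hpow : ∀ y, (∑ r ∈ range Q, c r * eAdd (∑ i, γ y i * (r : ℝ) ^ (i.1 + 1))) ^ t = G y :=
    fun y => by
    rw [sum_pow', ← hB, hG, hb]
    simp only [sum_mul]
    rw [← sum_fiberwise_of_maps_to hmaps]
    refine sum_congr rfl fun v _ => sum_congr rfl fun x hx => ?_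
    rw [prod_mul_distrib, prod_eAdd_eq, sum_comm, hE]
    refine congrArg _ (congrArg eAdd (sum_congr rfl fun i _ => ?_))
    rw [← (mem_filter.1 hx).2, hψ]
    push_cast
    rw [mul_sum]
  have hJ : ∑ v ∈ V, ‖b v‖ ^ 2 ≤ ((VMC.solutions j t Q).card : ℝ) := by
    have hf : ∑ v ∈ V, #(B.filter fun x => ψ x = v) ^ 2 ≤ #(VMC.solutions j t Q) := by
      rw [card_eq_sum_card_fiberwise (f := fun z => ψ z.1) (t := V) (s := VMC.solutions j t Q)
        fun z hz => hmaps _ (hB ▸ (mem_product.1 (mem_filter.1 hz).1).1)]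
      refine sum_le_sum fun v _ => ?_
      rw [sq, ← card_product]
      refine card_le_card fun z hz => ?_
      simp only [mem_product, mem_filter, hB] at hz
      simp only [VMC.solutions, mem_filter, mem_product]
      refine ⟨⟨⟨hz.1.1, hz.2.1⟩, funext fun i => ?_⟩, hz.1.2⟩
      have h := congrArg (fun n : ℕ => (n : ℤ)) (congrFun (hz.1.2.trans hz.2.2.symm) i)
      simp only [hψ] at h
      push_cast at h
      exact h
    refine le_trans (sum_le_sum (g := fun v => ((#(B.filter fun x => ψ x = v) : ℕ) : ℝ) ^ 2)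
      fun v _ => ?_) (by exact_mod_cast hf)
    refine pow_le_pow_left₀ (norm_nonneg _) ?_ 2
    rw [hb]
    refine (norm_sum_le _ _).trans ((sum_le_card_nsmul _ _ 1 fun x _ => ?_).trans (by simp))
    rw [norm_prod]
    exact prod_le_one (fun _ _ => norm_nonneg _) fun l _ => hc _
  obtain ⟨D, hD⟩ : ∃ D : (Fin j → ℕ) → ℂ, D = fun v => ∑ y ∈ T, conj (G y) * E y v := ⟨_, rfl⟩
  obtain ⟨W, hW⟩ : ∃ W : ι → ι → ℝ, W = fun y y' =>
      ∏ i : Fin j, ‖∑ l ∈ range (t * Q ^ (i.1 + 1) + 1), eAdd (l * (γ y' i - γ y i))‖ := ⟨_, rfl⟩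
  have hker : ∀ y y', ∑ v ∈ V, E y' v * conj (E y v) =
      ∏ i : Fin j, ∑ l ∈ range (t * Q ^ (i.1 + 1) + 1), eAdd (l * (γ y' i - γ y i)) :=
    fun y y' => by
    rw [hV, prod_univ_sum]
    refine sum_congr rfl fun v _ => ?_
    rw [prod_eAdd_eq, hE, conj_eAdd, ← eAdd_add, ← sum_neg_distrib, ← sum_add_distrib]
    refine congrArg eAdd (sum_congr rfl fun i _ => ?_)
    ring
  have hWs : ∀ y y', W y y' = W y' y := fun y y' => by
    simp only [hW]
    rw [← norm_prod, ← norm_prod, ← hker, ← hker, ← Complex.norm_conj, map_sum]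
    refine congrArg _ (sum_congr rfl fun v _ => ?_)
    rw [map_mul, Complex.conj_conj, mul_comm]
  obtain ⟨S, hS⟩ : ∃ S : ℝ, S = ∑ y ∈ T, ‖G y‖ ^ 2 := ⟨_, rfl⟩
  have hS0 : 0 ≤ S := by rw [hS]; positivity
  have hDS : ∑ v ∈ V, ‖D v‖ ^ 2 ≤ S * A := by
    have e : ((∑ v ∈ V, ‖D v‖ ^ 2 : ℝ) : ℂ) =
        ∑ y ∈ T, ∑ y' ∈ T, G y * conj (G y') * ∑ v ∈ V, E y' v * conj (E y v) := by
      push_cast
      simp only [← Complex.conj_mul', hD, map_sum, map_mul, Complex.conj_conj, sum_mul_sum]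
      simp only [mul_sum]
      rw [sum_comm]
      refine sum_congr rfl fun y _ => ?_
      rw [sum_comm]
      exact sum_congr rfl fun y' _ => sum_congr rfl fun v _ => by ring
    have h1 : ∑ v ∈ V, ‖D v‖ ^ 2 ≤ ∑ y ∈ T, ∑ y' ∈ T, ‖G y‖ * ‖G y'‖ * W y y' := by
      rw [← Real.norm_of_nonneg (by positivity : (0 : ℝ) ≤ ∑ v ∈ V, ‖D v‖ ^ 2),
        ← Complex.norm_real, e]
      refine (norm_sum_le _ _).trans (sum_le_sum fun y _ => (norm_sum_le _ _).trans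
        (sum_le_sum fun y' _ => le_of_eq ?_))
      rw [norm_mul, norm_mul, Complex.norm_conj, hker, norm_prod, hW]
    refine h1.trans ?_
    have h2 : ∑ y ∈ T, ∑ y' ∈ T, ‖G y‖ * ‖G y'‖ * W y y' ≤
        ∑ y ∈ T, ∑ y' ∈ T, (‖G y‖ ^ 2 * W y y' + ‖G y'‖ ^ 2 * W y y') / 2 := by
      refine sum_le_sum fun y _ => sum_le_sum fun y' _ => ?_
      rw [← add_mul, mul_div_right_comm]
      refine mul_le_mul_of_nonneg_right ?_ (by rw [hW]; positivity)
      linarith [two_mul_le_add_sq ‖G y‖ ‖G y'‖]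
    refine h2.trans (le_of_eq_of_le ?_ (le_trans (sum_le_sum fun y hy =>
      mul_le_mul_of_nonneg_left (hA y hy) (sq_nonneg ‖G y‖)) (le_of_eq (by rw [hS, sum_mul]))))
    simp only [← sum_div, sum_add_distrib]
    rw [sum_comm (f := fun y y' => ‖G y'‖ ^ 2 * W y y'),
      show ∑ y ∈ T, ∑ y' ∈ T, ‖G y‖ ^ 2 * W y' y = ∑ y ∈ T, ∑ y' ∈ T, ‖G y‖ ^ 2 * W y y' from
        sum_congr rfl fun y _ => sum_congr rfl fun y' _ => by rw [hWs]]
    simp only [hW, ← mul_sum]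
    ring
  have hSD : S ≤ ∑ v ∈ V, ‖b v‖ * ‖D v‖ := by
    have e : (S : ℂ) = ∑ v ∈ V, b v * D v := by
      rw [hS, hD]
      push_cast
      simp only [← Complex.mul_conj', mul_sum]
      rw [sum_comm]
      refine sum_congr rfl fun y _ => ?_
      rw [hG]
      simp only [sum_mul]
      exact sum_congr rfl fun v _ => by ring
    rw [← Real.norm_of_nonneg hS0, ← Complex.norm_real, e]
    exact (norm_sum_le _ _).trans (le_of_eq (sum_congr rfl fun v _ => norm_mul _ _))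
  have hsq : S ^ 2 ≤ ((VMC.solutions j t Q).card * A) * S := by
    refine (pow_le_pow_left₀ hS0 hSD 2).trans ((sum_mul_sq_le_sq_mul_sq _ _ _).trans ?_)
    refine (mul_le_mul hJ hDS (by positivity) (by positivity)).trans (le_of_eq ?_)
    ring
  refine le_trans (le_of_eq ?_) (show S ≤ (VMC.solutions j t Q).card * A from ?_)
  · rw [hS]
    refine sum_congr rfl fun y _ => ?_
    rw [mul_comm 2 t, pow_mul, ← norm_pow, hpow]
  · rcases hS0.eq_or_lt with h | h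
    · rw [← h]; exact mul_nonneg (Nat.cast_nonneg _) hA0
    · rw [sq] at hsq
      exact le_of_mul_le_mul_right hsq h

/-- Completion: `1 ≤ n ≤ P` is detected on the residues modulo `4 P`. -/
theorem waringSum_complete {k P y : ℕ} (α : ℝ) (hy : y < P) :
    ((4 * P : ℕ) : ℂ) * waringSum k P α = ∑ h ∈ range (4 * P),
      (∑ n ∈ Icc 1 P, eAdd (n * -((h : ℝ) / (4 * P : ℕ)))) * eAdd (-((h : ℝ) * y / (4 * P : ℕ))) *
        ∑ r ∈ range (2 * P), eAdd (α * ((r : ℝ) - y) ^ k + (h : ℝ) * r / (4 * P : ℕ)) := by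
  obtain ⟨M, hM⟩ : ∃ M, M = 4 * P := ⟨_, rfl⟩
  rw [← hM]
  have e : ∀ h : ℕ, (∑ n ∈ Icc 1 P, eAdd (n * -((h : ℝ) / M))) *
      eAdd (-((h : ℝ) * y / M)) *
      (∑ r ∈ range (2 * P), eAdd (α * ((r : ℝ) - y) ^ k + (h : ℝ) * r / M)) =
      ∑ n ∈ Icc 1 P, ∑ r ∈ range (2 * P), eAdd (α * ((r : ℝ) - y) ^ k) *
        eAdd (((r : ℤ) - y - n : ℤ) * (h : ℝ) / M) := fun h => by
    rw [sum_mul, sum_mul]
    refine sum_congr rfl fun n _ => ?_
    rw [mul_sum]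
    refine sum_congr rfl fun r _ => ?_
    rw [← eAdd_add, ← eAdd_add, ← eAdd_add]
    push_cast
    ring_nf
  rw [sum_congr rfl fun h _ => e h, waringSum, sum_comm, mul_sum]
  refine sum_congr rfl fun n hn => ?_
  rw [mem_Icc] at hn
  rw [sum_comm]
  simp only [← mul_sum, sum_eAdd_grid (show 0 < M by omega)]
  rw [sum_eq_single (n + y) (fun r hr hne => ?_) fun h => (h (mem_range.2 (by omega))).elim,
    if_pos (by simp)]
  · push_cast
    ring_nf
  · rw [if_neg, mul_zero]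
    intro hd
    rw [mem_range] at hr
    have := Int.eq_zero_of_abs_lt_dvd hd (abs_lt.2 ⟨by omega, by omega⟩)
    omega

/-- The rows of the kernel. -/
theorem sum_kernel_le {P q : ℕ} [NeZero q] {j t : ℕ} (hj : 1 ≤ j) (ht : 1 ≤ t) {a : ℤ} {α : ℝ}
    (ha : IsUnit (a : ZMod q)) (hα : |α - a / q| ≤ 1 / (q : ℝ) ^ 2) (γ : ℕ → Fin j → ℝ)
    (hγ : ∀ y y', γ y' ⟨j - 1, by omega⟩ - γ y ⟨j - 1, by omega⟩ =
      α * ((j : ℝ) + 1) * ((y : ℝ) - y')) {y : ℕ} (hy : y < P) :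
    ∑ y' ∈ range P,
      ∏ i : Fin j, ‖∑ l ∈ range (t * (2 * P) ^ (i.1 + 1) + 1), eAdd (l * (γ y' i - γ y i))‖ ≤
    20 * ((j : ℝ) + 1) * (2 * t : ℝ) ^ j * (2 * (P : ℝ)) ^ VMC.tri j *
      ((P : ℝ) * (1 / q + 1 / P + q / (P : ℝ) ^ (j + 1))) * (1 + Real.log q) := by
  obtain ⟨i₀, hi₀⟩ : ∃ i₀ : Fin j, i₀ = ⟨j - 1, by omega⟩ := ⟨_, rfl⟩
  simp only [← hi₀] at hγ
  obtain ⟨V, hV⟩ : ∃ V : ℝ, V = ((t * (2 * P) ^ (i₀.1 + 1) + 1 : ℕ) : ℝ) := ⟨_, rfl⟩
  obtain ⟨L, hL⟩ : ∃ L : ℝ,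
      L = ∏ i ∈ univ.erase i₀, ((t * (2 * P) ^ (i.1 + 1) + 1 : ℕ) : ℝ) := ⟨_, rfl⟩
  have hV0 : 0 < V := by rw [hV]; positivity
  have hL0 : 0 ≤ L := by rw [hL]; positivity
  have hkl : ∀ y' ∈ range P,
      ∏ i : Fin j, ‖∑ l ∈ range (t * (2 * P) ^ (i.1 + 1) + 1), eAdd (l * (γ y' i - γ y i))‖ ≤
        L * clip V (α * ((j : ℝ) + 1) * ((y : ℝ) - y')) := fun y' _ => by
    rw [← mul_prod_erase _ _ (mem_univ i₀), mul_comm L]
    refine mul_le_mul ?_ ?_ (by positivity) (clip_nonneg hV0.le _)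
    · rw [← hγ, hV]
      exact norm_geom_range_le _ _
    · rw [hL]
      refine prod_le_prod (fun i _ => norm_nonneg _) fun i _ => ?_
      exact (norm_geom_range_le _ _).trans (clip_le _ _)
  refine (sum_le_sum hkl).trans ?_
  rw [← mul_sum]
  have hS : ∑ y' ∈ range P, clip V (α * ((j : ℝ) + 1) * ((y : ℝ) - y')) ≤
      2 * ∑ m ∈ range ((j + 1) * P), clip V (0 + α * m) := by
    have half : ∀ (S : Finset ℕ) (f : ℕ → ℕ), Set.InjOn f S → (∀ x ∈ S, f x < P) →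
        ∑ x ∈ S, clip V (α * ((j : ℝ) + 1) * (f x : ℝ)) ≤
          ∑ m ∈ range ((j + 1) * P), clip V (0 + α * m) := fun S f hf hfP => by
      rw [show ∑ x ∈ S, clip V (α * ((j : ℝ) + 1) * (f x : ℝ)) =
        ∑ m ∈ S.image fun x => (j + 1) * f x, clip V (0 + α * m) by
          rw [sum_image fun x hx x' hx' e =>
            hf hx hx' (Nat.eq_of_mul_eq_mul_left (Nat.succ_pos j) e)]
          refine sum_congr rfl fun x _ => ?_
          push_cast
          ring_nf]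
      refine sum_le_sum_of_subset_of_nonneg (fun m hm => ?_) fun m _ _ => clip_nonneg hV0.le _
      obtain ⟨x, hx, rfl⟩ := mem_image.1 hm
      exact mem_range.2 (Nat.mul_lt_mul_of_pos_left (hfP x hx) (Nat.succ_pos j))
    rw [← sum_filter_add_sum_filter_not (range P) (fun y' => y' ≤ y), two_mul]
    refine add_le_add (le_of_eq_of_le (sum_congr rfl fun y' hy' => ?_)
      (half _ (fun y' => y - y') (fun a ha b hb e => ?_) fun y' hy' => by omega))
      (le_of_eq_of_le (sum_congr rfl fun y' hy' => ?_)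
      (half _ (fun y' => y' - y) (fun a ha b hb e => ?_) fun y' hy' => ?_))
    · rw [mem_filter] at hy'
      rw [Nat.cast_sub hy'.2]
    · simp only [mem_coe, mem_filter] at ha hb
      simp only at e
      omega
    · rw [mem_filter, not_le] at hy'
      rw [Nat.cast_sub hy'.2.le, ← clip_neg]
      ring_nf
    · simp only [mem_coe, mem_filter, not_le] at ha hb
      simp only at e
      omega
    · simp only [mem_filter, mem_range] at hy'
      omega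
  refine (mul_le_mul_of_nonneg_left (hS.trans (mul_le_mul_of_nonneg_left
    (sum_clip_range_le ha hα 0 hV0.le _) two_pos.le)) hL0).trans ?_
  have hP : (1 : ℝ) ≤ P := by exact_mod_cast (show 1 ≤ P by omega)
  have hq : (0 : ℝ) < q := Nat.cast_pos.2 (NeZero.pos q)
  obtain ⟨G, hG⟩ : ∃ G : ℝ, G = 1 + Real.log q := ⟨_, rfl⟩
  rw [← hG]
  have hG1 : 1 ≤ G := by rw [hG]; linarith [Real.log_natCast_nonneg q]
  have hVP : (P : ℝ) ^ j ≤ V := by
    rw [hV]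
    push_cast
    rw [hi₀, show j - 1 + 1 = j by omega]
    have h1 : (P : ℝ) ^ j ≤ (2 * (P : ℝ)) ^ j := pow_le_pow_left₀ (by linarith) (by linarith) j
    have h2 : (2 * (P : ℝ)) ^ j ≤ (t : ℝ) * (2 * P) ^ j :=
      le_mul_of_one_le_left (by positivity) (by exact_mod_cast ht)
    linarith
  have hall : L * V ≤ (2 * t : ℝ) ^ j * (2 * (P : ℝ)) ^ VMC.tri j := by
    rw [hL, hV, mul_comm,
      mul_prod_erase _ (fun i : Fin j => ((t * (2 * P) ^ (i.1 + 1) + 1 : ℕ) : ℝ))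
      (mem_univ i₀)]
    refine (prod_le_prod (g := fun i : Fin j => 2 * (t : ℝ) * (2 * (P : ℝ)) ^ (i.1 + 1))
      (fun i _ => by positivity) fun i _ => ?_).trans (le_of_eq (by
        rw [prod_mul_distrib, prod_const, card_univ, Fintype.card_fin, prod_pow_eq_pow_sum,
          VMC.tri, Fin.sum_univ_eq_sum_range (fun i => i + 1)]))
    push_cast
    have h1 : (1 : ℝ) ≤ (2 * P) ^ (i.1 + 1) := one_le_pow₀ (by linarith)
    have h2 : (1 : ℝ) ≤ t := by exact_mod_cast ht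
    linarith [one_le_mul_of_one_le_of_one_le h2 h1]
  obtain ⟨X, hX⟩ : ∃ X : ℝ, X = (P : ℝ) * (1 / q + 1 / P + q / (P : ℝ) ^ (j + 1)) := ⟨_, rfl⟩
  rw [← hX]
  have hX' : X = P / q + 1 + q / (P : ℝ) ^ j := by
    rw [hX, pow_succ]; field_simp
  have hkey : (((((j + 1) * P : ℕ) : ℝ)) / q + 1) * (5 * V + 2 * q * G) ≤
      10 * ((j : ℝ) + 1) * X * G * V := by
    have hqV : (q : ℝ) ≤ q / (P : ℝ) ^ j * V := by
      rw [div_mul_eq_mul_div, le_div_iff₀ (by positivity)]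
      exact mul_le_mul_of_nonneg_left hVP hq.le
    have hPj : (P : ℝ) ≤ V := (le_self_pow₀ hP (by omega)).trans hVP
    have hj1 : (1 : ℝ) ≤ (j : ℝ) + 1 := by linarith [(Nat.cast_nonneg j : (0 : ℝ) ≤ j)]
    push_cast
    rw [show (((j : ℝ) + 1) * P / q + 1) * (5 * V + 2 * q * G) =
      5 * ((j : ℝ) + 1) * (P / q) * V + 2 * ((j : ℝ) + 1) * P * G + 5 * V + 2 * q * G by
        field_simp; ring]
    have hpq : 0 ≤ (P : ℝ) / q * V := by positivity
    have a1 : 5 * ((j : ℝ) + 1) * (P / q) * V ≤ 5 * ((j : ℝ) + 1) * (P / q * V) * G := by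
      rw [mul_assoc _ ((P : ℝ) / q)]
      exact le_mul_of_one_le_right (by positivity) hG1
    have a2 : 2 * ((j : ℝ) + 1) * P * G ≤ 2 * ((j : ℝ) + 1) * V * G := by gcongr
    have a3 : 5 * V ≤ 5 * ((j : ℝ) + 1) * V * G := by
      refine le_trans ?_ (le_mul_of_one_le_right (by positivity) hG1)
      exact mul_le_mul_of_nonneg_right (le_mul_of_one_le_right (by norm_num) hj1) hV0.le
    have a4 : 2 * q * G ≤ 2 * ((j : ℝ) + 1) * (q / (P : ℝ) ^ j * V) * G := by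
      refine mul_le_mul_of_nonneg_right ((mul_le_mul_of_nonneg_left hqV two_pos.le).trans
        (mul_le_mul_of_nonneg_right (le_mul_of_one_le_right two_pos.le hj1) (by positivity)))
        (by linarith)
    have n1 : 0 ≤ ((j : ℝ) + 1) * (P / q * V) * G := by positivity
    have n2 : 0 ≤ ((j : ℝ) + 1) * (q / (P : ℝ) ^ j * V) * G := by positivity
    have n3 : 0 ≤ ((j : ℝ) + 1) * V * G := by positivity
    rw [hX']
    linarith
  calc L * (2 * ((((((j + 1) * P : ℕ) : ℝ)) / q + 1) * (5 * V + 2 * q * G)))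
      ≤ L * (2 * (10 * ((j : ℝ) + 1) * X * G * V)) := by
        exact mul_le_mul_of_nonneg_left (mul_le_mul_of_nonneg_left hkey two_pos.le) hL0
    _ = L * V * (20 * ((j : ℝ) + 1) * X * G) := by ring
    _ ≤ (2 * t : ℝ) ^ j * (2 * (P : ℝ)) ^ VMC.tri j * (20 * ((j : ℝ) + 1) * X * G) :=
        mul_le_mul_of_nonneg_right hall (by rw [hX']; positivity)
    _ = _ := by ring

theorem exists_log_le {δ : ℝ} (hδ : 0 < δ) : ∃ L : ℝ, 1 ≤ L ∧ ∀ x : ℝ, 1 ≤ x →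
    1 + Real.log x ≤ L * x ^ δ := by
  refine ⟨1 + 1 / δ, le_add_of_nonneg_right (by positivity), fun x hx => ?_⟩
  have h := Real.log_le_rpow_div (show 0 ≤ x by linarith) hδ
  have h1 : (1 : ℝ) ≤ x ^ δ := Real.one_le_rpow hx hδ.le
  rw [add_mul, one_mul, one_div_mul_eq_div]
  linarith

/-- **Weyl's inequality with the exponent `k (k - 1)`.** -/
theorem exists_weyl_meanValue {k : ℕ} (hk : 2 ≤ k) {ε : ℝ} (hε : 0 < ε) : ∃ C : ℝ, 0 < C ∧
    ∀ (P q : ℕ) [NeZero q] (a : ℤ) (α : ℝ), 1 ≤ P → IsUnit (a : ZMod q) →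
      |α - a / q| ≤ 1 / (q : ℝ) ^ 2 →
        ‖waringSum k P α‖ ^ (k * (k - 1)) ≤ C * (P : ℝ) ^ (((k * (k - 1) : ℕ) : ℝ) + ε) *
          (1 / (q : ℝ) + 1 / P + q / (P : ℝ) ^ k) := by
  obtain ⟨j, rfl⟩ : ∃ j, k = j + 1 := ⟨k - 1, by omega⟩
  have hj : 1 ≤ j := by omega
  obtain ⟨t, htdef⟩ : ∃ t, t = VMC.tri j := ⟨_, rfl⟩
  have ht : 1 ≤ t := htdef ▸ VMC.tri_pos hj
  rw [Nat.add_sub_cancel, show (j + 1) * j = 2 * t by rw [htdef, VMC.two_mul_tri, mul_comm]]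
  obtain ⟨δ, hδ⟩ : ∃ δ : ℝ, δ = ε / (3 * (2 * t + j + 1 : ℕ)) := ⟨_, rfl⟩
  have hδ0 : 0 < δ := by rw [hδ]; positivity
  obtain ⟨C, hC⟩ := VMC.solutions_bound hj t hδ0
  obtain ⟨L, hL1, hL⟩ := exists_log_le hδ0
  obtain ⟨K, hKdef⟩ : ∃ K : ℝ, K = (13 * L * (4 : ℝ) ^ δ / 4) ^ (2 * t) *
      (40 * |C| * (2 : ℝ) ^ δ * ((j : ℝ) + 1) * (2 * t : ℝ) ^ j * (4 : ℝ) ^ t * L) := ⟨_, rfl⟩
  have hK : 0 ≤ K := by rw [hKdef]; positivity
  refine ⟨K + 1, by positivity, fun P q _ a α hP ha hα => ?_⟩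
  have hP1 : (1 : ℝ) ≤ P := by exact_mod_cast hP
  have hq1 : (1 : ℝ) ≤ q := by exact_mod_cast (NeZero.pos q : 0 < q)
  obtain ⟨Δ, hΔ⟩ : ∃ Δ : ℝ, Δ = 1 / (q : ℝ) + 1 / P + q / (P : ℝ) ^ (j + 1) := ⟨_, rfl⟩
  rw [← hΔ]
  have hΔ0 : 0 ≤ Δ := by rw [hΔ]; positivity
  rcases lt_or_ge ((P : ℝ) ^ (j + 1)) q with hbig | hq
  · have h1 : 1 ≤ Δ := by
      have : 1 ≤ (q : ℝ) / (P : ℝ) ^ (j + 1) := (one_le_div (by positivity)).2 hbig.le
      have h0 : 0 ≤ 1 / (q : ℝ) + 1 / P := by positivity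
      rw [hΔ]; linarith
    refine (pow_le_pow_left₀ (norm_nonneg _) (norm_waringSum_le _ _ _) _).trans ?_
    rw [← Real.rpow_natCast]
    refine le_trans ?_ (le_mul_of_one_le_right (by positivity) h1)
    refine le_trans (Real.rpow_le_rpow_of_exponent_le hP1
      (show ((2 * t : ℕ) : ℝ) ≤ ((2 * t : ℕ) : ℝ) + ε by linarith)) ?_
    exact le_mul_of_one_le_left (by positivity) (by linarith)
  -- the completed sums, on average over `y`
  obtain ⟨M, hM⟩ : ∃ M, M = 4 * P := ⟨_, rfl⟩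
  have : NeZero M := ⟨by omega⟩
  obtain ⟨g, hg⟩ : ∃ g : ℕ → ℕ → ℂ, g = fun (h y : ℕ) =>
      ∑ r ∈ range (2 * P), eAdd (α * ((r : ℝ) - y) ^ (j + 1) + (h : ℝ) * r / M) := ⟨_, rfl⟩
  obtain ⟨G, hG⟩ : ∃ G : ℕ → ℝ, G = fun h => ∑ y ∈ range P, ‖g h y‖ := ⟨_, rfl⟩
  obtain ⟨h₀, -, hmax⟩ := exists_max_image (range M) G ⟨0, mem_range.2 (by omega)⟩
  obtain ⟨Z, hZdef⟩ : ∃ Z : ℝ,
      Z = ∑ h ∈ range M, ‖∑ n ∈ Icc 1 P, eAdd (n * -((h : ℝ) / M))‖ := ⟨_, rfl⟩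
  have hG0 : 0 ≤ G h₀ := by rw [hG]; positivity
  have hZ0 : 0 ≤ Z := by rw [hZdef]; positivity
  have h1 : (M : ℝ) * P * ‖waringSum (j + 1) P α‖ ≤ Z * G h₀ := by
    have hy : ∀ y ∈ range P, (M : ℝ) * ‖waringSum (j + 1) P α‖ ≤
        ∑ h ∈ range M, ‖∑ n ∈ Icc 1 P, eAdd (n * -((h : ℝ) / M))‖ * ‖g h y‖ := fun y hy => by
      rw [show (M : ℝ) * ‖waringSum (j + 1) P α‖ = ‖(M : ℂ) * waringSum (j + 1) P α‖ by
        rw [norm_mul, Complex.norm_natCast], hM, waringSum_complete α (mem_range.1 hy), ← hM]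
      refine (norm_sum_le _ _).trans (le_of_eq (sum_congr rfl fun h _ => ?_))
      rw [norm_mul, norm_mul, norm_eAdd, mul_one, hg]
    have h2 := sum_le_sum hy
    rw [sum_const, card_range, nsmul_eq_mul, sum_comm] at h2
    rw [mul_comm (M : ℝ), mul_assoc, hZdef, sum_mul]
    refine h2.trans (sum_le_sum fun h hh => ?_)
    rw [← mul_sum]
    refine mul_le_mul_of_nonneg_left ?_ (norm_nonneg _)
    simpa [hG] using hmax h hh
  have hZ : Z ≤ 13 * L * (4 : ℝ) ^ δ * P * (P : ℝ) ^ δ := by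
    have h2 : Z ≤ ∑ h ∈ range M, clip (P : ℝ) ((h : ℝ) / M - 0) := by
      rw [hZdef]
      refine sum_le_sum fun h _ => ?_
      have h3 := norm_geom_le (-((h : ℝ) / M)) 0 P
      rw [clip_neg, Nat.sub_zero] at h3
      rw [sub_zero]
      exact h3
    refine h2.trans ((sum_clip_grid_le 0 (Nat.cast_nonneg P)).trans ?_)
    have hl := hL M (by exact_mod_cast (NeZero.pos M : 0 < M))
    rw [hM] at hl ⊢
    push_cast at hl ⊢
    rw [Real.mul_rpow (by norm_num) (by linarith)] at hl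
    have h4 : 1 ≤ L * ((4 : ℝ) ^ δ * (P : ℝ) ^ δ) :=
      one_le_mul_of_one_le_of_one_le hL1 (one_le_mul_of_one_le_of_one_le
        (Real.one_le_rpow (by norm_num) hδ0.le) (Real.one_le_rpow hP1 hδ0.le))
    have := mul_le_mul_of_nonneg_left hl (show 0 ≤ 8 * (P : ℝ) by positivity)
    have := mul_le_mul_of_nonneg_left h4 (show 0 ≤ 5 * (P : ℝ) by positivity)
    linarith
  have hGmax : G h₀ ^ (2 * t) ≤ (P : ℝ) ^ (2 * t - 1) *
      (|C| * (2 : ℝ) ^ δ * (P : ℝ) ^ δ * (2 * (2 * (P : ℝ)) ^ t) *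
        (20 * ((j : ℝ) + 1) * (2 * t : ℝ) ^ j * (2 * (P : ℝ)) ^ t *
          ((P : ℝ) * Δ) * (L * ((P : ℝ) ^ δ) ^ (j + 1)))) := by
    obtain ⟨γ, hγ⟩ : ∃ γ : ℕ → Fin j → ℝ, γ = fun (y : ℕ) (i : Fin j) =>
        α * ((j + 1).choose (i.1 + 1) : ℝ) * (-(y : ℝ)) ^ (j - i.1) := ⟨_, rfl⟩
    obtain ⟨c, hc⟩ : ∃ c : ℕ → ℂ,
        c = fun (r : ℕ) => eAdd (α * (r : ℝ) ^ (j + 1) + (h₀ : ℝ) * r / M) := ⟨_, rfl⟩
    have hexp : ∀ y : ℕ, ‖g h₀ y‖ =
        ‖∑ r ∈ range (2 * P), c r * eAdd (∑ i, γ y i * (r : ℝ) ^ (i.1 + 1))‖ := fun y => by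
      rw [hg, ← one_mul ‖∑ r ∈ range (2 * P), c r * eAdd _‖,
        ← norm_eAdd (α * (-(y : ℝ)) ^ (j + 1)), ← norm_mul, mul_sum]
      refine congrArg _ (sum_congr rfl fun r _ => ?_)
      have key : α * ((r : ℝ) - y) ^ (j + 1) = α * (-(y : ℝ)) ^ (j + 1) + α * (r : ℝ) ^ (j + 1) +
          ∑ i ∈ range j,
            α * ((j + 1).choose (i + 1) : ℝ) * (-(y : ℝ)) ^ (j - i) * (r : ℝ) ^ (i + 1) := by
        rw [sub_eq_add_neg, add_pow, sum_range_succ, sum_range_succ']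
        simp only [Nat.choose_self, Nat.choose_zero_right, Nat.sub_self, Nat.sub_zero, pow_zero,
          Nat.cast_one, mul_one, one_mul, Nat.add_sub_add_right]
        rw [mul_add, mul_add, mul_sum, sum_congr rfl fun i _ =>
          show α * ((r : ℝ) ^ (i + 1) * (-(y : ℝ)) ^ (j - i) * ((j + 1).choose (i + 1) : ℝ)) =
            α * ((j + 1).choose (i + 1) : ℝ) * (-(y : ℝ)) ^ (j - i) * (r : ℝ) ^ (i + 1) by ring]
        ring
      rw [hc, ← eAdd_add, ← eAdd_add, key, ← Fin.sum_univ_eq_sum_range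
        (fun i => α * ((j + 1).choose (i + 1) : ℝ) * (-(y : ℝ)) ^ (j - i) * (r : ℝ) ^ (i + 1)) j,
        hγ]
      ring_nf
    have hS : ∑ y ∈ range P, ‖g h₀ y‖ ^ (2 * t) ≤
        (VMC.solutions j t (2 * P)).card * (20 * ((j : ℝ) + 1) * (2 * t : ℝ) ^ j *
          (2 * (P : ℝ)) ^ t * ((P : ℝ) * Δ) * (1 + Real.log q)) := by
      simp only [hexp]
      refine sum_pow_le_solutions (range P) c (fun r => by rw [hc, norm_eAdd]) γ
        (mul_nonneg (by positivity) (by linarith [Real.log_natCast_nonneg q])) fun y hy => ?_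
      rw [hΔ, htdef]
      refine sum_kernel_le hj (htdef ▸ ht) ha hα γ (fun y y' => ?_) (mem_range.1 hy)
      rw [hγ]
      simp only [show j - 1 + 1 = j by omega, show j - (j - 1) = 1 by omega, pow_one,
        Nat.choose_succ_self_right]
      push_cast
      ring
    have hJ : ((VMC.solutions j t (2 * P)).card : ℝ) ≤
        |C| * (2 : ℝ) ^ δ * (P : ℝ) ^ δ * (2 * (2 * (P : ℝ)) ^ t) := by
      refine (hC (2 * P) (by omega)).trans ((mul_le_mul_of_nonneg_right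
        (mul_le_mul_of_nonneg_right (le_abs_self C) (by positivity)) (by positivity)).trans
          (le_of_eq ?_))
      rw [← htdef, show 2 * (t : ℝ) - (t : ℝ) = (t : ℝ) by ring, ← two_mul, Real.rpow_natCast]
      push_cast
      rw [Real.mul_rpow two_pos.le (by linarith)]
      ring
    have hlog : 1 + Real.log q ≤ L * ((P : ℝ) ^ δ) ^ (j + 1) := by
      refine (hL q hq1).trans (mul_le_mul_of_nonneg_left ?_ (by linarith))
      refine (Real.rpow_le_rpow (by linarith) hq hδ0.le).trans (le_of_eq ?_)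
      rw [← Real.rpow_natCast, ← Real.rpow_natCast, ← Real.rpow_mul (by linarith),
        ← Real.rpow_mul (by linarith), mul_comm]
    rw [hG]
    obtain ⟨n, hn⟩ : ∃ n, 2 * t = n + 1 := ⟨2 * t - 1, by omega⟩
    rw [hn] at hS ⊢
    refine (pow_sum_le_card_mul_sum_pow (fun y _ => norm_nonneg _) n).trans ?_
    rw [card_range, Nat.add_sub_cancel]
    refine mul_le_mul_of_nonneg_left (hS.trans (mul_le_mul hJ
      (mul_le_mul_of_nonneg_left hlog (by positivity))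
      (mul_nonneg (by positivity) (by linarith [Real.log_natCast_nonneg q])) (by positivity)))
      (by positivity)
  have hMP : (0 : ℝ) < (M : ℝ) * P := by rw [hM]; positivity
  refine le_of_mul_le_mul_left ?_ (pow_pos hMP (2 * t))
  rw [← mul_pow]
  refine (pow_le_pow_left₀ (by positivity) h1 _).trans ?_
  rw [mul_pow]
  refine (mul_le_mul (pow_le_pow_left₀ hZ0 hZ _) hGmax (by positivity) (by positivity)).trans ?_
  obtain ⟨n, hn⟩ : ∃ n, 2 * t = n + 1 := ⟨2 * t - 1, by omega⟩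
  have e1 : ((P : ℝ) ^ δ) ^ (2 * t + 1 + (j + 1)) ≤ (P : ℝ) ^ ε := by
    rw [← Real.rpow_natCast _ (_ + _), ← Real.rpow_mul (by linarith)]
    refine Real.rpow_le_rpow_of_exponent_le hP1 ?_
    rw [hδ, div_mul_eq_mul_div, div_le_iff₀ (by positivity)]
    refine mul_le_mul_of_nonneg_left ?_ hε.le
    push_cast
    linarith [(Nat.cast_nonneg t : (0 : ℝ) ≤ t), (Nat.cast_nonneg j : (0 : ℝ) ≤ j)]
  rw [Real.rpow_add (by linarith : (0 : ℝ) < P), Real.rpow_natCast]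
  calc (13 * L * (4 : ℝ) ^ δ * P * (P : ℝ) ^ δ) ^ (2 * t) * ((P : ℝ) ^ (2 * t - 1) *
        (|C| * (2 : ℝ) ^ δ * (P : ℝ) ^ δ * (2 * (2 * (P : ℝ)) ^ t) *
          (20 * ((j : ℝ) + 1) * (2 * t : ℝ) ^ j * (2 * (P : ℝ)) ^ t * ((P : ℝ) * Δ) *
            (L * ((P : ℝ) ^ δ) ^ (j + 1)))))
      = ((M : ℝ) * P) ^ (2 * t) * (K * ((P : ℝ) ^ (2 * t) *
          ((P : ℝ) ^ δ) ^ (2 * t + 1 + (j + 1))) * Δ) := by
        rw [hM, hKdef, pow_add _ _ (j + 1), pow_add _ (2 * t) 1, pow_one, hn, Nat.add_sub_cancel,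
          ← hn, show (4 : ℝ) ^ t = 2 ^ t * 2 ^ t by rw [← mul_pow]; norm_num]
        push_cast
        have hnt : (P : ℝ) ^ (2 * t) = (P : ℝ) ^ n * P := by rw [hn, pow_succ]
        simp only [mul_pow, div_pow]
        field_simp
        linear_combination -(40 * |C| * Δ * (P : ℝ) ^ (2 * t)) * hnt
    _ ≤ _ := by
        refine mul_le_mul_of_nonneg_left (mul_le_mul_of_nonneg_right ?_ hΔ0) (by positivity)
        exact mul_le_mul (by linarith) (mul_le_mul_of_nonneg_left e1 (by positivity))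
          (by positivity) (by positivity)

end FA.WaringAsymptotic
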