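import Fermat.Agent.WaringAsymptotic.Major

/-!
# The terms of the singular series are multiplicative
-/

set_option autoImplicit false

noncomputable section

namespace FA.WaringAsymptotic

open Finset FA.ThreePrimes

theorem completeSum_congr {k q : ℕ} {a b : ℤ} (hq : 0 < q) (h : (a : ZMod q) = (b : ZMod q)) :
    completeSum k q a = completeSum k q b := by
  have : NeZero q := ⟨hq.ne'⟩
  rw [completeSum_eq_zmod, completeSum_eq_zmod, h]

theorem completeSum_mul_pow {k q : ℕ} (hq : 0 < q) (a : ℤ) {u : ℤ} (hu : IsUnit (u : ZMod q)) :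
    completeSum k q (a * u ^ k) = completeSum k q a := by
  have : NeZero q := ⟨hq.ne'⟩
  rw [completeSum_eq_zmod, completeSum_eq_zmod]
  refine Fintype.sum_equiv (Units.mulLeft hu.unit) _ _ fun x => ?_
  simp [mul_pow, mul_assoc]

theorem eAdd_natCast_div_congr {q : ℕ} (hq : 0 < q) {m n : ℤ}
    (h : (m : ZMod q) = (n : ZMod q)) : eAdd ((m : ℝ) / q) = eAdd ((n : ℝ) / q) := by
  have : NeZero q := ⟨hq.ne'⟩
  rw [eAdd_div_eq_char, eAdd_div_eq_char, h]

/-- The residue with `r / (q₁ q₂) = r₁ / q₁ + r₂ / q₂` modulo one. -/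
def crtResidue (q₁ q₂ r₁ r₂ : ℕ) : ℕ := (r₁ * q₂ + r₂ * q₁) % (q₁ * q₂)

theorem crtResidue_cast_left (q₁ q₂ r₁ r₂ : ℕ) :
    ((crtResidue q₁ q₂ r₁ r₂ : ℕ) : ZMod q₁) = (r₁ : ZMod q₁) * (q₂ : ZMod q₁) := by
  rw [← Nat.cast_mul, ZMod.natCast_eq_natCast_iff', crtResidue, Nat.mod_mul_right_mod,
    Nat.add_mul_mod_self_right]

theorem crtResidue_cast_right (q₁ q₂ r₁ r₂ : ℕ) :
    ((crtResidue q₁ q₂ r₁ r₂ : ℕ) : ZMod q₂) = (r₂ : ZMod q₂) * (q₁ : ZMod q₂) := by
  rw [← Nat.cast_mul, ZMod.natCast_eq_natCast_iff', crtResidue, Nat.mod_mul_left_mod, add_comm,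
    Nat.add_mul_mod_self_right]

/-- The summand of `singularTerm`. -/
def localFactor (k s N q r : ℕ) : ℂ := densityFactor k q r ^ s * eAdd (-((N : ℝ) * r / q))

theorem singularTerm_eq_sum (k s N q : ℕ) :
    singularTerm k s N q = ∑ r ∈ unitResidues q, localFactor k s N q r := rfl

theorem localFactor_mul {k s N q₁ q₂ : ℕ} (hk : 1 ≤ k) (hco : q₁.Coprime q₂) (h₁ : 0 < q₁)
    (h₂ : 0 < q₂) (r₁ r₂ : ℕ) :
    localFactor k s N (q₁ * q₂) (crtResidue q₁ q₂ r₁ r₂) =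
      localFactor k s N q₁ r₁ * localFactor k s N q₂ r₂ := by
  obtain ⟨r, hr⟩ : ∃ r, r = crtResidue q₁ q₂ r₁ r₂ := ⟨_, rfl⟩
  have u₁ : IsUnit (((q₂ : ℕ) : ℤ) : ZMod q₁) := by
    rw [Int.cast_natCast]; exact (ZMod.isUnit_iff_coprime q₂ q₁).2 hco.symm
  have u₂ : IsUnit (((q₁ : ℕ) : ℤ) : ZMod q₂) := by
    rw [Int.cast_natCast]; exact (ZMod.isUnit_iff_coprime q₁ q₂).2 hco
  have e₁ : completeSum k q₁ ((r : ℤ) * (q₂ : ℤ) ^ (k - 1)) = completeSum k q₁ r₁ := by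
    rw [← completeSum_mul_pow (k := k) h₁ (r₁ : ℤ) u₁]
    refine completeSum_congr h₁ ?_
    push_cast
    rw [hr, crtResidue_cast_left, mul_assoc, ← pow_succ', Nat.sub_add_cancel hk]
  have e₂ : completeSum k q₂ ((r : ℤ) * (q₁ : ℤ) ^ (k - 1)) = completeSum k q₂ r₂ := by
    rw [← completeSum_mul_pow (k := k) h₂ (r₂ : ℤ) u₂]
    refine completeSum_congr h₂ ?_
    push_cast
    rw [hr, crtResidue_cast_right, mul_assoc, ← pow_succ', Nat.sub_add_cancel hk]
  have e₃ : eAdd (-((N : ℝ) * r / (q₁ * q₂ : ℕ))) =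
      eAdd (-((N : ℝ) * r₁ / q₁)) * eAdd (-((N : ℝ) * r₂ / q₂)) := by
    rw [← eAdd_add]
    obtain ⟨m, hm⟩ : ∃ m, m = (r₁ * q₂ + r₂ * q₁) / (q₁ * q₂) := ⟨_, rfl⟩
    have h : (r₁ : ℝ) * q₂ + r₂ * q₁ = r + (q₁ * q₂ : ℕ) * m := by
      rw [hr, crtResidue, hm]
      exact_mod_cast (Nat.mod_add_div (r₁ * q₂ + r₂ * q₁) (q₁ * q₂)).symm
    rw [← eAdd_add_intCast (-((N : ℝ) * r₁ / q₁) + -((N : ℝ) * r₂ / q₂)) ((N : ℤ) * m)]
    congr 1
    have : (q₁ : ℝ) ≠ 0 := Nat.cast_ne_zero.2 h₁.ne'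
    have : (q₂ : ℝ) ≠ 0 := Nat.cast_ne_zero.2 h₂.ne'
    push_cast at h ⊢
    field_simp
    linear_combination (N : ℝ) * h
  simp only [localFactor, densityFactor, ← hr]
  rw [completeSum_mul hk hco h₁.ne' h₂.ne', e₁, e₂, e₃, Nat.cast_mul, mul_div_mul_comm, mul_pow]
  ring

theorem crtResidue_mem {q₁ q₂ r₁ r₂ : ℕ} (hco : q₁.Coprime q₂) (hr₁ : r₁ ∈ unitResidues q₁)
    (hr₂ : r₂ ∈ unitResidues q₂) : crtResidue q₁ q₂ r₁ r₂ ∈ unitResidues (q₁ * q₂) := by
  rw [unitResidues, mem_filter, mem_range] at hr₁ hr₂ ⊢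
  refine ⟨Nat.mod_lt _ (Nat.mul_pos (by omega) (by omega)), ?_⟩
  refine Nat.Coprime.mul_left ?_ ?_
  · refine ((ZMod.isUnit_iff_coprime _ q₁).1 ?_).symm
    rw [crtResidue_cast_left]
    exact ((ZMod.isUnit_iff_coprime r₁ q₁).2 hr₁.2.symm).mul
      ((ZMod.isUnit_iff_coprime q₂ q₁).2 hco.symm)
  · refine ((ZMod.isUnit_iff_coprime _ q₂).1 ?_).symm
    rw [crtResidue_cast_right]
    exact ((ZMod.isUnit_iff_coprime r₂ q₂).2 hr₂.2.symm).mul
      ((ZMod.isUnit_iff_coprime q₁ q₂).2 hco)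

/-- Sums over the unit residues of a product of coprime numbers. -/
theorem sum_unitResidues_mul {G : Type*} [AddCommMonoid G] {m n : ℕ} (h : m.Coprime n)
    (F : ℕ → G) :
    ∑ r ∈ unitResidues (m * n), F r =
      ∑ a ∈ unitResidues m, ∑ b ∈ unitResidues n, F (crtResidue m n a b) := by
  classical
  rw [← sum_product']
  have hinj : Set.InjOn (fun z : ℕ × ℕ => crtResidue m n z.1 z.2)
      (unitResidues m ×ˢ unitResidues n : Finset (ℕ × ℕ)) := by
    intro z hz w hw e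
    simp only [mem_coe, mem_product, unitResidues, mem_filter, mem_range] at hz hw
    have a1 := congrArg (fun r : ℕ => (r : ZMod m)) e
    have a2 := congrArg (fun r : ℕ => (r : ZMod n)) e
    simp only [crtResidue_cast_left, crtResidue_cast_right] at a1 a2
    have b1 := ((ZMod.isUnit_iff_coprime n m).2 h.symm).mul_right_cancel a1
    have b2 := ((ZMod.isUnit_iff_coprime m n).2 h).mul_right_cancel a2
    rw [ZMod.natCast_eq_natCast_iff', Nat.mod_eq_of_lt hz.1.1, Nat.mod_eq_of_lt hw.1.1] at b1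
    rw [ZMod.natCast_eq_natCast_iff', Nat.mod_eq_of_lt hz.2.1, Nat.mod_eq_of_lt hw.2.1] at b2
    exact Prod.ext b1 b2
  have himg : (unitResidues m ×ˢ unitResidues n).image
      (fun z : ℕ × ℕ => crtResidue m n z.1 z.2) = unitResidues (m * n) := by
    refine eq_of_subset_of_card_le (fun r hr => ?_) ?_
    · obtain ⟨z, hz, rfl⟩ := mem_image.1 hr
      exact crtResidue_mem h (mem_product.1 hz).1 (mem_product.1 hz).2
    · rw [card_image_of_injOn hinj, card_product, card_unitResidues, card_unitResidues,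
        card_unitResidues, Nat.totient_mul h]
  rw [← himg, sum_image hinj]

/-- **Multiplicativity.** -/
theorem singularTerm_mul {k s N m n : ℕ} (hk : 1 ≤ k) (h : m.Coprime n) :
    singularTerm k s N (m * n) = singularTerm k s N m * singularTerm k s N n := by
  rcases Nat.eq_zero_or_pos m with rfl | hm
  · simp [singularTerm, unitResidues]
  rcases Nat.eq_zero_or_pos n with rfl | hn
  · simp [singularTerm, unitResidues]
  simp only [singularTerm_eq_sum]
  rw [sum_mul_sum, sum_unitResidues_mul h]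
  exact sum_congr rfl fun a _ => sum_congr rfl fun b _ => localFactor_mul hk h hm hn a b

end FA.WaringAsymptotic
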