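import Fermat.Agent.WaringAsymptotic.Local
import Mathlib.NumberTheory.EulerProduct.Basic

/-!
# The singular series is positive

The local factors are at least `p ^ (-(2 v_p k + 1) (s - 1))` and `1 - O (p ^ -(7/5))`, so their
product is bounded below uniformly in `N`; every large `N` is a sum of `s` positive `k`-th powers.
-/

set_option autoImplicit false

noncomputable section

namespace FA.WaringAsymptotic

open Finset FA.ThreePrimes Filter Topology

/-- The local factor. -/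
def localDensity (k s N p : ℕ) : ℂ := ∑' l, singularTerm k s N (p ^ l)

/-- Weierstrass' inequality. -/
theorem one_sub_sum_le_prod {ι : Type*} (S : Finset ι) (a : ι → ℝ) (h0 : ∀ i ∈ S, 0 ≤ a i)
    (h1 : ∀ i ∈ S, a i ≤ 1) : 1 - ∑ i ∈ S, a i ≤ ∏ i ∈ S, (1 - a i) := by
  classical
  induction S using Finset.induction with
  | empty => simp
  | insert i S hi ih =>
    rw [sum_insert hi, prod_insert hi]
    have h := ih (fun j hj => h0 j (mem_insert_of_mem hj)) fun j hj => h1 j (mem_insert_of_mem hj)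
    have hs : 0 ≤ ∑ j ∈ S, a j := sum_nonneg fun j hj => h0 j (mem_insert_of_mem hj)
    nlinarith [h0 i (mem_insert_self i S), h1 i (mem_insert_self i S),
      mul_le_mul_of_nonneg_left h (sub_nonneg.2 (h1 i (mem_insert_self i S)))]

theorem norm_summable_singularTerm {k s : ℕ} (hk : 2 ≤ k) (hs : 3 * k ≤ s) (N : ℕ) :
    Summable (fun q => ‖singularTerm k s N q‖) := by
  obtain ⟨C, -, h⟩ := exists_singular_tail hk hs
  exact (h N 0).1.norm

theorem localDensity_spec {k s : ℕ} (hk : 2 ≤ k) (hs : 1 ≤ s) (N : ℕ)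
    (hnorm : Summable fun q => ‖singularTerm k s N q‖) {p : ℕ}
    (hp : p.Prime) (hpat : ∃ (y : Fin s → ℕ) (i₀ : Fin s), ¬p ∣ y i₀ ∧
      ((p ^ (2 * padicValNat p k + 1) : ℕ) : ℤ) ∣ ((∑ i, y i ^ k : ℕ) : ℤ) - N) :
    localDensity k s N p = ((localDensity k s N p).re : ℂ) ∧
      1 / ((p ^ (2 * padicValNat p k + 1) : ℕ) : ℝ) ^ (s - 1) ≤ (localDensity k s N p).re := by
  have hsum : Summable fun l => singularTerm k s N (p ^ l) :=
    hnorm.of_norm.comp_injective (Nat.pow_right_injective hp.two_le)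
  have ht : Tendsto (fun n => ∑ l ∈ range n, singularTerm k s N (p ^ l)) atTop
      (𝓝 (localDensity k s N p)) := hsum.hasSum.tendsto_sum_nat
  obtain ⟨γ, hγ⟩ : ∃ γ, γ = 2 * padicValNat p k + 1 := ⟨_, rfl⟩
  have key : ∀ᶠ n in atTop, (∑ l ∈ range n, singularTerm k s N (p ^ l)).im = 0 ∧
      1 / ((p ^ γ : ℕ) : ℝ) ^ (s - 1) ≤ (∑ l ∈ range n, singularTerm k s N (p ^ l)).re := by
    refine eventually_atTop.2 ⟨γ + 1, fun n hn => ?_⟩
    obtain ⟨L, rfl⟩ : ∃ L, n = L + 1 := ⟨n - 1, by omega⟩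
    obtain ⟨v, hv, hle⟩ := localSum_ge_of_pattern hk hs N hp hpat (L := L)
      (by omega)
    rw [hv, Complex.ofReal_im, Complex.ofReal_re, hγ]
    exact ⟨rfl, hle⟩
  have him : (localDensity k s N p).im = 0 :=
    tendsto_nhds_unique ((Complex.continuous_im.tendsto _).comp ht)
      (tendsto_const_nhds.congr' (key.mono fun n hn => hn.1.symm))
  refine ⟨Complex.ext rfl (by rw [him, Complex.ofReal_im]), ?_⟩
  rw [← hγ]
  exact ge_of_tendsto ((Complex.continuous_re.tendsto _).comp ht) (key.mono fun n hn => hn.2)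

theorem exists_localDensity_near_one {k s : ℕ} (hk : 2 ≤ k) (hs : 3 * k ≤ s) : ∃ C : ℝ, 0 < C ∧
    ∀ (N p : ℕ), p.Prime → 1 - C * (p : ℝ) ^ (-(7 / 5) : ℝ) ≤ (localDensity k s N p).re := by
  obtain ⟨C, hC, h⟩ := exists_singularTerm_le hk hs
  refine ⟨2 * C, by positivity, fun N p hp => ?_⟩
  have hp2 : (2 : ℝ) ≤ p := by exact_mod_cast hp.two_le
  obtain ⟨x, hx⟩ : ∃ x, x = (p : ℝ) ^ (-(7 / 5) : ℝ) := ⟨_, rfl⟩
  have hx0 : 0 ≤ x := hx ▸ by positivity
  have hx2 : x ≤ 1 / 2 := by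
    rw [hx, Real.rpow_neg (by linarith), ← one_div]
    exact one_div_le_one_div_of_le two_pos
      (hp2.trans (Real.self_le_rpow_of_one_le (by linarith) (by norm_num)))
  rw [← hx]
  have hsum : Summable fun l => singularTerm k s N (p ^ l) :=
    ((norm_summable_singularTerm hk hs N).of_norm).comp_injective
      (Nat.pow_right_injective hp.two_le)
  have hg : HasSum (fun l : ℕ => C * x * x ^ l) (C * x * (1 - x)⁻¹) :=
    (hasSum_geometric_of_lt_one hx0 (by linarith)).mul_left _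
  have htail : ‖∑' l, singularTerm k s N (p ^ (l + 1))‖ ≤ C * x * (1 - x)⁻¹ := by
    refine tsum_of_norm_bounded hg fun l => ((h (p ^ (l + 1))).2 N).trans (le_of_eq ?_)
    rw [hx, mul_assoc, ← pow_succ', ← Real.rpow_natCast (_ ^ _) (l + 1),
      ← Real.rpow_mul (by linarith), mul_comm (-(7 / 5) : ℝ), Real.rpow_mul (by linarith),
      Real.rpow_natCast, Nat.cast_pow]
  have e : localDensity k s N p = 1 + ∑' l, singularTerm k s N (p ^ (l + 1)) := by
    rw [localDensity, hsum.tsum_eq_zero_add, pow_zero, singularTerm_one]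
  rw [e, Complex.add_re, Complex.one_re]
  have h1 := (abs_le.1 ((Complex.abs_re_le_norm _).trans htail)).1
  have h2 : C * x * (1 - x)⁻¹ ≤ C * x * 2 := by
    refine mul_le_mul_of_nonneg_left ?_ (by positivity)
    rw [inv_le_comm₀ (by linarith) two_pos]
    linarith
  linarith

/-- **The singular series is bounded below**, on any set of numbers with solutions modulo the
powers of every prime, if it converges absolutely and its factors are `1 + a p`, `∑ a p` finite. -/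
theorem exists_singularSeries_ge_of_local {k s : ℕ} (hk : 2 ≤ k) (hs : 1 ≤ s) {G : ℕ → Prop}
    (hnorm : ∀ N, Summable fun q => ‖singularTerm k s N q‖) {a : ℕ → ℝ} (hasum : Summable a)
    (ha0 : ∀ p, 0 ≤ a p) (hnear : ∀ N p : ℕ, p.Prime → 1 - a p ≤ (localDensity k s N p).re)
    (hpat : ∀ N p : ℕ, G N → p.Prime → ∃ (y : Fin s → ℕ) (i₀ : Fin s), ¬p ∣ y i₀ ∧
      ((p ^ (2 * padicValNat p k + 1) : ℕ) : ℤ) ∣ ((∑ i, y i ^ k : ℕ) : ℤ) - N) :
    ∃ c : ℝ, 0 < c ∧ ∀ N, G N → c ≤ singularSeries k s N := by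
  obtain ⟨p₀, hp₀⟩ := ((tendsto_sum_nat_add a).eventually
    (eventually_le_nhds (show (0 : ℝ) < 1 / 2 by norm_num))).exists
  obtain ⟨m, hm⟩ : ∃ m : ℕ → ℝ, m = fun p : ℕ =>
      1 / ((p ^ (2 * padicValNat p k + 1) : ℕ) : ℝ) ^ (s - 1) := ⟨_, rfl⟩
  obtain ⟨c, hc⟩ : ∃ c, c = (∏ p ∈ Nat.primesBelow p₀, m p) * (1 / 2) := ⟨_, rfl⟩
  have hm0 : ∀ p ∈ Nat.primesBelow p₀, 0 < m p := fun p hp => by
    have := (Nat.mem_primesBelow.1 hp).2.pos
    rw [hm]; positivity
  have hc0 : 0 < c := hc ▸ mul_pos (prod_pos hm0) (by norm_num)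
  refine ⟨c, hc0, fun N hGN => ?_⟩
  have hE := EulerProduct.eulerProduct (f := singularTerm k s N) (singularTerm_one k s N)
    (fun h => singularTerm_mul (by omega) h) (hnorm N)
    (by simp [singularTerm, unitResidues])
  refine ge_of_tendsto ((Complex.continuous_re.tendsto _).comp hE)
    (eventually_atTop.2 ⟨p₀, fun n hn => ?_⟩)
  obtain ⟨S, hS⟩ : ∃ S, S = Nat.primesBelow n := ⟨_, rfl⟩
  obtain ⟨d, hd⟩ : ∃ d : ℕ → ℝ, d = fun p => (localDensity k s N p).re := ⟨_, rfl⟩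
  have hreal : ∏ p ∈ S, ∑' e, singularTerm k s N (p ^ e) = ((∏ p ∈ S, d p : ℝ) : ℂ) := by
    rw [Complex.ofReal_prod]
    refine prod_congr rfl fun p hp => ?_
    rw [hd]
    have hp' := (Nat.mem_primesBelow.1 (hS ▸ hp)).2
    exact (localDensity_spec hk hs N (hnorm N) hp' (hpat N p hGN hp')).1
  simp only [Function.comp, ← hS, hreal, Complex.ofReal_re]
  have hlow : S.filter (fun p => p < p₀) = Nat.primesBelow p₀ := by
    ext p
    simp only [hS, mem_filter, Nat.mem_primesBelow]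
    exact ⟨fun h => ⟨h.2, h.1.2⟩, fun h => ⟨⟨h.1.trans_le hn, h.2⟩, h.1⟩⟩
  rw [← prod_filter_mul_prod_filter_not S (fun p => p < p₀), hlow, hc]
  have hsum : ∑ p ∈ S.filter (fun p => ¬p < p₀), a p ≤ 1 / 2 := by
    refine le_trans ?_ hp₀
    refine (sum_le_sum_of_subset_of_nonneg (t := Ico p₀ n) (fun p hp => ?_)
      fun p _ _ => ha0 p).trans ?_
    · rw [hS, mem_filter, Nat.mem_primesBelow] at hp
      exact mem_Ico.2 ⟨not_lt.1 hp.2, hp.1.1⟩
    · rw [sum_Ico_eq_sum_range]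
      simp only [add_comm p₀]
      exact (((summable_nat_add_iff p₀).2 hasum)).sum_le_tsum _ fun i _ => ha0 _
  refine mul_le_mul (prod_le_prod (fun p hp => (hm0 p hp).le) fun p hp => ?_) ?_ (by norm_num)
    (prod_nonneg fun p hp => ?_)
  · rw [hm, hd]
    exact (localDensity_spec hk hs N (hnorm N) (Nat.mem_primesBelow.1 hp).2
      (hpat N p hGN (Nat.mem_primesBelow.1 hp).2)).2
  · have hle1 : ∀ p ∈ S.filter (fun p => ¬p < p₀), a p ≤ 1 := fun p hp =>
      ((single_le_sum (fun q _ => ha0 q) hp).trans hsum).trans (by norm_num)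
    refine le_trans (by linarith) ((one_sub_sum_le_prod _ a (fun p _ => ha0 p) hle1).trans
      (prod_le_prod (fun p hp => sub_nonneg.2 (hle1 p hp)) fun p hp => ?_))
    rw [hd]
    exact hnear N p (Nat.mem_primesBelow.1 (hS ▸ (mem_filter.1 hp).1)).2
  · rw [hd]
    exact le_trans (hm0 p hp).le
      (hm ▸ (localDensity_spec hk hs N (hnorm N) (Nat.mem_primesBelow.1 hp).2
        (hpat N p hGN (Nat.mem_primesBelow.1 hp).2)).2)

/-- **The singular series is bounded below.** -/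
theorem exists_singularSeries_ge_of_pattern {k s : ℕ} (hk : 2 ≤ k) (h3k : 3 * k ≤ s)
    (hpat : ∀ N p : ℕ, p.Prime → ∃ (y : Fin s → ℕ) (i₀ : Fin s), ¬p ∣ y i₀ ∧
      ((p ^ (2 * padicValNat p k + 1) : ℕ) : ℤ) ∣ ((∑ i, y i ^ k : ℕ) : ℤ) - N) :
    ∃ c : ℝ, 0 < c ∧ ∀ N, c ≤ singularSeries k s N := by
  obtain ⟨C, hC, hnear⟩ := exists_localDensity_near_one hk h3k
  obtain ⟨c, hc, h⟩ := exists_singularSeries_ge_of_local hk (show 1 ≤ s by omega)
    (G := fun _ => True) (norm_summable_singularTerm hk h3k)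
    (a := fun p : ℕ => C * (p : ℝ) ^ (-(7 / 5) : ℝ))
    ((Real.summable_nat_rpow.2 (by norm_num)).mul_left C) (fun p => by positivity) hnear
    fun N p _ hp => hpat N p hp
  exact ⟨c, hc, fun N => h N trivial⟩

theorem exists_singularSeries_ge {k s : ℕ} (hk : 2 ≤ k) (hs : k * (k + 1) < s) :
    ∃ c : ℝ, 0 < c ∧ ∀ N, c ≤ singularSeries k s N :=
  exists_singularSeries_ge_of_pattern hk (three_mul_le_of_lt hk hs)
    fun N _ hp => exists_pattern hk hs N hp

/-- **Every large number is a sum of `s` positive powers**, in `≫ N ^ (s/k - 1)` ways. -/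
theorem exists_repCount_ge {k s : ℕ} (hk : 2 ≤ k) (hs : k * (k + 1) < s) : ∃ (c : ℝ) (N₀ : ℕ),
    0 < c ∧ ∀ N, N₀ ≤ N → c * (N : ℝ) ^ ((s : ℝ) / k - 1) ≤ repCount k s N := by
  obtain ⟨C, δ, hC, hδ, h⟩ := exists_asymptotic hk hs
  obtain ⟨c, hc, hser⟩ := exists_singularSeries_ge hk hs
  obtain ⟨G, hG⟩ : ∃ G : ℝ,
      G = Real.Gamma (1 + 1 / (k : ℝ)) ^ s / Real.Gamma ((s : ℝ) / k) := ⟨_, rfl⟩
  have hk0 : (0 : ℝ) < k := by exact_mod_cast (show 0 < k by omega)
  have hs0 : (0 : ℝ) < s := by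
    exact_mod_cast (show 0 < s by omega)
  have hG0 : 0 < G := hG ▸ div_pos (pow_pos (Real.Gamma_pos_of_pos (by positivity)) s)
    (Real.Gamma_pos_of_pos (by positivity))
  have hlim : Tendsto (fun N : ℕ => C * (N : ℝ) ^ (-δ)) atTop (𝓝 0) := by
    simpa using ((tendsto_rpow_neg_atTop hδ).comp tendsto_natCast_atTop_atTop).const_mul C
  obtain ⟨N₁, hN₁⟩ := eventually_atTop.1
    (hlim.eventually (eventually_le_nhds (show 0 < c * G / 2 by positivity)))
  refine ⟨c * G / 2, max N₁ 1, by positivity, fun N hN => ?_⟩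
  have hN1 : 1 ≤ N := le_trans (le_max_right _ _) hN
  have hNr : (0 : ℝ) < N := Nat.cast_pos.2 hN1
  have h1 := (abs_le.1 (h N hN1)).1
  rw [← hG] at h1
  have h2 := hN₁ N (le_trans (le_max_left _ _) hN)
  have hY : 0 ≤ (N : ℝ) ^ ((s : ℝ) / k - 1) := by positivity
  have h3 := mul_le_mul_of_nonneg_right (mul_le_mul_of_nonneg_right (hser N) hG0.le) hY
  have h4 : C * (N : ℝ) ^ ((s : ℝ) / k - 1 - δ) ≤ c * G / 2 * (N : ℝ) ^ ((s : ℝ) / k - 1) := by
    rw [sub_eq_add_neg _ δ, Real.rpow_add hNr, mul_left_comm, mul_comm ((N : ℝ) ^ _)]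
    exact mul_le_mul_of_nonneg_right h2 hY
  linarith

end FA.WaringAsymptotic
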