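import Fermat.Agent.ThreePrimes.Exponential
import Mathlib.Analysis.SpecialFunctions.Complex.CircleAddChar
import Mathlib.NumberTheory.Padics.PadicVal.Basic
import Mathlib.RingTheory.Polynomial.Basic
import Mathlib.Data.Nat.Factorization.Induction

/-!
# The complete sums

`|∑_{x mod q} e (a x ^ k / q)| ≤ C q ^ (1 - e)` for `a` prime to `q`, `k e ≤ 1`, `e ≤ 2/5` (so
`e = 1/(2k)`, and `e = 1/k` for `k ≥ 3`): multiplicativity, the
orbit argument modulo a prime, and the descent `S (p ^ l) = p ^ (k - 1) S (p ^ (l - k))`.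
-/

set_option autoImplicit false

noncomputable section

namespace FA.WaringAsymptotic

open Finset FA.ThreePrimes
open scoped ComplexConjugate

/-- `∑_{x < q} e (a x ^ k / q)`. -/
def completeSum (k q : ℕ) (a : ℤ) : ℂ := ∑ x ∈ range q, eAdd ((a : ℝ) * (x : ℝ) ^ k / q)

theorem eAdd_div_eq_char {q : ℕ} [NeZero q] (j : ℤ) :
    eAdd ((j : ℝ) / q) = ZMod.stdAddChar ((j : ℤ) : ZMod q) := by
  rw [ZMod.stdAddChar_coe, eAdd]
  push_cast
  ring_nf

theorem completeSum_eq_zmod (k q : ℕ) [NeZero q] (a : ℤ) :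
    completeSum k q a = ∑ x : ZMod q, ZMod.stdAddChar ((a : ZMod q) * x ^ k) := by
  refine sum_nbij' (fun x : ℕ => (x : ZMod q)) ZMod.val (fun x _ => mem_univ _)
    (fun x _ => mem_range.2 (ZMod.val_lt x)) (fun x hx => ZMod.val_cast_of_lt (mem_range.1 hx))
    (fun x _ => ZMod.natCast_zmod_val x) fun x _ => ?_
  have h := eAdd_div_eq_char (q := q) (a * (x : ℤ) ^ k)
  push_cast at h
  exact h

theorem norm_completeSum_le (k q : ℕ) (a : ℤ) : ‖completeSum k q a‖ ≤ q := by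
  refine (norm_sum_le _ _).trans ?_
  simp [norm_eAdd]

theorem add_pow_of_mul_eq_zero {R : Type*} [CommRing R] {u v : R} (h : u * v = 0) :
    ∀ k : ℕ, (u + v) ^ (k + 1) = u ^ (k + 1) + v ^ (k + 1)
  | 0 => by simp
  | k + 1 => by
    rw [pow_succ, add_pow_of_mul_eq_zero h k, pow_succ u (k + 1), pow_succ v (k + 1)]
    linear_combination (u ^ k + v ^ k) * h

theorem add_pow_of_sq_eq_zero {R : Type*} [CommRing R] (x : R) {e : R} (h : e * e = 0) :
    ∀ k : ℕ, (x + e) ^ (k + 1) = x ^ (k + 1) + ((k + 1 : ℕ) : R) * x ^ k * e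
  | 0 => by simp
  | k + 1 => by
    rw [pow_succ, add_pow_of_sq_eq_zero x h k]
    push_cast
    linear_combination ((k : R) + 1) * x ^ k * h

/-- **Multiplicativity.** -/
theorem completeSum_mul {k q₁ q₂ : ℕ} (hk : 1 ≤ k) (hco : q₁.Coprime q₂) (h₁ : q₁ ≠ 0)
    (h₂ : q₂ ≠ 0) (a : ℤ) :
    completeSum k (q₁ * q₂) a =
      completeSum k q₁ (a * (q₂ : ℤ) ^ (k - 1)) * completeSum k q₂ (a * (q₁ : ℤ) ^ (k - 1)) := by
  obtain ⟨j, rfl⟩ : ∃ j, k = j + 1 := ⟨k - 1, by omega⟩
  have : NeZero q₁ := ⟨h₁⟩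
  have : NeZero q₂ := ⟨h₂⟩
  obtain ⟨f, hf⟩ : ∃ f : ZMod q₁ × ZMod q₂ → ZMod (q₁ * q₂),
      f = fun z => ((q₂ * z.1.val : ℕ) : ZMod (q₁ * q₂)) + ((q₁ * z.2.val : ℕ) : ZMod (q₁ * q₂)) :=
    ⟨_, rfl⟩
  have hinj : Function.Injective f := by
    intro z w h
    have u₁ : IsUnit ((q₂ : ℕ) : ZMod q₁) := (ZMod.isUnit_iff_coprime q₂ q₁).2 hco.symm
    have u₂ : IsUnit ((q₁ : ℕ) : ZMod q₂) := (ZMod.isUnit_iff_coprime q₁ q₂).2 hco
    have a1 := congrArg (ZMod.castHom (Dvd.intro q₂ rfl) (ZMod q₁)) h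
    have a2 := congrArg (ZMod.castHom (Dvd.intro_left q₁ rfl) (ZMod q₂)) h
    simp only [hf, map_add, map_mul, map_natCast, Nat.cast_mul, ZMod.natCast_self, zero_mul,
      add_zero,
      zero_add, ZMod.natCast_zmod_val] at a1 a2
    exact Prod.ext (u₁.mul_left_cancel a1) (u₂.mul_left_cancel a2)
  have hbij : Function.Bijective f :=
    (Fintype.bijective_iff_injective_and_card f).2 ⟨hinj, by simp [ZMod.card]⟩
  rw [completeSum_eq_zmod, completeSum_eq_zmod, completeSum_eq_zmod, sum_mul_sum, ← sum_product',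
    ← hbij.sum_comp]
  refine sum_congr rfl fun z _ => ?_
  rw [hf]
  simp only
  rw [add_pow_of_mul_eq_zero, mul_add, AddChar.map_add_eq_mul]
  · have key : ∀ (m : ℕ) [NeZero m] (n : ℕ) [NeZero (m * n)] (v : ℕ),
        ZMod.stdAddChar ((a : ZMod (m * n)) * ((n * v : ℕ) : ZMod (m * n)) ^ (j + 1)) =
          ZMod.stdAddChar ((((a * (n : ℤ) ^ j) : ℤ) : ZMod m) * ((v : ℕ) : ZMod m) ^ (j + 1)) := by
      intro m _ n _ v
      have h1 := eAdd_div_eq_char (q := m * n) (a * ((n * v : ℕ) : ℤ) ^ (j + 1))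
      have h2 := eAdd_div_eq_char (q := m) (a * (n : ℤ) ^ j * (v : ℤ) ^ (j + 1))
      push_cast at h1 h2 ⊢
      rw [← h1, ← h2]
      congr 1
      have : (n : ℝ) ≠ 0 := Nat.cast_ne_zero.2
        (Nat.ne_zero_of_mul_ne_zero_right (NeZero.ne (m * n)))
      rw [mul_pow, pow_succ (n : ℝ)]
      field_simp
    have e2 : ∀ v : ℕ,
        ZMod.stdAddChar ((a : ZMod (q₁ * q₂)) * ((q₁ * v : ℕ) : ZMod (q₁ * q₂)) ^ (j + 1)) =
          ZMod.stdAddChar ((((a * (q₁ : ℤ) ^ j) : ℤ) : ZMod q₂) *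
            ((v : ℕ) : ZMod q₂) ^ (j + 1)) := by
      intro v
      have h1 := eAdd_div_eq_char (q := q₁ * q₂) (a * ((q₁ * v : ℕ) : ℤ) ^ (j + 1))
      have h2 := eAdd_div_eq_char (q := q₂) (a * (q₁ : ℤ) ^ j * (v : ℤ) ^ (j + 1))
      push_cast at h1 h2 ⊢
      rw [← h1, ← h2]
      congr 1
      have : (q₁ : ℝ) ≠ 0 := Nat.cast_ne_zero.2 h₁
      rw [mul_pow, pow_succ (q₁ : ℝ)]
      field_simp
    rw [key q₁ q₂, e2, ZMod.natCast_zmod_val, ZMod.natCast_zmod_val, Nat.add_sub_cancel]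
  · rw [← Nat.cast_mul, show q₂ * z.1.val * (q₁ * z.2.val) = q₁ * q₂ * (z.1.val * z.2.val) by ring,
      Nat.cast_mul, ZMod.natCast_self, zero_mul]

theorem card_pow_eq_le {p k : ℕ} [Fact p.Prime] (hk : 0 < k) (b : ZMod p) :
    ((univ : Finset (ZMod p)).filter fun x => x ^ k = b).card ≤ k := by
  classical
  refine (card_le_card (t := (Polynomial.nthRoots k b).toFinset) fun x hx => ?_).trans
    ((Multiset.toFinset_card_le _).trans (Polynomial.card_nthRoots k b))
  rw [Multiset.mem_toFinset, Polynomial.mem_nthRoots hk]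
  exact (mem_filter.1 hx).2

/-- **Modulo a prime.** -/
theorem norm_completeSum_prime_le {p k : ℕ} (hp : p.Prime) (hk : 1 ≤ k) {a : ℤ}
    (ha : IsUnit (a : ZMod p)) : ‖completeSum k p a‖ ≤ 2 * k * √(p : ℝ) := by
  classical
  have : Fact p.Prime := ⟨hp⟩
  obtain ⟨S, hS⟩ : ∃ S : ZMod p → ℂ,
      S = fun b => ∑ x : ZMod p, ZMod.stdAddChar (b * x ^ k) := ⟨_, rfl⟩
  rw [completeSum_eq_zmod, show ∑ x : ZMod p, ZMod.stdAddChar ((a : ZMod p) * x ^ k) = S a by
    rw [hS]]
  have horb : ∀ u : (ZMod p)ˣ, S ((a : ZMod p) * (u : ZMod p) ^ k) = S a := fun u => by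
    rw [hS]
    refine Fintype.sum_equiv (Units.mulLeft u) _ _ fun x => ?_
    simp [mul_pow, mul_assoc]
  have htot : ∑ b : ZMod p, ‖S b‖ ^ 2 ≤ (p : ℝ) * (k * p) := by
    have e : ((∑ b : ZMod p, ‖S b‖ ^ 2 : ℝ) : ℂ) =
        (((p : ℝ) * ((((univ : Finset (ZMod p)) ×ˢ univ).filter
          fun z => z.1 ^ k = z.2 ^ k).card : ℝ) : ℝ) : ℂ) := by
      push_cast
      simp only [hS, ← Complex.mul_conj', map_sum, sum_mul_sum, ← AddChar.map_neg_eq_conj,
        ← AddChar.map_add_eq_mul, ← sub_eq_add_neg, ← mul_sub]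
      rw [sum_comm]
      simp only [sum_comm (s := (univ : Finset (ZMod p))) (t := (univ : Finset (ZMod p)))
        (f := fun b y => ZMod.stdAddChar (b * (_ - y ^ k)))]
      simp_rw [AddChar.sum_mulShift _ (ZMod.isPrimitive_stdAddChar p), sub_eq_zero, ZMod.card]
      rw [← sum_product' (f := fun x y => ((if x ^ k = y ^ k then p else 0 : ℕ) : ℂ)),
        card_filter, Nat.cast_sum, mul_sum]
      refine sum_congr rfl fun z _ => ?_
      split_ifs <;> simp
    rw [Complex.ofReal_injective e]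
    refine mul_le_mul_of_nonneg_left ?_ (Nat.cast_nonneg p)
    have hc : (((univ : Finset (ZMod p)) ×ˢ univ).filter fun z => z.1 ^ k = z.2 ^ k).card ≤
        k * p := by
      rw [card_eq_sum_card_fiberwise (f := fun z => z.2) (t := univ) fun z _ => mem_univ _]
      refine (sum_le_card_nsmul _ _ k fun y _ => ?_).trans (le_of_eq (by simp [mul_comm]))
      refine le_trans (card_le_card_of_injOn (fun z => z.1) (fun z hz => ?_) fun z hz w hw e => ?_)
        (card_pow_eq_le hk (y ^ k))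
      · simp only [mem_coe, mem_filter] at hz ⊢
        exact ⟨mem_univ _, hz.2 ▸ hz.1.2⟩
      · simp only [mem_coe, mem_filter] at hz hw
        exact Prod.ext e (hz.2.trans hw.2.symm)
    exact_mod_cast hc
  have horbit : ((p : ℝ) - 1) * ‖S a‖ ^ 2 ≤ k * ∑ b : ZMod p, ‖S b‖ ^ 2 := by
    have e : ((p : ℝ) - 1) * ‖S a‖ ^ 2 =
        ∑ u : (ZMod p)ˣ, ‖S ((a : ZMod p) * (u : ZMod p) ^ k)‖ ^ 2 := by
      simp only [horb, sum_const, card_univ, ZMod.card_units_eq_totient, Nat.totient_prime hp,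
        nsmul_eq_mul]
      rw [Nat.cast_sub hp.one_le]
      simp
    rw [e, ← sum_fiberwise (g := fun u : (ZMod p)ˣ => (a : ZMod p) * (u : ZMod p) ^ k), mul_sum]
    refine sum_le_sum fun b _ => (sum_le_card_nsmul _ _ (‖S b‖ ^ 2) fun u hu => ?_).trans ?_
    · rw [(mem_filter.1 hu).2]
    · rw [nsmul_eq_mul]
      refine mul_le_mul_of_nonneg_right (Nat.cast_le.2 ?_) (sq_nonneg _)
      refine le_trans (card_le_card_of_injOn (fun u : (ZMod p)ˣ => (u : ZMod p))
        (fun u hu => ?_) fun u _ w _ e => Units.ext e)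
        (card_pow_eq_le (by omega) (((ha.unit⁻¹ : (ZMod p)ˣ) : ZMod p) * b))
      simp only [mem_coe, mem_filter] at hu ⊢
      refine ⟨mem_univ _, ?_⟩
      rw [← hu.2, ← mul_assoc, IsUnit.val_inv_mul, one_mul]
  have hp2 : (2 : ℝ) ≤ p := by exact_mod_cast hp.two_le
  have h2 : ‖S a‖ ^ 2 ≤ (2 * k * √(p : ℝ)) ^ 2 := by
    rw [mul_pow, Real.sq_sqrt (by linarith)]
    nlinarith [mul_le_mul_of_nonneg_left htot (Nat.cast_nonneg (α := ℝ) k), sq_nonneg (k : ℝ),
      mul_nonneg (sub_nonneg.2 hp2) (sq_nonneg ‖S a‖)]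
  exact le_of_pow_le_pow_left₀ two_ne_zero (by positivity) h2

/-- **The descent step**: only multiples of `p` contribute. -/
theorem completeSum_primePow {p k l : ℕ} (hp : p.Prime) (hk : 2 ≤ k)
    (hl : 2 * padicValNat p k + 2 ≤ l) {a : ℤ} (ha : ¬(p : ℤ) ∣ a) :
    completeSum k (p ^ l) a =
      ∑ y ∈ range (p ^ (l - 1)), eAdd ((a : ℝ) * ((p * y : ℕ) : ℝ) ^ k / (p ^ l : ℕ)) := by
  classical
  have : Fact p.Prime := ⟨hp⟩
  have : NeZero (p ^ l) := ⟨pow_ne_zero _ hp.ne_zero⟩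
  obtain ⟨j, rfl⟩ : ∃ j, k = j + 1 := ⟨k - 1, by omega⟩
  obtain ⟨τ, hτ⟩ : ∃ τ, τ = padicValNat p (j + 1) := ⟨_, rfl⟩
  rw [← hτ] at hl
  obtain ⟨k', hk'⟩ : p ^ τ ∣ j + 1 := hτ ▸ pow_padicValNat_dvd
  have hk'p : ¬p ∣ k' := fun h => by
    refine pow_succ_padicValNat_not_dvd (p := p) (n := j + 1) (by omega) ?_
    rw [← hτ, pow_succ, hk']
    exact Nat.mul_dvd_mul_left _ h
  obtain ⟨d, hd⟩ : ∃ d : ZMod (p ^ l), d = ((p ^ (l - τ - 1) : ℕ) : ZMod (p ^ l)) := ⟨_, rfl⟩
  obtain ⟨w, hw⟩ : ∃ w : ZMod (p ^ l) → ZMod (p ^ l),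
      w = fun x => (a : ZMod (p ^ l)) * ((j + 1 : ℕ) : ZMod (p ^ l)) * x ^ j * d := ⟨_, rfl⟩
  have hdd : d * d = 0 := by
    rw [hd, ← Nat.cast_mul, ← pow_add, ZMod.natCast_eq_zero_iff]
    exact pow_dvd_pow p (by omega)
  have hpw : ∀ x, (p : ZMod (p ^ l)) * w x = 0 := fun x => by
    have h0 : ((j + 1 : ℕ) : ZMod (p ^ l)) * d * (p : ZMod (p ^ l)) = 0 := by
      rw [hd, ← Nat.cast_mul, ← Nat.cast_mul, ZMod.natCast_eq_zero_iff, hk']
      exact ⟨k', by
        rw [mul_right_comm (p ^ τ) k', mul_right_comm _ k', ← pow_add, ← pow_succ,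
          show τ + (l - τ - 1) + 1 = l by omega]⟩
    rw [hw]
    linear_combination (a : ZMod (p ^ l)) * x ^ j * h0
  have hw0 : ∀ x, w x = 0 ↔ p ∣ x.val := fun x => by
    have e : w x = ((a * ((j + 1 : ℕ) : ℤ) * (x.val : ℤ) ^ j * ((p ^ (l - τ - 1) : ℕ) : ℤ) : ℤ) :
        ZMod (p ^ l)) := by
      rw [hw, hd]
      push_cast
      rw [ZMod.natCast_zmod_val]
    rw [e, ZMod.intCast_zmod_eq_zero_iff_dvd, hk']
    have hpl : ((p ^ l : ℕ) : ℤ) = (p : ℤ) * (((p : ℤ) ^ τ) * (p : ℤ) ^ (l - τ - 1)) := by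
      rw [← pow_add, ← pow_succ']
      push_cast
      congr 1
      omega
    have hne : ((p : ℤ) ^ τ) * (p : ℤ) ^ (l - τ - 1) ≠ 0 :=
      mul_ne_zero (pow_ne_zero _ (Int.natCast_ne_zero.2 hp.ne_zero))
        (pow_ne_zero _ (Int.natCast_ne_zero.2 hp.ne_zero))
    rw [hpl, show a * ((p ^ τ * k' : ℕ) : ℤ) * (x.val : ℤ) ^ j * ((p ^ (l - τ - 1) : ℕ) : ℤ) =
      (a * k' * (x.val : ℤ) ^ j) * (((p : ℤ) ^ τ) * (p : ℤ) ^ (l - τ - 1)) by push_cast; ring,
      mul_dvd_mul_iff_right hne]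
    have hp' : Prime (p : ℤ) := Nat.prime_iff_prime_int.1 hp
    constructor
    · intro h
      rcases hp'.dvd_or_dvd h with h | h
      · rcases hp'.dvd_or_dvd h with h | h
        · exact absurd h ha
        · exact absurd (Int.natCast_dvd_natCast.1 h) hk'p
      · exact Int.natCast_dvd_natCast.1 (hp'.dvd_of_dvd_pow h)
    · intro h
      exact ((dvd_pow (Int.natCast_dvd_natCast.2 h) (by omega)).mul_left _)
  have htrans : ∀ z : ℕ, ∑ x : ZMod (p ^ l), ZMod.stdAddChar ((a : ZMod (p ^ l)) * x ^ (j + 1)) *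
      ZMod.stdAddChar ((z : ZMod (p ^ l)) * w x) = completeSum (j + 1) (p ^ l) a := fun z => by
    rw [completeSum_eq_zmod]
    refine Fintype.sum_equiv (Equiv.addRight ((z : ZMod (p ^ l)) * d)) _ _ fun x => ?_
    rw [Equiv.coe_addRight, add_pow_of_sq_eq_zero x
      (by linear_combination (z : ZMod (p ^ l)) ^ 2 * hdd),
      mul_add, AddChar.map_add_eq_mul, hw]
    congr 2
    ring
  have hgeom : ∀ x, ∑ z ∈ range p, ZMod.stdAddChar ((z : ZMod (p ^ l)) * w x) =
      if p ∣ x.val then (p : ℂ) else 0 := fun x => by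
    have e : ∀ z : ℕ, ZMod.stdAddChar ((z : ZMod (p ^ l)) * w x) = ZMod.stdAddChar (w x) ^ z :=
      fun z => by rw [← nsmul_eq_mul, AddChar.map_nsmul_eq_pow]
    simp only [e]
    split_ifs with h
    · simp [(hw0 x).2 h]
    · have hne : ZMod.stdAddChar (w x) ≠ 1 := fun h1 => h ((hw0 x).1
        (ZMod.injective_stdAddChar (h1.trans (AddChar.map_zero_eq_one _).symm)))
      rw [geom_sum_eq hne, ← AddChar.map_nsmul_eq_pow, nsmul_eq_mul, hpw, AddChar.map_zero_eq_one,
        sub_self, zero_div]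
  have hS : (p : ℂ) * completeSum (j + 1) (p ^ l) a = (p : ℂ) *
      ∑ x ∈ (univ : Finset (ZMod (p ^ l))).filter (fun x => p ∣ x.val),
        ZMod.stdAddChar ((a : ZMod (p ^ l)) * x ^ (j + 1)) := by
    have h2 : ∑ z ∈ range p, completeSum (j + 1) (p ^ l) a =
        (p : ℂ) * completeSum (j + 1) (p ^ l) a := by simp
    rw [← h2, ← sum_congr rfl fun z _ => htrans z, sum_comm, mul_sum, sum_filter]
    refine sum_congr rfl fun x _ => ?_
    rw [← mul_sum, hgeom]
    split_ifs <;> ring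
  rw [mul_left_cancel₀ (Nat.cast_ne_zero.2 hp.ne_zero) hS]
  have hpl : p ^ l = p * p ^ (l - 1) := by rw [← pow_succ']; congr 1; omega
  refine sum_nbij' (fun x => x.val / p) (fun y => ((p * y : ℕ) : ZMod (p ^ l))) (fun x _ => ?_)
    (fun y hy => ?_) (fun x hx => ?_) (fun y hy => ?_) fun x hx => ?_
  · rw [mem_range, Nat.div_lt_iff_lt_mul hp.pos, mul_comm, ← hpl]
    exact ZMod.val_lt x
  · rw [mem_filter, ZMod.val_cast_of_lt (by
      rw [hpl]; exact Nat.mul_lt_mul_of_pos_left (mem_range.1 hy) hp.pos)]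
    exact ⟨mem_univ _, dvd_mul_right p y⟩
  · show ((p * (x.val / p) : ℕ) : ZMod (p ^ l)) = x
    rw [Nat.mul_div_cancel' (mem_filter.1 hx).2, ZMod.natCast_zmod_val]
  · rw [ZMod.val_cast_of_lt (by
      rw [hpl]; exact Nat.mul_lt_mul_of_pos_left (mem_range.1 hy) hp.pos),
      Nat.mul_div_cancel_left _ hp.pos]
  · rw [Nat.mul_div_cancel' (mem_filter.1 hx).2]
    have h := eAdd_div_eq_char (q := p ^ l) (a * (x.val : ℤ) ^ (j + 1))
    push_cast at h ⊢
    rw [h, ZMod.natCast_zmod_val]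

theorem completeSum_primePow_high {p k l : ℕ} (hp : p.Prime) (hk : 2 ≤ k)
    (hl : 2 * padicValNat p k + 2 ≤ l) (hlk : k < l) {a : ℤ} (ha : ¬(p : ℤ) ∣ a) :
    completeSum k (p ^ l) a = (p : ℂ) ^ (k - 1) * completeSum k (p ^ (l - k)) a := by
  rw [completeSum_primePow hp hk hl ha]
  obtain ⟨n, hn⟩ : ∃ n, n = p ^ (l - k) := ⟨_, rfl⟩
  have hn0 : 0 < n := hn ▸ pow_pos hp.pos _
  obtain ⟨g, hg⟩ : ∃ g : ℕ → ℂ, g = fun y : ℕ => eAdd ((a : ℝ) * (y : ℝ) ^ k / n) := ⟨_, rfl⟩
  have e : ∀ y : ℕ, eAdd ((a : ℝ) * ((p * y : ℕ) : ℝ) ^ k / (p ^ l : ℕ)) = g y := fun y => by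
    rw [hg, hn, show p ^ l = p ^ k * p ^ (l - k) by rw [← pow_add]; congr 1; omega]
    have : (p : ℝ) ≠ 0 := Nat.cast_ne_zero.2 hp.ne_zero
    push_cast
    congr 1
    rw [mul_pow]
    field_simp
  have hper : ∀ m y : ℕ, g (m * n + y) = g y := fun m y => by
    have : NeZero n := ⟨hn0.ne'⟩
    have h1 := eAdd_div_eq_char (q := n) (a * ((m * n + y : ℕ) : ℤ) ^ k)
    have h2 := eAdd_div_eq_char (q := n) (a * (y : ℤ) ^ k)
    push_cast at h1 h2
    rw [hg]
    push_cast
    rw [h1, h2, ZMod.natCast_self, mul_zero, zero_add]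
  have hblk : ∀ m : ℕ, ∑ y ∈ range (m * n), g y = (m : ℂ) * ∑ y ∈ range n, g y := fun m => by
    induction m with
    | zero => simp
    | succ m ih =>
      rw [add_mul, one_mul, sum_range_add, ih, sum_congr rfl fun y _ => hper m y]
      push_cast
      ring
  rw [sum_congr rfl fun y _ => e y, show p ^ (l - 1) = p ^ (k - 1) * n by
    rw [hn, ← pow_add]; congr 1; omega, hblk, completeSum, ← hn, hg]
  push_cast
  rfl

/-- The constant at a prime. -/
def primeConst (k p : ℕ) : ℝ := if p < (2 * k) ^ 10 then (2 * (k : ℝ)) ^ 6 else 1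

theorem one_le_primeConst {k : ℕ} (hk : 1 ≤ k) (p : ℕ) : 1 ≤ primeConst k p := by
  unfold primeConst
  split_ifs
  · exact one_le_pow₀ (by have : (1 : ℝ) ≤ k := by exact_mod_cast hk
                          linarith)
  · exact le_rfl

/-- Any saving `e ≤ 2/5` with `k e ≤ 1`. -/
theorem norm_completeSum_primePow_le {p k : ℕ} (hp : p.Prime) (hk : 2 ≤ k) {e : ℝ} (he0 : 0 ≤ e)
    (he : (k : ℝ) * e ≤ 1) (he' : e ≤ 2 / 5) : ∀ (l : ℕ) {a : ℤ}, ¬(p : ℤ) ∣ a →
      ‖completeSum k (p ^ l) a‖ ≤ primeConst k p * ((p ^ l : ℕ) : ℝ) ^ (1 - e) := by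
  intro l
  induction l using Nat.strong_induction_on with
  | _ l ih =>
    intro a ha
    have hk2 : (2 : ℝ) ≤ k := by exact_mod_cast hk
    have hp1 : (1 : ℝ) ≤ p := by exact_mod_cast hp.one_le
    have hp0 : (0 : ℝ) ≤ p := by linarith
    have hc := one_le_primeConst (show 1 ≤ k by omega) p
    rw [Nat.cast_pow, ← Real.rpow_natCast, ← Real.rpow_mul hp0]
    have hpk : p ^ padicValNat p k ≤ k := Nat.le_of_dvd (by omega) pow_padicValNat_dvd
    rcases lt_or_ge l (2 * padicValNat p k + 2) with hsmall | hbig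
    · rcases lt_or_ge p ((2 * k) ^ 10) with hps | hps
      · rw [primeConst, if_pos hps]
        refine (norm_completeSum_le _ _ _).trans ?_
        have hq : ((p : ℝ) ^ (l : ℝ)) ≤ (2 * (k : ℝ)) ^ 12 := by
          rw [Real.rpow_natCast]
          have h1 : p ^ l ≤ (2 * k) ^ 10 * k ^ 2 := by
            refine (Nat.pow_le_pow_right hp.pos
              (show l ≤ 1 + padicValNat p k * 2 by omega)).trans ?_
            rw [pow_add, pow_one, pow_mul]
            exact Nat.mul_le_mul hps.le (Nat.pow_le_pow_left hpk 2)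
          have h2 : ((p ^ l : ℕ) : ℝ) ≤ (((2 * k) ^ 10 * k ^ 2 : ℕ) : ℝ) := Nat.cast_le.2 h1
          push_cast at h2
          refine h2.trans ?_
          rw [show (2 * (k : ℝ)) ^ 12 = (2 * (k : ℝ)) ^ 10 * (2 * (k : ℝ)) ^ 2 by ring]
          refine mul_le_mul_of_nonneg_left ?_ (by positivity)
          exact pow_le_pow_left₀ (by linarith) (by linarith) 2
        push_cast
        rw [← Real.rpow_natCast]
        calc (p : ℝ) ^ (l : ℝ) = ((p : ℝ) ^ (l : ℝ)) ^ e * (p : ℝ) ^ ((l : ℝ) * (1 - e)) := by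
              rw [← Real.rpow_mul hp0, ← Real.rpow_add (by linarith)]
              ring_nf
          _ ≤ _ := by
              refine mul_le_mul_of_nonneg_right ?_ (by positivity)
              refine (Real.rpow_le_rpow (by positivity) hq he0).trans ?_
              rw [← Real.rpow_natCast _ 12, ← Real.rpow_mul (by positivity),
                ← Real.rpow_natCast _ 6]
              refine Real.rpow_le_rpow_of_exponent_le (by linarith) ?_
              push_cast
              linarith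
      · have hτ0 : padicValNat p k = 0 := padicValNat.eq_zero_of_not_dvd fun h => by
          have := Nat.le_of_dvd (by omega) h
          have : k < (2 * k) ^ 10 :=
            lt_of_lt_of_le (by omega) (Nat.le_self_pow (by norm_num) (2 * k))
          omega
        obtain rfl | rfl : l = 0 ∨ l = 1 := by omega
        · refine (norm_completeSum_le _ _ _).trans ?_
          simp [primeConst, not_lt.2 hps]
        rw [pow_one, primeConst, if_neg (not_lt.2 hps), one_mul, Nat.cast_one, one_mul]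
        refine (norm_completeSum_prime_le hp (by omega)
          ((ZMod.coe_int_isUnit_iff_isCoprime a p).2
            ((Nat.prime_iff_prime_int.1 hp).coprime_iff_not_dvd.2 ha))).trans ?_
        have h10 : 2 * (k : ℝ) ≤ (p : ℝ) ^ (1 / 10 : ℝ) := by
          rw [one_div, Real.le_rpow_inv_iff_of_pos (by positivity) hp0 (by norm_num)]
          exact_mod_cast hps
        rw [Real.sqrt_eq_rpow]
        refine (mul_le_mul_of_nonneg_right h10 (by positivity)).trans ?_
        rw [← Real.rpow_add (by linarith)]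
        exact Real.rpow_le_rpow_of_exponent_le hp1 (by linarith)
    · rcases le_or_gt l k with hlk | hlk
      · rw [completeSum_primePow hp hk hbig ha]
        refine (norm_sum_le _ _).trans ?_
        simp only [norm_eAdd, sum_const, card_range, nsmul_eq_mul, mul_one, Nat.cast_pow]
        refine le_trans ?_ (le_mul_of_one_le_left (by positivity) hc)
        rw [← Real.rpow_natCast, Nat.cast_sub (by omega)]
        refine Real.rpow_le_rpow_of_exponent_le hp1 ?_
        push_cast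
        have := mul_le_mul_of_nonneg_right (Nat.cast_le (α := ℝ).2 hlk) he0
        linarith
      · rw [completeSum_primePow_high hp hk hbig hlk ha, norm_mul, norm_pow, Complex.norm_natCast]
        have h := ih (l - k) (by omega) ha
        rw [Nat.cast_pow, ← Real.rpow_natCast, ← Real.rpow_mul hp0] at h
        refine (mul_le_mul_of_nonneg_left h (by positivity)).trans ?_
        rw [mul_left_comm, ← Real.rpow_natCast, ← Real.rpow_add (by linarith)]
        refine mul_le_mul_of_nonneg_left (Real.rpow_le_rpow_of_exponent_le hp1 ?_) (by linarith)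
        rw [Nat.cast_sub hlk.le, Nat.cast_sub (by omega)]
        push_cast
        linarith

/-- **The bound for the complete sums**, with any saving `e ≤ 2/5`, `k e ≤ 1`; for `k ≥ 3` this
reaches the exponent `1 - 1/k` of Hua. -/
theorem exists_completeSum_le_of {k : ℕ} (hk : 2 ≤ k) {e : ℝ} (he0 : 0 ≤ e)
    (he : (k : ℝ) * e ≤ 1) (he' : e ≤ 2 / 5) : ∃ C : ℝ, 1 ≤ C ∧ ∀ (q : ℕ) (a : ℤ),
      0 < q → IsUnit (a : ZMod q) → ‖completeSum k q a‖ ≤ C * (q : ℝ) ^ (1 - e) := by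
  refine ⟨((2 * (k : ℝ)) ^ 6) ^ ((2 * k) ^ 10), one_le_pow₀ (one_le_pow₀ ?_),
    fun q a hq ha => ?_⟩
  · have : (2 : ℝ) ≤ k := by exact_mod_cast hk
    linarith
  obtain ⟨θ, hθ⟩ : ∃ θ : ℝ, θ = 1 - e := ⟨_, rfl⟩
  rw [← hθ]
  have key : ∀ n : ℕ, 0 < n → ∀ b : ℤ, IsCoprime b (n : ℤ) →
      ‖completeSum k n b‖ ≤ (∏ p ∈ n.primeFactors, primeConst k p) * (n : ℝ) ^ θ := by
    intro n
    induction n using Nat.recOnPosPrimePosCoprime with
    | prime_pow p l hp hl =>
      intro _ b hb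
      rw [Nat.primeFactors_prime_pow hl.ne' hp, prod_singleton, hθ]
      refine norm_completeSum_primePow_le hp hk he0 he he' l fun hd => ?_
      push_cast at hb
      exact (Nat.prime_iff_prime_int.1 hp).not_isUnit (hb.isUnit_of_dvd' hd (dvd_pow_self _ hl.ne'))
    | zero => intro h; omega
    | one =>
      intro _ b _
      refine (norm_completeSum_le _ _ _).trans ?_
      simp
    | coprime x y hx hy hxy hIx hIy =>
      intro _ b hb
      push_cast at hb
      have hyx : IsCoprime (y : ℤ) (x : ℤ) := by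
        rw [Int.isCoprime_iff_nat_coprime]; simpa using hxy.symm
      rw [completeSum_mul (by omega) hxy (by omega) (by omega), norm_mul,
        hxy.primeFactors_mul, prod_union hxy.disjoint_primeFactors, Nat.cast_mul,
        Real.mul_rpow (Nat.cast_nonneg x) (Nat.cast_nonneg y), mul_mul_mul_comm]
      exact mul_le_mul (hIx (by omega) _ ((hb.of_mul_right_left).mul_left hyx.pow_left))
        (hIy (by omega) _ ((hb.of_mul_right_right).mul_left hyx.symm.pow_left)) (norm_nonneg _)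
        (mul_nonneg (prod_nonneg fun p _ => (zero_le_one.trans (one_le_primeConst (by omega) p)))
          (by positivity))
  refine (key q hq a ((ZMod.coe_int_isUnit_iff_isCoprime a q).1 ha).symm).trans
    (mul_le_mul_of_nonneg_right ?_ (by positivity))
  rw [← prod_filter_mul_prod_filter_not q.primeFactors (fun p => p < (2 * k) ^ 10),
    prod_congr rfl fun p hp => (by rw [primeConst, if_pos (mem_filter.1 hp).2] :
      primeConst k p = (2 * (k : ℝ)) ^ 6),
    prod_eq_one (s := q.primeFactors.filter fun p => ¬p < (2 * k) ^ 10)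
      fun p hp => by rw [primeConst, if_neg (mem_filter.1 hp).2],
    mul_one, prod_const]
  refine pow_le_pow_right₀ (one_le_pow₀ ?_) ?_
  · have : (2 : ℝ) ≤ k := by exact_mod_cast hk
    linarith
  · exact (card_le_card (t := range ((2 * k) ^ 10)) fun p hp =>
      mem_range.2 (mem_filter.1 hp).2).trans (card_range _).le

/-- The bound with `1 - 1/(2k)`. -/
theorem exists_completeSum_le {k : ℕ} (hk : 2 ≤ k) : ∃ C : ℝ, 1 ≤ C ∧ ∀ (q : ℕ) (a : ℤ),
    0 < q → IsUnit (a : ZMod q) → ‖completeSum k q a‖ ≤ C * (q : ℝ) ^ (1 - 1 / (2 * k) : ℝ) := by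
  have hk2 : (2 : ℝ) ≤ k := by exact_mod_cast hk
  refine exists_completeSum_le_of hk (by positivity) ?_ ?_
  · rw [mul_one_div, div_le_one (by positivity)]
    linarith
  · rw [div_le_iff₀ (by positivity)]
    linarith

end FA.WaringAsymptotic
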