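import Fermat.Agent.WaringAsymptotic.Weights
import Fermat.Agent.WaringAsymptotic.CompleteSum
import Fermat.Agent.ThreePrimes.Major

/-!
# The major arcs

At `a / q + β` the sum `∑_{x ≤ P} e (α x ^ k)` is `S (q, a) / q` times the sum of
`weight (1/k) m e (β m)` over `m ≤ N`, up to `O (q (1 + |β| N))`: partial summation.
-/

set_option autoImplicit false

noncomputable section

namespace FA.WaringAsymptotic

open Finset FA.ThreePrimes
open scoped Real

/-- `⌊N ^ (1/k)⌋`. -/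
def rootFloor (k N : ℕ) : ℕ := Nat.findGreatest (fun x => x ^ k ≤ N) N

theorem rootFloor_spec {k : ℕ} (hk : 1 ≤ k) {N : ℕ} (hN : 1 ≤ N) :
    1 ≤ rootFloor k N ∧ rootFloor k N ^ k ≤ N ∧ N < (rootFloor k N + 1) ^ k := by
  have h1 : 1 ≤ rootFloor k N := Nat.le_findGreatest hN (by simpa using hN)
  refine ⟨h1, Nat.findGreatest_spec (P := fun x => x ^ k ≤ N) hN (by simpa using hN), ?_⟩
  by_contra h
  rw [not_lt] at h
  have h2 : rootFloor k N + 1 ≤ N := (Nat.le_self_pow (by omega) _).trans h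
  exact absurd h (Nat.findGreatest_is_greatest (P := fun x => x ^ k ≤ N)
    (show Nat.findGreatest (fun x => x ^ k ≤ N) N < rootFloor k N + 1 from Nat.lt_succ_self _) h2)

theorem norm_periodic_sum_sub_le {g : ℕ → ℂ} {q : ℕ} (hq : 0 < q) (hg : ∀ n, ‖g n‖ ≤ 1)
    (hper : ∀ n, g (n + q) = g n) (n : ℕ) :
    ‖∑ x ∈ Ioc 0 n, g x - (n : ℂ) / q * ∑ x ∈ range q, g x‖ ≤ 2 * (q : ℝ) + 2 := by
  obtain ⟨S, hS⟩ : ∃ S, S = ∑ x ∈ range q, g x := ⟨_, rfl⟩
  have hSq : ‖S‖ ≤ q := by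
    rw [hS]
    exact (norm_sum_le _ _).trans ((sum_le_card_nsmul _ _ 1 fun x _ => hg x).trans (by simp))
  have hq' : (0 : ℝ) < q := Nat.cast_pos.2 hq
  have hshift : ∀ m y, g (m * q + y) = g y := fun m y => by
    induction m with
    | zero => simp
    | succ m ih => rw [add_mul, one_mul, add_right_comm, hper, ih]
  have hblock : ∀ m r : ℕ, ∑ x ∈ range (m * q + r), g x = (m : ℂ) * S + ∑ x ∈ range r, g x := by
    intro m r
    rw [sum_range_add, sum_congr rfl fun x _ => hshift m x]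
    congr 1
    induction m with
    | zero => simp
    | succ m ih =>
      rw [add_mul, one_mul, sum_range_add, ih, sum_congr rfl fun x _ => hshift m x, ← hS]
      push_cast
      ring
  obtain ⟨m, r, hr, e⟩ : ∃ m r, r < q ∧ n + 1 = m * q + r :=
    ⟨(n + 1) / q, (n + 1) % q, Nat.mod_lt _ hq, (Nat.div_add_mod' _ _).symm⟩
  have hsum : ∑ x ∈ Ioc 0 n, g x = (m : ℂ) * S + ∑ x ∈ range r, g x - g 0 := by
    rw [← hblock, ← e, sum_range_succ', add_sub_cancel_right,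
      show Ioc 0 n = Ico (0 + 1) (n + 1) by ext; simp; omega, ← sum_Ico_add', ← range_eq_Ico]
  have hq0 : (q : ℂ) ≠ 0 := Nat.cast_ne_zero.2 hq.ne'
  have hn : (n : ℂ) = (m : ℂ) * q + r - 1 := by
    rw [eq_sub_iff_add_eq]
    exact_mod_cast e
  rw [← hS, hsum, show (m : ℂ) * S + ∑ x ∈ range r, g x - g 0 - (n : ℂ) / q * S =
    (∑ x ∈ range r, g x - g 0) + ((1 - (r : ℝ)) / q : ℝ) * S by
      rw [hn]; push_cast; field_simp; ring]
  refine (norm_add_le _ _).trans ?_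
  have h1 : ‖∑ x ∈ range r, g x - g 0‖ ≤ (r : ℝ) + 1 :=
    (norm_sub_le _ _).trans (add_le_add ((norm_sum_le _ _).trans
      ((sum_le_card_nsmul _ _ 1 fun x _ => hg x).trans (by simp))) (hg 0))
  have h2 : ‖(((1 - (r : ℝ)) / q : ℝ) : ℂ) * S‖ ≤ (r : ℝ) + 1 := by
    rw [norm_mul, Complex.norm_real, Real.norm_eq_abs, abs_div, abs_of_pos hq']
    refine (mul_le_mul_of_nonneg_left hSq (by positivity)).trans ?_
    rw [div_mul_cancel₀ _ hq'.ne', abs_le]
    constructor <;> linarith [(Nat.cast_nonneg r : (0 : ℝ) ≤ r)]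
  have : (r : ℝ) + 1 ≤ q + 1 := by
    have : (r : ℝ) ≤ q := by exact_mod_cast hr.le
    linarith
  linarith

/-- `S (q, a) / q`. -/
def densityFactor (k q : ℕ) (a : ℤ) : ℂ := completeSum k q a / q

theorem norm_densityFactor_le_one (k q : ℕ) (a : ℤ) : ‖densityFactor k q a‖ ≤ 1 := by
  rw [densityFactor, norm_div, Complex.norm_natCast]
  exact div_le_one_of_le₀ (norm_completeSum_le k q a) (Nat.cast_nonneg q)

/-- **The approximation on a major arc.** -/
theorem norm_waringSum_sub_le {k N q : ℕ} (hk : 1 ≤ k) (hN : 1 ≤ N) (hq : 0 < q) (a : ℤ)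
    (β : ℝ) :
    ‖waringSum k (rootFloor k N) ((a : ℝ) / q + β) -
        densityFactor k q a * weightSum (1 / (k : ℝ)) N β‖ ≤
      8 * q * (1 + 2 * π * |β| * N) := by
  obtain ⟨hP1, hPN, hNP⟩ := rootFloor_spec hk hN
  obtain ⟨P, hP⟩ : ∃ P, P = rootFloor k N := ⟨_, rfl⟩
  rw [← hP] at hP1 hPN hNP ⊢
  obtain ⟨g, hg⟩ : ∃ g : ℕ → ℂ, g = fun x : ℕ => eAdd ((a : ℝ) * (x : ℝ) ^ k / q) := ⟨_, rfl⟩
  obtain ⟨u, hu⟩ : ∃ u : ℕ → ℂ, u = fun m => ∑ x ∈ (Ioc 0 P).filter (fun x => x ^ k = m), g x :=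
    ⟨_, rfl⟩
  obtain ⟨c, hc⟩ : ∃ c : ℝ, c = 1 / (k : ℝ) := ⟨_, rfl⟩
  rw [← hc]
  have hk0 : (0 : ℝ) < k := by exact_mod_cast hk
  have hc0 : 0 < c := by rw [hc]; positivity
  have hc1 : c ≤ 1 := by
    rw [hc, div_le_one hk0]
    exact_mod_cast hk
  obtain ⟨w, hw⟩ : ∃ w : ℕ → ℂ, w = fun m => u m - densityFactor k q a * (weight c m : ℂ) :=
    ⟨_, rfl⟩
  have hsum : ∑ m ∈ Ioc 0 N, w m * eAdd (m * β) =
      waringSum k P ((a : ℝ) / q + β) - densityFactor k q a * weightSum c N β := by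
    simp only [hw, sub_mul, mul_assoc, sum_sub_distrib, weightSum, mul_sum]
    congr 1
    rw [waringSum, show Icc 1 P = Ioc 0 P by ext; simp; omega,
      ← sum_fiberwise_of_maps_to (s := Ioc 0 P) (g := fun x : ℕ => x ^ k) (t := Ioc 0 N)
        fun x hx => ?_]
    · refine sum_congr rfl fun m _ => ?_
      rw [hu, sum_mul]
      refine sum_congr rfl fun x hx => ?_
      rw [← (mem_filter.1 hx).2, hg, ← eAdd_add]
      push_cast
      ring_nf
    · rw [mem_Ioc] at hx ⊢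
      exact ⟨pow_pos hx.1 k, (Nat.pow_le_pow_left hx.2 k).trans hPN⟩
  rw [← hsum]
  refine (norm_sum_mul_eAdd_le w β N fun j hj => ?_).trans le_rfl
  obtain ⟨X, hX⟩ : ∃ X, X = Nat.findGreatest (fun x => x ^ k ≤ j) P := ⟨_, rfl⟩
  have hXP : X ≤ P := hX ▸ Nat.findGreatest_le P
  have hXj : X ^ k ≤ j := hX ▸ Nat.findGreatest_spec (P := fun x => x ^ k ≤ j) (Nat.zero_le P)
    (by simp [zero_pow (show k ≠ 0 by omega)])
  have hjX : j < (X + 1) ^ k := by
    rcases hXP.eq_or_lt with h | h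
    · exact lt_of_le_of_lt hj (h ▸ hNP)
    · by_contra h'
      exact Nat.findGreatest_is_greatest (P := fun x => x ^ k ≤ j)
        (hX ▸ Nat.lt_succ_self X) h (not_lt.1 h')
  have hu' : ∑ m ∈ Ioc 0 j, u m = ∑ x ∈ Ioc 0 X, g x := by
    rw [hu, ← sum_biUnion fun m _ m' _ hne => disjoint_left.2 fun x hx hx' =>
      hne ((mem_filter.1 hx).2.symm.trans (mem_filter.1 hx').2)]
    refine sum_congr (ext fun x => ?_) fun _ _ => rfl
    simp only [mem_biUnion, mem_filter, mem_Ioc]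
    constructor
    · rintro ⟨m, hm, hx, rfl⟩
      refine ⟨hx.1, ?_⟩
      by_contra h'
      exact absurd hm.2 (not_le.2 (hjX.trans_le (Nat.pow_le_pow_left (by omega) k)))
    · intro hx
      exact ⟨x ^ k, ⟨pow_pos hx.1 k, (Nat.pow_le_pow_left hx.2 k).trans hXj⟩,
        ⟨hx.1, hx.2.trans hXP⟩, rfl⟩
  have hXc : |((∑ m ∈ Ioc 0 j, weight c m : ℝ)) - X| ≤ 2 := by
    obtain ⟨h1, h2⟩ := abs_sum_weight_sub_le hc0 hc1 j
    have e : ∀ y : ℕ, (((y ^ k : ℕ) : ℝ)) ^ c = y := fun y => by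
      rw [Nat.cast_pow, ← Real.rpow_natCast, ← Real.rpow_mul (Nat.cast_nonneg y), hc,
        mul_one_div_cancel hk0.ne', Real.rpow_one]
    have h3 := Real.rpow_le_rpow (Nat.cast_nonneg _) (Nat.cast_le.2 hXj : ((X ^ k : ℕ) : ℝ) ≤ j)
      hc0.le
    have h4 := Real.rpow_le_rpow (Nat.cast_nonneg _)
      (Nat.cast_le.2 hjX.le : (j : ℝ) ≤ (((X + 1) ^ k : ℕ) : ℝ)) hc0.le
    rw [e] at h3 h4
    push_cast at h4
    rw [abs_le]
    constructor <;> linarith
  have hper : ∀ n, g (n + q) = g n := fun n => by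
    have : NeZero q := ⟨hq.ne'⟩
    have h1 := eAdd_div_eq_char (q := q) (a * ((n + q : ℕ) : ℤ) ^ k)
    have h2 := eAdd_div_eq_char (q := q) (a * (n : ℤ) ^ k)
    push_cast at h1 h2
    rw [hg]
    push_cast
    rw [h1, h2, ZMod.natCast_self, add_zero]
  have hper' := norm_periodic_sum_sub_le hq (fun n => by rw [hg, norm_eAdd]) hper X
  rw [show ∑ x ∈ range q, g x = completeSum k q a by rw [hg, completeSum]] at hper'
  simp only [hw, sum_sub_distrib, ← mul_sum, ← Complex.ofReal_sum, hu']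
  rw [show ∑ x ∈ Ioc 0 X, g x - densityFactor k q a * ((∑ m ∈ Ioc 0 j, weight c m : ℝ) : ℂ) =
    (∑ x ∈ Ioc 0 X, g x - (X : ℂ) / q * completeSum k q a) +
      (((X : ℝ) - ∑ m ∈ Ioc 0 j, weight c m : ℝ) : ℂ) * densityFactor k q a by
    simp only [densityFactor]; push_cast; ring]
  refine (norm_add_le _ _).trans ((add_le_add hper' ?_).trans
    (show 2 * (q : ℝ) + 2 + 2 ≤ 8 * q by
      have : (1 : ℝ) ≤ q := by exact_mod_cast hq
      linarith))
  rw [norm_mul, Complex.norm_real, Real.norm_eq_abs, abs_sub_comm]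
  exact (mul_le_mul hXc (norm_densityFactor_le_one k q a) (norm_nonneg _) two_pos.le).trans
    (le_of_eq (mul_one _))

/-- The term `A (q)` of the singular series. -/
def singularTerm (k s N q : ℕ) : ℂ :=
  ∑ r ∈ unitResidues q, densityFactor k q r ^ s * eAdd (-((N : ℝ) * r / q))

theorem singularTerm_one (k s N : ℕ) : singularTerm k s N 1 = 1 := by
  simp [singularTerm, unitResidues, densityFactor, completeSum,
    show ∀ x : ℝ, x * 0 = 0 from mul_zero]

/-- The singular series. -/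
def singularSeries (k s N : ℕ) : ℝ := (∑' q, singularTerm k s N q).re

/-- The bound on a unit residue. -/
theorem exists_densityFactor_le {k : ℕ} (hk : 2 ≤ k) {e : ℝ} (he0 : 0 ≤ e)
    (he : (k : ℝ) * e ≤ 1) (he' : e ≤ 2 / 5) : ∃ C : ℝ, 1 ≤ C ∧ ∀ (q r : ℕ),
      r ∈ unitResidues q → ‖densityFactor k q r‖ ≤ C * (q : ℝ) ^ (-e) := by
  obtain ⟨C, hC, h⟩ := exists_completeSum_le_of hk he0 he he'
  refine ⟨C, hC, fun q r hr => ?_⟩
  rw [unitResidues, mem_filter, mem_range] at hr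
  have hq : 0 < q := by omega
  have hu : IsUnit (((r : ℕ) : ℤ) : ZMod q) := by
    rw [Int.cast_natCast]
    exact (ZMod.isUnit_iff_coprime r q).2 hr.2.symm
  rw [densityFactor, norm_div, Complex.norm_natCast, div_le_iff₀ (Nat.cast_pos.2 hq), mul_assoc,
    ← Real.rpow_add_one (Nat.cast_ne_zero.2 hq.ne'), neg_add_eq_sub]
  exact h q r hq hu

/-- **The terms are `O (q ^ -(7/5))`** for `s ≥ 3 k`. -/
theorem exists_singularTerm_le {k s : ℕ} (hk : 2 ≤ k) (hs : 3 * k ≤ s) : ∃ C : ℝ, 1 ≤ C ∧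
    ∀ q : ℕ,
      (∑ r ∈ unitResidues q, ‖densityFactor k q r‖ ^ s ≤ C * (q : ℝ) ^ (-(7 / 5) : ℝ)) ∧
      ∀ N, ‖singularTerm k s N q‖ ≤ C * (q : ℝ) ^ (-(7 / 5) : ℝ) := by
  have hk2 : (2 : ℝ) ≤ k := by exact_mod_cast hk
  have hs' : 3 * (k : ℝ) ≤ s := by exact_mod_cast hs
  obtain ⟨e, he0, he, he', hse⟩ : ∃ e : ℝ, 0 ≤ e ∧ (k : ℝ) * e ≤ 1 ∧ e ≤ 2 / 5 ∧
      12 / 5 ≤ e * s := by
    rcases Nat.lt_or_ge k 3 with h | h
    · obtain rfl : k = 2 := by omega
      refine ⟨2 / 5, by norm_num, by norm_num, le_rfl, ?_⟩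
      push_cast at hs'
      linarith
    · have h3 : (3 : ℝ) ≤ k := by exact_mod_cast h
      refine ⟨1 / k, by positivity, le_of_eq (mul_one_div_cancel (by linarith)), ?_, ?_⟩
      · rw [div_le_iff₀ (by linarith)]; linarith
      · rw [one_div_mul_eq_div, le_div_iff₀ (by linarith)]
        linarith
  obtain ⟨C, hC, h⟩ := exists_densityFactor_le hk he0 he he'
  refine ⟨C ^ s, one_le_pow₀ hC, fun q => ?_⟩
  have key : ∑ r ∈ unitResidues q, ‖densityFactor k q r‖ ^ s ≤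
      C ^ s * (q : ℝ) ^ (-(7 / 5) : ℝ) := by
    rcases Nat.eq_zero_or_pos q with rfl | hq
    · simp [unitResidues]
    have hq1 : (1 : ℝ) ≤ q := by exact_mod_cast hq
    refine (sum_le_card_nsmul _ _ (C ^ s * (q : ℝ) ^ (-(12 / 5) : ℝ)) fun r hr => ?_).trans ?_
    · refine (pow_le_pow_left₀ (norm_nonneg _) (h q r hr) s).trans ?_
      rw [mul_pow, ← Real.rpow_natCast ((q : ℝ) ^ _) s, ← Real.rpow_mul (by linarith)]
      exact mul_le_mul_of_nonneg_left (Real.rpow_le_rpow_of_exponent_le hq1 (by linarith))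
        (by positivity)
    · rw [card_unitResidues, nsmul_eq_mul]
      refine (mul_le_mul_of_nonneg_right (Nat.cast_le.2 (Nat.totient_le q))
        (by positivity)).trans (le_of_eq ?_)
      rw [show (-(7 / 5) : ℝ) = -(12 / 5) + 1 by norm_num, Real.rpow_add_one (by linarith)]
      ring
  refine ⟨key, fun N => (norm_sum_le _ _).trans (le_of_eq_of_le (sum_congr rfl fun r _ => ?_) key)⟩
  rw [norm_mul, norm_pow, norm_eAdd, mul_one]

/-- **The tail of the singular series.** -/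
theorem exists_singular_tail {k s : ℕ} (hk : 2 ≤ k) (hs : 3 * k ≤ s) : ∃ C : ℝ, 0 < C ∧
    ∀ N Q : ℕ, Summable (singularTerm k s N) ∧
      ‖∑ q ∈ Icc 1 Q, singularTerm k s N q - ∑' q, singularTerm k s N q‖ ≤
        C * ((Q + 1 : ℕ) : ℝ) ^ (-(1 / 5) : ℝ) ∧
      ‖∑' q, singularTerm k s N q‖ ≤ C := by
  obtain ⟨C, hC, h⟩ := exists_singularTerm_le hk hs
  have hsum : Summable fun q : ℕ => (q : ℝ) ^ (-(6 / 5) : ℝ) :=
    Real.summable_nat_rpow.2 (by norm_num)
  obtain ⟨Z, hZ⟩ : ∃ Z, Z = ∑' q : ℕ, (q : ℝ) ^ (-(6 / 5) : ℝ) := ⟨_, rfl⟩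
  have hZ0 : 0 ≤ Z := hZ ▸ tsum_nonneg fun q => by positivity
  refine ⟨C * Z + 1, by positivity, fun N Q => ?_⟩
  have hbd : ∀ q, ‖singularTerm k s N q‖ ≤ C * (q : ℝ) ^ (-(6 / 5) : ℝ) := fun q => by
    rcases Nat.eq_zero_or_pos q with rfl | hq
    · simp [singularTerm, unitResidues]
    refine ((h q).2 N).trans (mul_le_mul_of_nonneg_left ?_ (by linarith))
    exact Real.rpow_le_rpow_of_exponent_le (by exact_mod_cast hq) (by norm_num)
  have hs1 : Summable (singularTerm k s N) :=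
    Summable.of_norm_bounded (hsum.mul_left C) hbd
  refine ⟨hs1, ?_, ?_⟩
  · have h0 : singularTerm k s N 0 = 0 := by simp [singularTerm, unitResidues]
    have e : ∑ q ∈ Icc 1 Q, singularTerm k s N q = ∑ q ∈ range (Q + 1), singularTerm k s N q := by
      refine sum_subset (fun q hq => mem_range.2 (by rw [mem_Icc] at hq; omega)) fun q hq hq' => ?_
      rw [mem_range] at hq
      rw [mem_Icc] at hq'
      rw [show q = 0 by omega, h0]
    rw [e, ← hs1.sum_add_tsum_nat_add (Q + 1), sub_add_cancel_left, norm_neg]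
    obtain ⟨T, hT⟩ : ∃ T : ℝ, T = ((Q + 1 : ℕ) : ℝ) := ⟨_, rfl⟩
    rw [← hT]
    have hT1 : 1 ≤ T := hT ▸ by exact_mod_cast Nat.le_add_left 1 Q
    have hsh : Summable fun i : ℕ => T ^ (-(1 / 5) : ℝ) *
        (C * ((i + (Q + 1) : ℕ) : ℝ) ^ (-(6 / 5) : ℝ)) :=
      (((summable_nat_add_iff (f := fun q : ℕ => (q : ℝ) ^ (-(6 / 5) : ℝ)) (Q + 1)).2
        hsum).mul_left C).mul_left _
    refine (tsum_of_norm_bounded hsh.hasSum fun i => ?_).trans ?_
    · refine ((h (i + (Q + 1))).2 N).trans ?_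
      have hi : T ≤ ((i + (Q + 1) : ℕ) : ℝ) := hT ▸ Nat.cast_le.2 (Nat.le_add_left _ _)
      rw [mul_left_comm]
      refine mul_le_mul_of_nonneg_left ?_ (by linarith)
      rw [show (-(7 / 5) : ℝ) = -(1 / 5) + -(6 / 5) by norm_num, Real.rpow_add (by linarith)]
      exact mul_le_mul_of_nonneg_right
        (Real.rpow_le_rpow_of_nonpos (by linarith) hi (by norm_num)) (by positivity)
    · rw [tsum_mul_left, tsum_mul_left, mul_comm (C * Z + 1)]
      refine mul_le_mul_of_nonneg_left ?_ (by positivity)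
      have := hsum.sum_add_tsum_nat_add (Q + 1)
      have : 0 ≤ ∑ q ∈ range (Q + 1), (q : ℝ) ^ (-(6 / 5) : ℝ) :=
        sum_nonneg fun q _ => by positivity
      have := mul_le_mul_of_nonneg_left (show
          ∑' i : ℕ, ((i + (Q + 1) : ℕ) : ℝ) ^ (-(6 / 5) : ℝ) ≤ Z by
        linarith) (zero_le_one.trans hC)
      linarith
  · refine (tsum_of_norm_bounded (hsum.mul_left C).hasSum hbd).trans ?_
    rw [tsum_mul_left, ← hZ]
    linarith

end FA.WaringAsymptotic
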