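import Fermat.Agent.WaringAsymptotic.Minor
import Fermat.Agent.WaringAsymptotic.Major

/-!
# The asymptotic formula in Waring's problem

The circle method on the points `h / (s N)`: the number of representations of `N` by `s` positive
`k`-th powers is `Γ (1 + 1/k) ^ s / Γ (s/k) 𝔖 (N) N ^ (s/k - 1) + O (N ^ (s/k - 1 - δ))`.
-/

set_option autoImplicit false

noncomputable section

namespace FA.WaringAsymptotic

open Finset FA.ThreePrimes
open scoped Real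

/-- The representations of `N` by `s` positive `k`-th powers. -/
def repCount (k s N : ℕ) : ℕ :=
  ((Fintype.piFinset fun _ : Fin s => Icc 1 N).filter fun z => ∑ i, z i ^ k = N).card

/-- The points of the main term. -/
def mainTerm (k s N : ℕ) (x : ℝ) : ℂ := weightSum (1 / (k : ℝ)) N x ^ s * eAdd (-((N : ℝ) * x))

theorem weylSaving_le_of_two_le {k : ℕ} (hk : 2 ≤ k) : weylSaving k ≤ 1 / 40 := by
  unfold weylSaving
  refine one_div_le_one_div_of_le (by norm_num) ?_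
  have h : (2 : ℝ) ^ 1 ≤ 2 ^ (k - 1) := pow_le_pow_right₀ one_le_two (by omega)
  linarith

theorem three_mul_le_of_lt {k s : ℕ} (hk : 2 ≤ k) (hs : k * (k + 1) < s) : 3 * k ≤ s := by
  have : k * 3 ≤ k * (k + 1) := Nat.mul_le_mul_left k (by omega)
  omega

theorem norm_pow_sub_pow_le {x y : ℂ} {R : ℝ} (hx : ‖x‖ ≤ R) (hy : ‖y‖ ≤ R) (n : ℕ) :
    ‖x ^ (n + 1) - y ^ (n + 1)‖ ≤ ((n + 1 : ℕ) : ℝ) * R ^ n * ‖x - y‖ := by
  have hR : 0 ≤ R := (norm_nonneg x).trans hx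
  rw [← geom_sum₂_mul, norm_mul]
  refine mul_le_mul_of_nonneg_right ((norm_sum_le _ _).trans
    ((sum_le_card_nsmul _ _ (R ^ n) fun i hi => ?_).trans (by simp))) (norm_nonneg _)
  rw [mem_range] at hi
  rw [norm_mul, norm_pow, norm_pow, Nat.add_sub_cancel]
  calc ‖x‖ ^ i * ‖y‖ ^ (n - i) ≤ R ^ i * R ^ (n - i) :=
        mul_le_mul (pow_le_pow_left₀ (norm_nonneg _) hx _) (pow_le_pow_left₀ (norm_nonneg _) hy _)
          (by positivity) (by positivity)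
    _ = R ^ n := by rw [← pow_add]; congr 1; omega

theorem sum_grid_waringSum {k s N M : ℕ} (hk : 1 ≤ k) (hs : 2 ≤ s) (hN : 1 ≤ N) (hM : M = s * N) :
    ∑ h ∈ range M, waringSum k (rootFloor k N) ((h : ℝ) / M) ^ s *
        eAdd (-((N : ℝ) * ((h : ℝ) / M))) =
      (M : ℂ) * repCount k s N := by
  obtain ⟨-, hPN, hNP⟩ := rootFloor_spec hk hN
  obtain ⟨P, hP⟩ : ∃ P, P = rootFloor k N := ⟨_, rfl⟩
  rw [← hP] at hPN hNP ⊢
  have h2 : 2 * N ≤ M := hM ▸ Nat.mul_le_mul_right N hs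
  have e : ∀ x : ℝ, waringSum k P x = ∑ i ∈ Icc 1 P, (1 : ℂ) * eAdd ((i ^ k : ℕ) * x) := fun x => by
    rw [waringSum]
    refine sum_congr rfl fun i _ => ?_
    rw [one_mul, mul_comm]
    push_cast
    rfl
  have hg := sum_pow_grid (Icc 1 P) (fun _ => (1 : ℂ)) (fun i => i ^ k) (s := s) (N := N) (M := M)
    (B := P ^ k) (fun i hi => Nat.pow_le_pow_left (mem_Icc.1 hi).2 k)
    (by have := Nat.mul_le_mul_left s hPN; omega) (by omega) 0
  simp only [add_zero, ← e, prod_const_one, sum_const, nsmul_eq_mul, mul_one] at hg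
  rw [hg]
  congr 2
  rw [repCount]
  congr 1
  ext z
  simp only [mem_filter, Fintype.mem_piFinset, mem_Icc]
  refine ⟨fun h => ⟨fun i => ⟨(h.1 i).1, (h.1 i).2.trans
    ((Nat.le_self_pow (by omega) P).trans hPN)⟩, h.2⟩, fun h => ⟨fun i => ⟨(h.1 i).1, ?_⟩, h.2⟩⟩
  by_contra hlt
  have h3 := Nat.pow_le_pow_left (show P + 1 ≤ z i by omega) k
  have h4 := single_le_sum (f := fun j => z j ^ k) (fun j _ => Nat.zero_le _) (mem_univ i)
  have h5 := h.2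
  omega

theorem sum_grid_mainTerm {k s N M : ℕ} (hs : 2 ≤ s) (hN : 1 ≤ N) (hM : M = s * N) (θ : ℝ) :
    ∑ h ∈ range M, mainTerm k s N ((h : ℝ) / M + θ) = (M : ℂ) * weightConv (1 / (k : ℝ)) s N := by
  have h2 : 2 * N ≤ M := hM ▸ Nat.mul_le_mul_right N hs
  have hg := sum_pow_grid (Ioc 0 N) (fun m => (weight (1 / (k : ℝ)) m : ℂ)) (fun m => m) (s := s)
    (N := N) (M := M) (B := N) (fun i hi => (mem_Ioc.1 hi).2) (by omega) (by omega) θ
  rw [weightConv, Complex.ofReal_sum]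
  push_cast
  exact hg

/-- The coefficient of an arc. -/
def arcCoef (k s N : ℕ) (z : Σ _ : ℕ, ℕ) : ℂ :=
  densityFactor k z.1 z.2 ^ s * eAdd (-((N : ℝ) * centre z))

theorem exists_one_add_log_le (k s : ℕ) : ∃ C : ℝ, 1 ≤ C ∧ ∀ (P : ℕ) (M : ℝ), 1 ≤ P → 1 ≤ M →
    M ≤ s * (2 * (P : ℝ)) ^ k → 1 + Real.log M ≤ C * (P : ℝ) ^ (1 / 10 : ℝ) := by
  refine ⟨1 + s + k + 10 * k, by linarith [(Nat.cast_nonneg s : (0 : ℝ) ≤ s),
    (Nat.cast_nonneg k : (0 : ℝ) ≤ k)], fun P M hP hM hMP => ?_⟩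
  have hP1 : (1 : ℝ) ≤ P := by exact_mod_cast hP
  have hs : (1 : ℝ) ≤ s := by
    rcases Nat.eq_zero_or_pos s with rfl | h
    · simp at hMP
      linarith
    · exact_mod_cast h
  have h1 := Real.log_le_log (by linarith) hMP
  rw [Real.log_mul (by linarith) (by positivity), Real.log_pow,
    Real.log_mul two_ne_zero (by linarith)] at h1
  have h2 := Real.log_le_rpow_div (show (0 : ℝ) ≤ P by linarith) (show (0 : ℝ) < 1 / 10 by norm_num)
  have h3 : (1 : ℝ) ≤ (P : ℝ) ^ (1 / 10 : ℝ) := Real.one_le_rpow hP1 (by norm_num)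
  have h4 := Real.log_le_self (show (0 : ℝ) ≤ s by linarith)
  have h5 := Real.log_two_lt_d9
  have h6 : (k : ℝ) * (Real.log 2 + Real.log P) ≤ k * (1 + 10 * (P : ℝ) ^ (1 / 10 : ℝ)) := by
    refine mul_le_mul_of_nonneg_left (add_le_add (by linarith) (h2.trans (le_of_eq ?_)))
      (Nat.cast_nonneg k)
    ring
  have h7 : (1 + s + k : ℝ) ≤ (1 + s + k) * (P : ℝ) ^ (1 / 10 : ℝ) :=
    le_mul_of_one_le_right (by positivity) h3
  linarith

/-- Powers of `P` are powers of `N`. -/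
theorem pow_root_le {k N P : ℕ} {X : ℝ} (hX : 0 ≤ X) (hPN : P ^ k ≤ N) :
    (P : ℝ) ^ ((k : ℝ) * X) ≤ (N : ℝ) ^ X := by
  rw [Real.rpow_mul (Nat.cast_nonneg P), Real.rpow_natCast]
  exact Real.rpow_le_rpow (by positivity) (by exact_mod_cast hPN) hX

theorem root_neg_le {k N P : ℕ} {e : ℝ} (hk : 1 ≤ k) (hP : 1 ≤ P) (hN : 1 ≤ N)
    (hNP : N < (P + 1) ^ k) (he : 0 ≤ e) :
    (P : ℝ) ^ (-e) ≤ (2 : ℝ) ^ e * (N : ℝ) ^ (-(e / k)) := by
  have hP1 : (1 : ℝ) ≤ P := by exact_mod_cast hP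
  have hN' : (N : ℝ) ≤ (2 * (P : ℝ)) ^ k := by
    exact_mod_cast hNP.le.trans (Nat.pow_le_pow_left (show P + 1 ≤ 2 * P by omega) k)
  have h := Real.rpow_le_rpow_of_nonpos (by exact_mod_cast hN) hN'
    (neg_nonpos.2 (div_nonneg he (Nat.cast_nonneg k)))
  have hk0 : (k : ℝ) ≠ 0 := Nat.cast_ne_zero.2 (by omega)
  rw [← Real.rpow_natCast, ← Real.rpow_mul (by positivity),
    show (k : ℝ) * -(e / k) = -e by field_simp, Real.mul_rpow two_pos.le (by linarith)] at h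
  calc (P : ℝ) ^ (-e) = (2 : ℝ) ^ e * ((2 : ℝ) ^ (-e) * (P : ℝ) ^ (-e)) := by
        rw [← mul_assoc, ← Real.rpow_add two_pos, add_neg_cancel, Real.rpow_zero, one_mul]
    _ ≤ _ := mul_le_mul_of_nonneg_left h (by positivity)

/-- One arc. -/
theorem exists_arc_error {k : ℕ} (hk : 2 ≤ k) (n : ℕ) : ∃ C : ℝ, 0 < C ∧ ∀ N P M : ℕ,
    P = rootFloor k N → 1 ≤ N → M = (n + 1) * N →
      ∀ z ∈ arcCentres ⌊(P : ℝ) ^ (1 / 10 : ℝ)⌋₊,
        ∑ h ∈ arc M ((P : ℝ) ^ (1 / 10 : ℝ) / N) z,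
          ‖waringSum k P ((h : ℝ) / M) ^ (n + 1) * eAdd (-((N : ℝ) * ((h : ℝ) / M))) -
            arcCoef k (n + 1) N z * mainTerm k (n + 1) N ((h : ℝ) / M + -centre z)‖ ≤
          C * (P : ℝ) ^ ((n : ℝ) + 4 / 10) := by
  obtain ⟨L, hL1, hlog⟩ := exists_one_add_log_le k (n + 1)
  refine ⟨(5 + 4 * ((n + 1 : ℕ) : ℝ) * L) * (((n + 1 : ℕ) : ℝ) * 2 ^ n * 72), by positivity,
    fun N P M hP hN hM z hz => ?_⟩
  obtain ⟨hP1, hPN, hNP⟩ := rootFloor_spec (show 1 ≤ k by omega) hN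
  rw [← hP] at hP1 hPN hNP
  have hPr : (1 : ℝ) ≤ P := by exact_mod_cast hP1
  have hN0 : (0 : ℝ) < N := Nat.cast_pos.2 hN
  have : NeZero M := ⟨by rw [hM]; positivity⟩
  obtain ⟨R, hR⟩ : ∃ R, R = (P : ℝ) ^ (1 / 10 : ℝ) := ⟨_, rfl⟩
  rw [← hR] at hz ⊢
  have hR1 : 1 ≤ R := hR ▸ Real.one_le_rpow hPr (by norm_num)
  have hk0 : (0 : ℝ) < k := by exact_mod_cast (show 0 < k by omega)
  have hk1 : 1 / (k : ℝ) ≤ 1 := by
    rw [div_le_one hk0]; exact_mod_cast (show 1 ≤ k by omega)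
  have hNc : (N : ℝ) ^ (1 / (k : ℝ)) ≤ 2 * P := by
    refine (Real.rpow_le_rpow hN0.le (?_ : (N : ℝ) ≤ (2 * (P : ℝ)) ^ (k : ℝ))
      (by positivity)).trans (le_of_eq ?_)
    · rw [Real.rpow_natCast]
      exact_mod_cast hNP.le.trans (Nat.pow_le_pow_left (show P + 1 ≤ 2 * P by omega) k)
    · rw [← Real.rpow_mul (by positivity), mul_one_div_cancel hk0.ne', Real.rpow_one]
  have hone : ∀ h ∈ arc M (R / N) z,
      ‖waringSum k P ((h : ℝ) / M) ^ (n + 1) * eAdd (-((N : ℝ) * ((h : ℝ) / M))) -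
        arcCoef k (n + 1) N z * mainTerm k (n + 1) N ((h : ℝ) / M + -centre z)‖ ≤
          ((n + 1 : ℕ) : ℝ) * (2 * (P : ℝ)) ^ n * (72 * R ^ 2) := by
    intro h hh
    obtain ⟨q, r⟩ := z
    obtain ⟨⟨hq, hqR⟩, -, -⟩ := mem_arcCentres.1 hz
    simp only at hq hqR
    have hqR' : (q : ℝ) ≤ R := (Nat.cast_le.2 hqR).trans (Nat.floor_le (by linarith))
    rw [arc, mem_filter, nearDist] at hh
    obtain ⟨j, hj⟩ : ∃ j, j = round ((h : ℝ) / M - centre ⟨q, r⟩) := ⟨_, rfl⟩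
    obtain ⟨β, hβ⟩ : ∃ β, β = (h : ℝ) / M - centre ⟨q, r⟩ - j := ⟨_, rfl⟩
    rw [← hj, ← hβ] at hh
    have hq0 : (q : ℝ) ≠ 0 := Nat.cast_ne_zero.2 (by omega)
    have hα : waringSum k P ((h : ℝ) / M) = waringSum k P ((r : ℕ) / (q : ℝ) + β) := by
      refine sum_congr rfl fun x _ => ?_
      rw [← eAdd_add_intCast _ (-(j * (x : ℤ) ^ k)), hβ, centre]
      push_cast
      ring_nf
    have happ := norm_waringSum_sub_le (show 1 ≤ k by omega) hN (show 0 < q by omega) (r : ℤ) β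
    rw [← hP, Int.cast_natCast, ← hα] at happ
    rw [arcCoef, mainTerm, ← sub_eq_add_neg, ← weightSum_sub_intCast _ N _ j, ← hβ]
    have e : eAdd (-((N : ℝ) * centre ⟨q, r⟩)) * eAdd (-(N * ((h : ℝ) / M - centre ⟨q, r⟩))) =
        eAdd (-((N : ℝ) * ((h : ℝ) / M))) := by
      rw [← eAdd_add]
      ring_nf
    rw [mul_mul_mul_comm, e, ← sub_mul, norm_mul, norm_eAdd, mul_one, ← mul_pow]
    refine (norm_pow_sub_pow_le (R := 2 * (P : ℝ)) ((norm_waringSum_le _ _ _).trans (by linarith))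
      ?_ n).trans (mul_le_mul_of_nonneg_left (happ.trans ?_) (by positivity))
    · rw [norm_mul]
      exact (mul_le_of_le_one_left (norm_nonneg _) (norm_densityFactor_le_one _ _ _)).trans
        ((norm_weightSum_le (by positivity) hk1 N β).trans hNc)
    · have h1 : |β| * N ≤ R := by
        rw [← le_div_iff₀ hN0]
        exact hh.2
      have h2 : 1 + 2 * π * |β| * N ≤ 9 * R := by
        have := mul_le_mul_of_nonneg_left h1 (show (0 : ℝ) ≤ 2 * π by positivity)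
        have := mul_le_mul_of_nonneg_right Real.pi_le_four (show (0 : ℝ) ≤ R by linarith)
        linarith
      calc 8 * (q : ℝ) * (1 + 2 * π * |β| * N) ≤ 8 * R * (9 * R) :=
            mul_le_mul (by linarith) h2 (by positivity) (by positivity)
        _ = _ := by ring
  refine (sum_le_card_nsmul _ _ _ hone).trans ?_
  rw [nsmul_eq_mul]
  have hcard : ((arc M (R / N) z).card : ℝ) ≤ (5 + 4 * ((n + 1 : ℕ) : ℝ) * L) * R ^ 2 := by
    refine (card_arc_le (div_pos (by linarith) hN0) z).trans ?_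
    have hlogM := hlog P M hP1 (by exact_mod_cast (NeZero.pos M : 0 < M)) (by
      rw [hM]
      push_cast
      refine mul_le_mul_of_nonneg_left ?_ (by positivity)
      exact_mod_cast hNP.le.trans (Nat.pow_le_pow_left (show P + 1 ≤ 2 * P by omega) k))
    rw [← hR] at hlogM
    have hMd : 4 * (M : ℝ) * (R / N) = 4 * ((n + 1 : ℕ) : ℝ) * R := by
      rw [hM]; push_cast; field_simp
    rw [hMd]
    have := mul_le_mul_of_nonneg_left hlogM (show 0 ≤ 4 * ((n + 1 : ℕ) : ℝ) * R by positivity)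
    have h5 : (5 : ℝ) * 1 ≤ 5 * R ^ 2 := mul_le_mul_of_nonneg_left (one_le_pow₀ hR1) (by norm_num)
    linarith
  refine (mul_le_mul_of_nonneg_right hcard (by positivity)).trans (le_of_eq ?_)
  rw [Real.rpow_add (by linarith), Real.rpow_natCast, show (4 / 10 : ℝ) = (1 / 10 : ℝ) * (4 : ℕ) by
    norm_num, Real.rpow_mul (by linarith), ← hR, Real.rpow_natCast]
  ring

/-- The main term off one arc. -/
theorem exists_arc_tail_norm {k s : ℕ} (hk : 2 ≤ k) (hs : 3 * k ≤ s) : ∃ C : ℝ, 0 < C ∧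
    ∀ N P M : ℕ, P = rootFloor k N → 1 ≤ N → M = s * N →
      ∀ z ∈ arcCentres ⌊(P : ℝ) ^ (1 / 10 : ℝ)⌋₊,
        ∑ h ∈ range M \ arc M ((P : ℝ) ^ (1 / 10 : ℝ) / N) z,
          ‖mainTerm k s N ((h : ℝ) / M + -centre z)‖ ≤
        C * M * (N : ℝ) ^ ((s : ℝ) / k - 1) * (P : ℝ) ^ (-(1 / 10) : ℝ) := by
  obtain ⟨L, hL1, hlog⟩ := exists_one_add_log_le k s
  obtain ⟨Y, hY⟩ : ∃ Y : ℝ, Y = (s : ℝ) / k - 1 := ⟨_, rfl⟩
  have hk0 : (0 : ℝ) < k := by exact_mod_cast (show 0 < k by omega)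
  have hY3 : 2 ≤ Y := by
    rw [hY, le_sub_iff_add_le, le_div_iff₀ hk0]
    exact_mod_cast (show (2 + 1) * k ≤ s by omega)
  refine ⟨3 ^ s * (10 * L), by positivity, fun N P M hP hN hM z _ => ?_⟩
  obtain ⟨hP1, hPN, hNP⟩ := rootFloor_spec (show 1 ≤ k by omega) hN
  rw [← hP] at hP1 hPN hNP
  have hPr : (1 : ℝ) ≤ P := by exact_mod_cast hP1
  have hN0 : (0 : ℝ) < N := Nat.cast_pos.2 hN
  have hs0 : 1 ≤ s := by omega
  have : NeZero M := ⟨by rw [hM]; positivity⟩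
  obtain ⟨R, hR⟩ : ∃ R, R = (P : ℝ) ^ (1 / 10 : ℝ) := ⟨_, rfl⟩
  rw [← hR]
  have hR1 : 1 ≤ R := hR ▸ Real.one_le_rpow hPr (by norm_num)
  obtain ⟨δ, hδ⟩ : ∃ δ, δ = R / (N : ℝ) := ⟨_, rfl⟩
  rw [← hδ]
  have hδ0 : 0 < δ := by rw [hδ]; positivity
  obtain ⟨Z, hZ⟩ : ∃ Z, Z = 1 / (2 * δ) := ⟨_, rfl⟩
  have hZ0 : 0 < Z := by rw [hZ]; positivity
  have hk1 : 1 / (k : ℝ) ≤ 1 := by
    rw [div_le_one hk0]; exact_mod_cast (show 1 ≤ k by omega)
  refine ((sum_le_sum (g := fun h : ℕ =>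
    3 ^ s * δ ^ (-Y) * (2 * clip Z ((h : ℝ) / M - centre z))) fun h hh => ?_).trans ?_)
  · rw [mem_sdiff, arc, mem_filter, not_and, not_le] at hh
    have hd := hh.2 hh.1
    obtain ⟨d, hd'⟩ : ∃ d, d = nearDist ((h : ℝ) / M - centre z) := ⟨_, rfl⟩
    rw [← hd'] at hd
    have hd0 : 0 < d := hδ0.trans hd
    rw [← sub_eq_add_neg, mainTerm, norm_mul, norm_eAdd, mul_one, norm_pow]
    have h1 := norm_weightSum_le_inv (c := 1 / (k : ℝ)) (by positivity) hk1 N (hd' ▸ hd0)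
    rw [← hd'] at h1
    refine (pow_le_pow_left₀ (norm_nonneg _) h1 s).trans ?_
    have hclip : 2 * clip Z ((h : ℝ) / M - centre z) = d⁻¹ := by
      rw [clip, ← hd', if_neg hd0.ne', min_eq_right
        (hZ ▸ one_div_le_one_div_of_le (by positivity) (by linarith))]
      field_simp
    rw [hclip, mul_pow, ← Real.rpow_natCast (d ^ _) s, ← Real.rpow_mul hd0.le,
      show -(1 / (k : ℝ)) * s = -Y + -1 by rw [hY]; field_simp; ring, Real.rpow_add hd0,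
      Real.rpow_neg_one, ← mul_assoc]
    exact mul_le_mul_of_nonneg_right (mul_le_mul_of_nonneg_left
      (Real.rpow_le_rpow_of_nonpos hδ0 hd.le (by linarith)) (by positivity)) (by positivity)
  rw [← mul_sum, ← mul_sum]
  refine (mul_le_mul_of_nonneg_left (mul_le_mul_of_nonneg_left
    ((sum_le_sum_of_subset_of_nonneg sdiff_subset fun i _ _ => clip_nonneg hZ0.le _).trans
      (sum_clip_grid_le (centre z) hZ0.le)) two_pos.le) (by positivity)).trans ?_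
  have hlogM := hlog P M hP1 (by exact_mod_cast (NeZero.pos M : 0 < M)) (by
    rw [hM]
    push_cast
    refine mul_le_mul_of_nonneg_left ?_ (by positivity)
    exact_mod_cast hNP.le.trans (Nat.pow_le_pow_left (show P + 1 ≤ 2 * P by omega) k))
  rw [← hR] at hlogM
  have hMN : (N : ℝ) ≤ M := by
    exact_mod_cast (show N ≤ M from hM ▸ Nat.le_mul_of_pos_left N hs0)
  have hZM : 5 * Z + 2 * M * (1 + Real.log M) ≤ 5 * L * M * R := by
    have h1 : Z ≤ (M : ℝ) * R / 2 := by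
      rw [hZ, hδ, show 1 / (2 * (R / (N : ℝ))) = N / R / 2 by field_simp]
      refine div_le_div_of_nonneg_right ((div_le_self hN0.le hR1).trans (hMN.trans ?_)) two_pos.le
      exact le_mul_of_one_le_right (Nat.cast_nonneg M) hR1
    have h2 := mul_le_mul_of_nonneg_left hlogM (show 0 ≤ 2 * (M : ℝ) by positivity)
    have h3 : (M : ℝ) * R ≤ (M : ℝ) * R * L := le_mul_of_one_le_right (by positivity) hL1
    have h4 : 0 ≤ (M : ℝ) * R * L := by positivity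
    linarith
  refine (mul_le_mul_of_nonneg_left (mul_le_mul_of_nonneg_left hZM two_pos.le)
    (by positivity)).trans ?_
  have hsave : δ ^ (-Y) * R ≤ (N : ℝ) ^ Y * (P : ℝ) ^ (-(1 / 10) : ℝ) := by
    rw [hδ, Real.div_rpow (by linarith) hN0.le, Real.rpow_neg hN0.le, div_inv_eq_mul,
      mul_comm (R ^ (-Y)), mul_assoc]
    refine mul_le_mul_of_nonneg_left ?_ (by positivity)
    rw [← Real.rpow_add_one (by linarith : R ≠ 0)]
    refine (Real.rpow_le_rpow_of_exponent_le hR1 (show -Y + 1 ≤ -1 by linarith)).trans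
      (le_of_eq ?_)
    rw [hR, ← Real.rpow_mul (by linarith)]
    norm_num
  rw [← hY]
  calc 3 ^ s * δ ^ (-Y) * (2 * (5 * L * M * R))
      = 3 ^ s * (10 * L) * M * (δ ^ (-Y) * R) := by ring
    _ ≤ 3 ^ s * (10 * L) * M * ((N : ℝ) ^ Y * (P : ℝ) ^ (-(1 / 10) : ℝ)) :=
        mul_le_mul_of_nonneg_left hsave (by positivity)
    _ = _ := by ring

/-- The sum of the main term off one arc. -/
theorem exists_arc_tail {k s : ℕ} (hk : 2 ≤ k) (hs : 3 * k ≤ s) : ∃ C : ℝ, 0 < C ∧ ∀ N P M : ℕ,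
    P = rootFloor k N → 1 ≤ N → M = s * N → ∀ z ∈ arcCentres ⌊(P : ℝ) ^ (1 / 10 : ℝ)⌋₊,
      ‖∑ h ∈ range M \ arc M ((P : ℝ) ^ (1 / 10 : ℝ) / N) z,
          mainTerm k s N ((h : ℝ) / M + -centre z)‖ ≤
        C * M * (N : ℝ) ^ ((s : ℝ) / k - 1) * (P : ℝ) ^ (-(1 / 10) : ℝ) := by
  obtain ⟨C, hC, h⟩ := exists_arc_tail_norm hk hs
  exact ⟨C, hC, fun N P M hP hN hM z hz => (norm_sum_le _ _).trans (h N P M hP hN hM z hz)⟩

theorem sum_arcCoef (k s N Q : ℕ) :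
    ∑ z ∈ arcCentres Q, arcCoef k s N z = ∑ q ∈ Icc 1 Q, singularTerm k s N q := by
  rw [arcCentres, sum_sigma]
  refine sum_congr rfl fun q _ => sum_congr rfl fun r _ => ?_
  simp only [arcCoef, centre]
  ring_nf

/-- The arcs are apart. -/
theorem arc_pairwiseDisjoint {k N P : ℕ} (M : ℕ) (hk : 2 ≤ k) (hP1 : 1 ≤ P) (hPN : P ^ k ≤ N) :
    ((arcCentres ⌊(P : ℝ) ^ (1 / 10 : ℝ)⌋₊ : Set (Σ _ : ℕ, ℕ))).PairwiseDisjoint
      (arc M ((P : ℝ) ^ (1 / 10 : ℝ) / N)) := by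
  have hPr : (1 : ℝ) ≤ P := by exact_mod_cast hP1
  have hN1 : (1 : ℝ) ≤ N := by exact_mod_cast (Nat.one_le_pow _ _ hP1).trans hPN
  obtain ⟨Q, hQ⟩ : ∃ Q, Q = ⌊(P : ℝ) ^ (1 / 10 : ℝ)⌋₊ := ⟨_, rfl⟩
  obtain ⟨δ, hδ⟩ : ∃ δ, δ = (P : ℝ) ^ (1 / 10 : ℝ) / (N : ℝ) := ⟨_, rfl⟩
  rw [← hQ, ← hδ]
  have hQP : (Q : ℝ) ≤ (P : ℝ) ^ (1 / 10 : ℝ) := hQ ▸ Nat.floor_le (by positivity)
  rcases eq_or_lt_of_le hP1 with h | h
  · intro z hz w hw hne
    refine absurd ?_ hne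
    have hQ1 : Q = 1 := by rw [hQ, ← h]; simp
    obtain ⟨a, b⟩ := z
    obtain ⟨a', b'⟩ := w
    rw [mem_coe, hQ1, mem_arcCentres] at hz hw
    obtain ⟨h1, h2, -⟩ := hz
    obtain ⟨h3, h4, -⟩ := hw
    simp only at h1 h2 h3 h4
    obtain rfl : a = 1 := by omega
    obtain rfl : a' = 1 := by omega
    rw [show b = b' by omega]
  intro z hz w hw hne
  rw [Function.onFun, disjoint_left]
  intro x hx hx'
  rw [arc, mem_filter] at hx hx'
  have h1 := inv_mul_le_nearDist_centre (mem_coe.1 hz) (mem_coe.1 hw) hne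
  have h2 := nearDist_sub_sub_le (centre z) (centre w) ((x : ℝ) / M)
  have hQ0 : (0 : ℝ) < Q := by
    rw [hQ, Nat.cast_pos, Nat.floor_pos]
    exact Real.one_le_rpow hPr (by norm_num)
  have h3 : 2 * δ < 1 / ((Q : ℝ) * Q) := by
    rw [hδ, mul_div_assoc', div_lt_div_iff₀ (by linarith) (by positivity), one_mul]
    have h2P : (2 : ℝ) ≤ P := by exact_mod_cast h
    calc 2 * (P : ℝ) ^ (1 / 10 : ℝ) * ((Q : ℝ) * Q)
        ≤ P * (P : ℝ) ^ (1 / 10 : ℝ) * ((P : ℝ) ^ (1 / 10 : ℝ) * (P : ℝ) ^ (1 / 10 : ℝ)) :=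
          mul_le_mul (mul_le_mul_of_nonneg_right h2P (by positivity))
            (mul_le_mul hQP hQP hQ0.le (by positivity)) (by positivity) (by positivity)
      _ = (P : ℝ) ^ (13 / 10 : ℝ) := by
          nth_rewrite 1 [← Real.rpow_one (P : ℝ)]
          rw [← Real.rpow_add (by linarith), ← Real.rpow_add (by linarith),
            ← Real.rpow_add (by linarith)]
          norm_num
      _ < (P : ℝ) ^ (k : ℝ) := Real.rpow_lt_rpow_of_exponent_lt (by linarith)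
          (lt_of_lt_of_le (by norm_num : (13 / 10 : ℝ) < 2) (by exact_mod_cast hk))
      _ ≤ N := by rw [Real.rpow_natCast]; exact_mod_cast hPN
  linarith

theorem card_arcCentres_le (P : ℕ) (hP : 1 ≤ P) :
    ((arcCentres ⌊(P : ℝ) ^ (1 / 10 : ℝ)⌋₊).card : ℝ) ≤ (P : ℝ) ^ (2 / 10 : ℝ) := by
  have hPr : (1 : ℝ) ≤ P := by exact_mod_cast hP
  obtain ⟨Q, hQ⟩ : ∃ Q, Q = ⌊(P : ℝ) ^ (1 / 10 : ℝ)⌋₊ := ⟨_, rfl⟩
  rw [← hQ]
  have hQP : (Q : ℝ) ≤ (P : ℝ) ^ (1 / 10 : ℝ) := hQ ▸ Nat.floor_le (by positivity)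
  have h1 : (arcCentres Q).card ≤ Q * Q := by
    rw [arcCentres, card_sigma]
    refine (sum_le_card_nsmul _ _ Q fun q hq => ?_).trans (le_of_eq ?_)
    · rw [card_unitResidues]
      exact (Nat.totient_le q).trans (mem_Icc.1 hq).2
    · simp
  refine (Nat.cast_le.2 h1).trans ?_
  push_cast
  refine (mul_le_mul hQP hQP (Nat.cast_nonneg _) (by positivity)).trans (le_of_eq ?_)
  rw [← Real.rpow_add (by linarith)]
  norm_num

theorem exists_sum_norm_arcCoef_le {k s : ℕ} (hk : 2 ≤ k) (hs : 3 * k ≤ s) : ∃ Z : ℝ, 0 ≤ Z ∧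
    ∀ N Q : ℕ, ∑ z ∈ arcCentres Q, ‖arcCoef k s N z‖ ≤ Z := by
  obtain ⟨C₅, hC₅, hterm⟩ := exists_singularTerm_le hk hs
  refine ⟨C₅ * ∑' q : ℕ, (q : ℝ) ^ (-(7 / 5) : ℝ),
    mul_nonneg (by linarith) (tsum_nonneg fun q => by positivity), fun N Q => ?_⟩
  rw [arcCentres, sum_sigma, ← tsum_mul_left]
  refine le_trans (sum_le_sum fun q _ => le_trans (le_of_eq (sum_congr rfl fun r _ => ?_))
    (hterm q).1) (Summable.sum_le_tsum _ (fun i _ => by positivity)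
      ((Real.summable_nat_rpow.2 (by norm_num)).mul_left C₅))
  rw [arcCoef, norm_mul, norm_pow, norm_eAdd, mul_one]

/-- **The major arcs and the singular series.** -/
theorem exists_circle {k s : ℕ} (hk : 2 ≤ k) (hs : k * (k + 1) < s) : ∃ C : ℝ, 0 < C ∧
    ∀ N : ℕ, 1 ≤ N →
      ‖((repCount k s N : ℕ) : ℂ) -
          (weightConv (1 / (k : ℝ)) s N : ℂ) * ∑' q, singularTerm k s N q‖ ≤
        C * (N : ℝ) ^ ((s : ℝ) / k - 1) *
          (rootFloor k N : ℝ) ^ (-(weylSaving k / 2)) := by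
  have h3k := three_mul_le_of_lt hk hs
  obtain ⟨n, rfl⟩ : ∃ n, s = n + 1 := ⟨s - 1, by omega⟩
  obtain ⟨C₁, hC₁, hmin⟩ := exists_minor_sum hk hs
  obtain ⟨C₂, hC₂, harc⟩ := exists_arc_error hk n
  obtain ⟨C₃, hC₃, htail⟩ := exists_arc_tail hk h3k
  obtain ⟨C₄, hC₄, hser⟩ := exists_singular_tail hk h3k
  obtain ⟨Z, hZ0, hZ⟩ := exists_sum_norm_arcCoef_le hk h3k
  have hk0 : (0 : ℝ) < k := by exact_mod_cast (show 0 < k by omega)
  have hX2 : 2 ≤ ((n + 1 : ℕ) : ℝ) * (1 / (k : ℝ)) := by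
    rw [mul_one_div, le_div_iff₀ hk0]
    exact_mod_cast (show 2 * k ≤ n + 1 by omega)
  obtain ⟨C₆, hC₆, hconv⟩ := exists_weightConv_asymptotic (c := 1 / (k : ℝ)) (by positivity) hX2
  obtain ⟨G, hG⟩ : ∃ G : ℝ, G = C₆ + Real.Gamma (1 + 1 / (k : ℝ)) ^ (n + 1) /
      Real.Gamma (((n + 1 : ℕ) : ℝ) * (1 / (k : ℝ))) := ⟨_, rfl⟩
  have hg1 := Real.Gamma_pos_of_pos (show (0 : ℝ) < 1 + 1 / (k : ℝ) by positivity)
  have hg2 := Real.Gamma_pos_of_pos (show 0 < ((n + 1 : ℕ) : ℝ) * (1 / (k : ℝ)) by linarith)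
  have hG0 : 0 < G := by rw [hG]; positivity
  refine ⟨C₁ + C₂ + Z * C₃ + G * C₄, by positivity, fun N hN => ?_⟩
  obtain ⟨P, hP⟩ : ∃ P, P = rootFloor k N := ⟨_, rfl⟩
  obtain ⟨hP1, hPN, hNP⟩ := rootFloor_spec (show 1 ≤ k by omega) hN
  rw [← hP] at hP1 hPN hNP ⊢
  have hPr : (1 : ℝ) ≤ P := by exact_mod_cast hP1
  have hN1 : (1 : ℝ) ≤ N := by exact_mod_cast hN
  obtain ⟨Q, hQ⟩ : ∃ Q, Q = ⌊(P : ℝ) ^ (1 / 10 : ℝ)⌋₊ := ⟨_, rfl⟩
  obtain ⟨M, hM⟩ : ∃ M, M = (n + 1) * N := ⟨_, rfl⟩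
  obtain ⟨δ, hδ⟩ : ∃ δ, δ = (P : ℝ) ^ (1 / 10 : ℝ) / (N : ℝ) := ⟨_, rfl⟩
  obtain ⟨F, hF⟩ : ∃ F : ℕ → ℂ, F = fun h : ℕ => waringSum k P ((h : ℝ) / M) ^ (n + 1) *
      eAdd (-((N : ℝ) * ((h : ℝ) / M))) := ⟨_, rfl⟩
  have hM0 : (0 : ℝ) < M := by rw [hM]; positivity
  obtain ⟨σ, hσ⟩ : ∃ σ, σ = weylSaving k / 2 := ⟨_, rfl⟩
  rw [← hσ]
  have hσ' : σ ≤ 1 / 80 := by rw [hσ]; linarith [weylSaving_le_of_two_le hk]
  have hσ0 : 0 ≤ σ := by rw [hσ]; linarith [weylSaving_pos k]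
  obtain ⟨E, hE⟩ : ∃ E : ℝ, E = (N : ℝ) ^ (((n + 1 : ℕ) : ℝ) / k - 1) * (P : ℝ) ^ (-σ) :=
    ⟨_, rfl⟩
  have hE0 : 0 ≤ E := by rw [hE]; positivity
  have hY0 : 0 ≤ ((n + 1 : ℕ) : ℝ) / k - 1 := by
    rw [← mul_one_div]; linarith
  have hPE : ∀ e : ℝ, e ≤ ((n + 1 : ℕ) : ℝ) - k - σ → (P : ℝ) ^ e ≤ E := fun e he => by
    rw [hE]
    refine (Real.rpow_le_rpow_of_exponent_le hPr he).trans ?_
    rw [sub_eq_add_neg _ σ, Real.rpow_add (by linarith)]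
    refine mul_le_mul_of_nonneg_right ?_ (by positivity)
    refine le_trans (le_of_eq ?_) (pow_root_le hY0 hPN)
    congr 1
    field_simp
  -- the centres are apart
  have hQP : (Q : ℝ) ≤ (P : ℝ) ^ (1 / 10 : ℝ) := hQ ▸ Nat.floor_le (by positivity)
  have hsep : ((arcCentres Q : Set (Σ _ : ℕ, ℕ))).PairwiseDisjoint (arc M δ) :=
    hQ ▸ hδ ▸ arc_pairwiseDisjoint M hk hP1 hPN
  have hdecomp : ∑ h ∈ range M, F h =
      ∑ h ∈ minorSet M P N, F h + ∑ z ∈ arcCentres Q, ∑ h ∈ arc M δ z, F h := by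
    rw [← sum_biUnion hsep, minorSet, ← hQ, ← hδ, sum_sdiff]
    exact biUnion_subset.2 fun z _ => filter_subset _ _
  have p1 : ‖∑ h ∈ minorSet M P N, F h‖ ≤ M * (C₁ * E) := by
    refine (norm_sum_le _ _).trans (le_trans (le_of_eq (sum_congr rfl fun h _ => ?_))
      ((hmin N P M hP1 hPN hNP (le_of_eq hM.symm)).trans ?_))
    · rw [hF, norm_mul, norm_eAdd, mul_one, norm_pow]
    · rw [mul_right_comm, mul_comm (C₁ * _) (M : ℝ)]
      exact mul_le_mul_of_nonneg_left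
        (mul_le_mul_of_nonneg_left (hPE _ (by rw [hσ])) hC₁.le) hM0.le
  have p3 : ‖∑ z ∈ arcCentres Q, ∑ h ∈ arc M δ z, (F h - arcCoef k (n + 1) N z *
      mainTerm k (n + 1) N ((h : ℝ) / M + -centre z))‖ ≤ M * (C₂ * E) := by
    refine (norm_sum_le _ _).trans ((sum_le_card_nsmul _ _ (C₂ * (P : ℝ) ^ ((n : ℝ) + 4 / 10))
      fun z hz => ?_).trans ?_)
    · refine (norm_sum_le _ _).trans ?_
      have := harc N P M hP hN hM z (hQ ▸ hz)
      rw [← hδ] at this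
      rwa [hF]
    · rw [nsmul_eq_mul]
      have hcard := hQ ▸ card_arcCentres_le P hP1
      refine (mul_le_mul_of_nonneg_right hcard (by positivity)).trans ?_
      have hPM : (P : ℝ) ^ (k : ℝ) ≤ M := by
        rw [Real.rpow_natCast]
        exact_mod_cast hPN.trans (hM ▸ Nat.le_mul_of_pos_left N n.succ_pos)
      calc (P : ℝ) ^ (2 / 10 : ℝ) * (C₂ * (P : ℝ) ^ ((n : ℝ) + 4 / 10))
          = C₂ * ((P : ℝ) ^ (k : ℝ) * (P : ℝ) ^ ((n : ℝ) + 6 / 10 - k)) := by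
            rw [mul_left_comm, ← Real.rpow_add (by linarith), ← Real.rpow_add (by linarith)]
            ring_nf
        _ ≤ C₂ * ((M : ℝ) * E) := mul_le_mul_of_nonneg_left
            (mul_le_mul hPM (hPE _ (by push_cast; linarith)) (by positivity) hM0.le) hC₂.le
        _ = _ := by ring
  have hZsum := hZ N Q
  have p5 : ‖∑ z ∈ arcCentres Q, arcCoef k (n + 1) N z *
      ∑ h ∈ range M \ arc M δ z, mainTerm k (n + 1) N ((h : ℝ) / M + -centre z)‖ ≤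
        M * (Z * C₃ * E) := by
    refine (norm_sum_le _ _).trans ((sum_le_sum fun z hz => ?_).trans
      ((sum_mul _ _ (C₃ * M * E)).ge.trans ((mul_le_mul_of_nonneg_right hZsum
        (by positivity)).trans (le_of_eq (by ring)))))
    rw [norm_mul]
    refine mul_le_mul_of_nonneg_left ?_ (norm_nonneg _)
    have := htail N P M hP hN hM z (hQ ▸ hz)
    rw [← hδ] at this
    refine this.trans ?_
    rw [hE, mul_assoc (C₃ * M)]
    exact mul_le_mul_of_nonneg_left (mul_le_mul_of_nonneg_left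
      (Real.rpow_le_rpow_of_exponent_le hPr (by linarith)) (by positivity)) (by positivity)
  have hident : (M : ℂ) * repCount k (n + 1) N -
      (M : ℂ) * weightConv (1 / (k : ℝ)) (n + 1) N * ∑ z ∈ arcCentres Q, arcCoef k (n + 1) N z =
      ∑ h ∈ minorSet M P N, F h + ∑ z ∈ arcCentres Q, ∑ h ∈ arc M δ z,
          (F h - arcCoef k (n + 1) N z * mainTerm k (n + 1) N ((h : ℝ) / M + -centre z)) -
        ∑ z ∈ arcCentres Q, arcCoef k (n + 1) N z *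
          ∑ h ∈ range M \ arc M δ z, mainTerm k (n + 1) N ((h : ℝ) / M + -centre z) := by
    have h1 : ∀ z ∈ arcCentres Q,
        (M : ℂ) * weightConv (1 / (k : ℝ)) (n + 1) N * arcCoef k (n + 1) N z =
          ∑ h ∈ arc M δ z, arcCoef k (n + 1) N z *
              mainTerm k (n + 1) N ((h : ℝ) / M + -centre z) +
            arcCoef k (n + 1) N z *
              ∑ h ∈ range M \ arc M δ z, mainTerm k (n + 1) N ((h : ℝ) / M + -centre z) := by
      intro z _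
      rw [← mul_sum, ← mul_add, add_comm (∑ h ∈ arc M δ z, _), sum_sdiff
        (show arc M δ z ⊆ range M from filter_subset _ _),
        sum_grid_mainTerm (by omega) hN hM]
      ring
    rw [← sum_grid_waringSum (by omega) (by omega) hN hM, mul_sum, sum_congr rfl h1,
      sum_add_distrib, ← hP]
    rw [show ∑ h ∈ range M, waringSum k P ((h : ℝ) / M) ^ (n + 1) *
      eAdd (-((N : ℝ) * ((h : ℝ) / M))) = ∑ h ∈ range M, F h by rw [hF], hdecomp]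
    simp only [sum_sub_distrib]
    ring
  have hmain : ‖((repCount k (n + 1) N : ℕ) : ℂ) -
      (weightConv (1 / (k : ℝ)) (n + 1) N : ℂ) * ∑ z ∈ arcCentres Q, arcCoef k (n + 1) N z‖ ≤
        (C₁ + C₂ + Z * C₃) * E := by
    refine le_of_mul_le_mul_left ?_ hM0
    rw [← Complex.norm_natCast M, ← norm_mul, mul_sub, ← mul_assoc, hident, Complex.norm_natCast]
    refine (norm_sub_le _ _).trans ((add_le_add ((norm_add_le _ _).trans (add_le_add p1 p3))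
      p5).trans (le_of_eq ?_))
    ring
  have hJ : |weightConv (1 / (k : ℝ)) (n + 1) N| ≤ G * (N : ℝ) ^ (((n + 1 : ℕ) : ℝ) / k - 1) := by
    have h := hconv N hN
    rw [mul_one_div] at h
    have h2 : (N : ℝ) ^ (((n + 1 : ℕ) : ℝ) / k - 2) ≤ (N : ℝ) ^ (((n + 1 : ℕ) : ℝ) / k - 1) :=
      Real.rpow_le_rpow_of_exponent_le hN1 (by linarith)
    have h3 := mul_le_mul_of_nonneg_left h2 hC₆.le
    have h4 : 0 ≤ Real.Gamma (1 + 1 / (k : ℝ)) ^ (n + 1) /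
        Real.Gamma (((n + 1 : ℕ) : ℝ) / k) * (N : ℝ) ^ (((n + 1 : ℕ) : ℝ) / k - 1) := by
      rw [mul_one_div] at hg2; positivity
    rw [hG, mul_one_div]
    rw [abs_le] at h ⊢
    constructor <;> linarith
  have hlast : ‖(weightConv (1 / (k : ℝ)) (n + 1) N : ℂ) *
      (∑ z ∈ arcCentres Q, arcCoef k (n + 1) N z - ∑' q, singularTerm k (n + 1) N q)‖ ≤
        G * C₄ * E := by
    rw [norm_mul, Complex.norm_real, Real.norm_eq_abs, sum_arcCoef]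
    refine (mul_le_mul hJ ((hser N Q).2.1.trans (mul_le_mul_of_nonneg_left (?_ : _ ≤ (P : ℝ) ^ (-σ))
      hC₄.le)) (norm_nonneg _) (by positivity)).trans (le_of_eq (by rw [hE]; ring))
    have h1 : (P : ℝ) ^ (1 / 10 : ℝ) ≤ ((Q + 1 : ℕ) : ℝ) := by
      push_cast; exact hQ ▸ (Nat.lt_floor_add_one _).le
    refine (Real.rpow_le_rpow_of_nonpos (by positivity) h1 (by norm_num)).trans ?_
    rw [← Real.rpow_mul (by linarith)]
    exact Real.rpow_le_rpow_of_exponent_le hPr (by linarith)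
  rw [show ((repCount k (n + 1) N : ℕ) : ℂ) -
      (weightConv (1 / (k : ℝ)) (n + 1) N : ℂ) * ∑' q, singularTerm k (n + 1) N q =
    (((repCount k (n + 1) N : ℕ) : ℂ) -
      (weightConv (1 / (k : ℝ)) (n + 1) N : ℂ) * ∑ z ∈ arcCentres Q, arcCoef k (n + 1) N z) +
    (weightConv (1 / (k : ℝ)) (n + 1) N : ℂ) *
      (∑ z ∈ arcCentres Q, arcCoef k (n + 1) N z - ∑' q, singularTerm k (n + 1) N q) by ring]
  refine (norm_add_le _ _).trans ((add_le_add hmain hlast).trans (le_of_eq ?_))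
  rw [hE]
  ring

/-- **The asymptotic formula.** -/
theorem exists_asymptotic {k s : ℕ} (hk : 2 ≤ k) (hs : k * (k + 1) < s) : ∃ C δ : ℝ,
    0 < C ∧ 0 < δ ∧ ∀ N : ℕ, 1 ≤ N →
      |(repCount k s N : ℝ) - singularSeries k s N *
          (Real.Gamma (1 + 1 / (k : ℝ)) ^ s / Real.Gamma ((s : ℝ) / k)) *
          (N : ℝ) ^ ((s : ℝ) / k - 1)| ≤
        C * (N : ℝ) ^ ((s : ℝ) / k - 1 - δ) := by
  have h3k := three_mul_le_of_lt hk hs
  have hk0 : (0 : ℝ) < k := by exact_mod_cast (show 0 < k by omega)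
  have hX2 : 2 ≤ (s : ℝ) * (1 / (k : ℝ)) := by
    rw [mul_one_div, le_div_iff₀ hk0]
    exact_mod_cast (show 2 * k ≤ s by omega)
  obtain ⟨C₁, hC₁, hcirc⟩ := exists_circle hk hs
  obtain ⟨C₂, hC₂, hconv⟩ := exists_weightConv_asymptotic (c := 1 / (k : ℝ)) (by positivity) hX2
  obtain ⟨C₄, hC₄, hser⟩ := exists_singular_tail hk h3k
  have hσ := weylSaving_pos k
  refine ⟨C₁ * (2 : ℝ) ^ (weylSaving k / 2) + C₄ * C₂, weylSaving k / 2 / k, by positivity,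
    by positivity, fun N hN => ?_⟩
  obtain ⟨hP1, hPN, hNP⟩ := rootFloor_spec (show 1 ≤ k by omega) hN
  have hN1 : (1 : ℝ) ≤ N := by exact_mod_cast hN
  obtain ⟨T, hT⟩ : ∃ T, T = ∑' q, singularTerm k s N q := ⟨_, rfl⟩
  have h1 := hcirc N hN
  rw [← hT] at h1
  have h2 := hconv N hN
  rw [mul_one_div] at h2
  obtain ⟨J, hJ⟩ : ∃ J, J = weightConv (1 / (k : ℝ)) s N := ⟨_, rfl⟩
  rw [← hJ] at h1 h2
  obtain ⟨A, hA⟩ : ∃ A : ℝ, A = Real.Gamma (1 + 1 / (k : ℝ)) ^ s / Real.Gamma ((s : ℝ) / k) *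
    (N : ℝ) ^ ((s : ℝ) / k - 1) := ⟨_, rfl⟩
  rw [← hA] at h2
  rw [mul_assoc, ← hA, singularSeries, ← hT]
  have h3 : |(repCount k s N : ℝ) - J * T.re| ≤
      C₁ * (N : ℝ) ^ ((s : ℝ) / k - 1) * (rootFloor k N : ℝ) ^ (-(weylSaving k / 2)) := by
    refine le_trans (le_of_eq ?_) ((Complex.abs_re_le_norm _).trans h1)
    simp
  have h4 : |T.re| ≤ C₄ := (Complex.abs_re_le_norm T).trans (hT ▸ (hser N 0).2.2)
  have h5 : |T.re * (J - A)| ≤ C₄ * (C₂ * (N : ℝ) ^ ((s : ℝ) / k - 2)) := by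
    rw [abs_mul]
    exact mul_le_mul h4 h2 (abs_nonneg _) hC₄.le
  obtain ⟨δ, hδ⟩ : ∃ δ, δ = weylSaving k / 2 / k := ⟨_, rfl⟩
  rw [← hδ]
  have hδ1 : δ ≤ 1 := by
    rw [hδ, div_le_one hk0]
    have : (2 : ℝ) ≤ k := by exact_mod_cast hk
    linarith [weylSaving_le k]
  have h6' : C₁ * (N : ℝ) ^ ((s : ℝ) / k - 1) * (rootFloor k N : ℝ) ^ (-(weylSaving k / 2)) ≤
      C₁ * (2 : ℝ) ^ (weylSaving k / 2) * (N : ℝ) ^ ((s : ℝ) / k - 1 - δ) := by
    refine (mul_le_mul_of_nonneg_left (root_neg_le (by omega) hP1 hN hNP (by linarith))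
      (by positivity)).trans (le_of_eq ?_)
    rw [sub_eq_add_neg _ δ, Real.rpow_add (by linarith), hδ]
    ring
  have h7 : C₄ * (C₂ * (N : ℝ) ^ ((s : ℝ) / k - 2)) ≤
      C₄ * C₂ * (N : ℝ) ^ ((s : ℝ) / k - 1 - δ) := by
    rw [← mul_assoc]
    exact mul_le_mul_of_nonneg_left (Real.rpow_le_rpow_of_exponent_le hN1 (by linarith))
      (by positivity)
  rw [abs_le] at h3 h5 ⊢
  constructor <;> linarith

end FA.WaringAsymptotic
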