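import Fermat.Agent.WaringAsymptotic.Multiplicative
import Fermat.Agent.WaringAsymptotic.Main
import Mathlib.Combinatorics.Additive.CauchyDavenport

/-!
# The local densities

`∑_{l ≤ L} A (p ^ l)` is the number of solutions of `∑ x i ^ k ≡ N` modulo `p ^ L`, divided by
`p ^ (L (s - 1))`; it is at least `p ^ (-γ (s - 1))`, `γ = 2 v_p k + 1`: by Hensel's lemma it is
enough to solve the congruence modulo `p ^ (v_p k + 1)` (`2 ^ (v_2 k + 2)`), which the theorem of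
Cauchy and Davenport and sums of ones do for `s > k (k + 1)`.
-/

set_option autoImplicit false

noncomputable section

namespace FA.WaringAsymptotic

open Finset FA.ThreePrimes
open scoped Pointwise

/-- Solutions of `∑ x i ^ k ≡ N` modulo `q`. -/
def congrCount (k s N q : ℕ) : ℕ :=
  ((Fintype.piFinset fun _ : Fin s => range q).filter
    fun z => (q : ℤ) ∣ ((∑ i, z i ^ k : ℕ) : ℤ) - N).card

/-- The sum over all residues. -/
def residueSum (k s N q : ℕ) : ℂ := ∑ a ∈ range q, localFactor k s N q a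

theorem residueSum_eq {k s N q : ℕ} (hq : 0 < q) :
    residueSum k s N q = (q : ℂ) * (congrCount k s N q : ℂ) / (q : ℂ) ^ s := by
  have e : ∀ a ∈ range q, localFactor k s N q a =
      (∑ z ∈ Fintype.piFinset (fun _ : Fin s => range q),
        eAdd (((((∑ i, z i ^ k : ℕ) : ℤ) - N : ℤ) : ℝ) * a / q)) / (q : ℂ) ^ s := fun a _ => by
    rw [localFactor, densityFactor, div_pow, div_mul_eq_mul_div]
    congr 1
    have h := sum_eAdd_pow (range q) (fun _ => 1) (fun x => x ^ k) s ((a : ℝ) / q)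
    simp only [one_mul, prod_const_one] at h
    rw [completeSum, show ∑ x ∈ range q, eAdd (((a : ℕ) : ℤ) * (x : ℝ) ^ k / q) =
      ∑ i ∈ range q, eAdd ((i ^ k : ℕ) * ((a : ℝ) / q)) from sum_congr rfl fun x _ => by
        push_cast; ring_nf, h, sum_mul]
    refine sum_congr rfl fun z _ => ?_
    rw [← eAdd_add]
    push_cast
    ring_nf
  rw [residueSum, sum_congr rfl e, ← sum_div]
  congr 1
  rw [sum_comm, congrCount, card_filter, Nat.cast_sum, mul_sum]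
  refine sum_congr rfl fun z _ => ?_
  rw [sum_eAdd_grid hq]
  split_ifs <;> simp

theorem completeSum_mul_left {k m n : ℕ} (hm : 0 < m) (hn : 0 < n) (a : ℤ) :
    completeSum k (m * n) ((m : ℤ) * a) = (m : ℂ) * completeSum k n a := by
  obtain ⟨g, hg⟩ : ∃ g : ℕ → ℂ, g = fun y : ℕ => eAdd ((a : ℝ) * (y : ℝ) ^ k / n) := ⟨_, rfl⟩
  have hper : ∀ j y : ℕ, g (j * n + y) = g y := fun j y => by
    have : NeZero n := ⟨hn.ne'⟩
    have h1 := eAdd_div_eq_char (q := n) (a * ((j * n + y : ℕ) : ℤ) ^ k)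
    have h2 := eAdd_div_eq_char (q := n) (a * (y : ℤ) ^ k)
    push_cast at h1 h2
    rw [hg]
    push_cast
    rw [h1, h2, ZMod.natCast_self, mul_zero, zero_add]
  have hblk : ∀ j : ℕ, ∑ y ∈ range (j * n), g y = (j : ℂ) * ∑ y ∈ range n, g y := fun j => by
    induction j with
    | zero => simp
    | succ j ih =>
      rw [add_mul, one_mul, sum_range_add, ih, sum_congr rfl fun y _ => hper j y]
      push_cast
      ring
  have h := hblk m
  rw [hg] at h
  rw [completeSum, completeSum, ← h]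
  refine sum_congr rfl fun y _ => ?_
  congr 1
  have : (m : ℝ) ≠ 0 := Nat.cast_ne_zero.2 hm.ne'
  push_cast
  field_simp

theorem residueSum_primePow {k s N p : ℕ} (hp : p.Prime) : ∀ L : ℕ,
    residueSum k s N (p ^ L) = ∑ l ∈ range (L + 1), singularTerm k s N (p ^ l)
  | 0 => by
    simp [residueSum, localFactor, densityFactor, completeSum, singularTerm_one]
  | L + 1 => by
    rw [sum_range_succ _ (L + 1), ← residueSum_primePow hp L, residueSum,
      ← sum_filter_add_sum_filter_not (range (p ^ (L + 1))) (fun a => p ∣ a)]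
    congr 1
    · have hp0 : 0 < p := hp.pos
      refine sum_nbij' (fun a => a / p) (fun b => p * b) (fun a ha => ?_) (fun b hb => ?_)
        (fun a ha => Nat.mul_div_cancel' (mem_filter.1 ha).2)
        (fun b _ => Nat.mul_div_cancel_left b hp0) fun a ha => ?_
      · rw [mem_range, Nat.div_lt_iff_lt_mul hp0, ← pow_succ]
        exact mem_range.1 (mem_filter.1 ha).1
      · rw [mem_filter, mem_range, pow_succ']
        exact ⟨Nat.mul_lt_mul_of_pos_left (mem_range.1 hb) hp0, dvd_mul_right p b⟩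
      · obtain ⟨b, rfl⟩ := (mem_filter.1 ha).2
        rw [Nat.mul_div_cancel_left b hp0, localFactor, localFactor, densityFactor, densityFactor,
          pow_succ' p L, Nat.cast_mul p b, completeSum_mul_left hp0 (pow_pos hp0 L)]
        have hpc : (p : ℂ) ≠ 0 := Nat.cast_ne_zero.2 hp0.ne'
        have hpr : (p : ℝ) ≠ 0 := Nat.cast_ne_zero.2 hp0.ne'
        congr 1
        · push_cast
          field_simp
        · push_cast
          congr 1
          field_simp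
    · rw [singularTerm_eq_sum, unitResidues]
      refine sum_congr (filter_congr fun a _ => ?_) fun a _ => rfl
      rw [Nat.coprime_pow_left_iff L.succ_pos, ← hp.coprime_iff_not_dvd]

theorem pow_dvd_choose_mul {p k τ e i : ℕ} (hp : p.Prime) (hτ : p ^ τ ∣ k) (hi : 2 ≤ i)
    (he : 1 ≤ e) (he2 : τ = 0 ∨ p ≠ 2 ∨ 2 ≤ e) :
    p ^ (τ + e + 1) ∣ k.choose i * p ^ (e * i) := by
  rcases Nat.eq_zero_or_pos τ with rfl | hτ0
  · refine (pow_dvd_pow p ?_).trans (dvd_mul_left _ _)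
    nlinarith
  rcases Nat.eq_zero_or_pos k with rfl | hk
  · rw [Nat.choose_eq_zero_of_lt (by omega), zero_mul]
    exact dvd_zero _
  obtain ⟨j, rfl⟩ : ∃ j, k = j + 1 := ⟨k - 1, by omega⟩
  obtain ⟨m, rfl⟩ : ∃ m, i = m + 1 := ⟨i - 1, by omega⟩
  obtain ⟨a, r, hr, hm⟩ := Nat.exists_eq_pow_mul_and_not_dvd (n := m + 1) (by omega) p hp.ne_one
  have h1 : p ^ τ ∣ (j + 1).choose (m + 1) * p ^ a := by
    refine ((hp.coprime_iff_not_dvd.2 hr).pow_left τ).dvd_of_dvd_mul_right ?_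
    rw [mul_assoc, ← hm, ← Nat.add_one_mul_choose_eq]
    exact hτ.mul_right _
  have ha : a + 1 ≤ e * m := by
    have h2 : p ^ a ≤ m + 1 := hm ▸ Nat.le_mul_of_pos_right _
      (Nat.pos_of_ne_zero fun h => hr (h ▸ dvd_zero p))
    have hem : m ≤ e * m := Nat.le_mul_of_pos_left m he
    rcases Nat.eq_zero_or_pos a with rfl | ha0
    · omega
    rcases eq_or_ne p 2 with rfl | hp2
    · have := Nat.lt_two_pow_self (n := a)
      have : 2 * m ≤ e * m := Nat.mul_le_mul_right m (by omega)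
      omega
    · have h3 : 3 ^ a ≤ p ^ a :=
        Nat.pow_le_pow_left (by have := hp.two_le; omega) a
      have h4 : a + 2 ≤ 3 ^ a := by
        clear * - ha0
        induction a, ha0 using Nat.le_induction with
        | base => norm_num
        | succ n _ ih => rw [pow_succ]; omega
      omega
  refine (mul_dvd_mul_iff_right (pow_ne_zero a hp.ne_zero)).1 ?_
  calc p ^ (τ + e + 1) * p ^ a ∣ p ^ τ * p ^ (e * (m + 1)) := by
        rw [← pow_add, ← pow_add]; exact pow_dvd_pow p (by rw [Nat.mul_add_one]; omega)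
    _ ∣ (j + 1).choose (m + 1) * p ^ a * p ^ (e * (m + 1)) := mul_dvd_mul_right h1 _
    _ = _ := by ring

/-- The first order expansion of a `k`-th power modulo `p ^ (v_p k + e + 1)`. -/
theorem pow_add_congr {p k τ e : ℕ} (hp : p.Prime) (hk : 1 ≤ k) (hτ : p ^ τ ∣ k) (he : 1 ≤ e)
    (he2 : τ = 0 ∨ p ≠ 2 ∨ 2 ≤ e) (z x : ℤ) :
    (p : ℤ) ^ (τ + e + 1) ∣
      ((p : ℤ) ^ e * x + z) ^ k - (z ^ k + (k : ℤ) * z ^ (k - 1) * ((p : ℤ) ^ e * x)) := by
  obtain ⟨j, rfl⟩ : ∃ j, k = j + 1 := ⟨k - 1, by omega⟩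
  rw [add_pow, sum_range_succ' _ (j + 1), sum_range_succ' _ j]
  simp only [pow_zero, pow_one, Nat.choose_zero_right, Nat.choose_one_right, Nat.cast_one, mul_one,
    one_mul, zero_add, Nat.sub_zero, Nat.add_sub_cancel]
  rw [show ∀ A B C : ℤ, A + B * z ^ j * ((j + 1 : ℕ) : ℤ) + C -
      (C + ((j + 1 : ℕ) : ℤ) * z ^ j * B) = A from fun A B C => by ring]
  refine dvd_sum fun i _ => ?_
  have h := Int.natCast_dvd_natCast.2 (pow_dvd_choose_mul (i := i + 1 + 1) hp hτ (by omega) he he2)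
  push_cast at h
  refine h.trans ⟨x ^ (i + 1 + 1) * z ^ (j + 1 - (i + 1 + 1)), ?_⟩
  rw [mul_pow, ← pow_mul]
  ring

/-- **Hensel's lemma for `k`-th powers**: a unit that is a `k`-th power modulo `p ^ (v_p k + e)`,
`e ≥ 1` (`e ≥ 2` if `p = 2` and `k` is even), is one modulo every power of `p`. -/
theorem exists_pow_congr_unit {p k e : ℕ} (hp : p.Prime) (hk : 1 ≤ k) (he : 1 ≤ e)
    (he2 : padicValNat p k = 0 ∨ p ≠ 2 ∨ 2 ≤ e) {b y : ℤ} (hy : ¬(p : ℤ) ∣ y)
    (hb : (p : ℤ) ^ (padicValNat p k + e) ∣ y ^ k - b) :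
    ∀ j, padicValNat p k + e ≤ j → ∃ z : ℤ, ¬(p : ℤ) ∣ z ∧ (p : ℤ) ^ j ∣ z ^ k - b := by
  have : Fact p.Prime := ⟨hp⟩
  obtain ⟨τ, hτ⟩ : ∃ τ, τ = padicValNat p k := ⟨_, rfl⟩
  rw [← hτ] at hb he2 ⊢
  obtain ⟨k', hk'⟩ : p ^ τ ∣ k := hτ ▸ pow_padicValNat_dvd
  have hk'p : ¬p ∣ k' := fun h => by
    refine pow_succ_padicValNat_not_dvd (p := p) (n := k) (by omega) ?_
    rw [← hτ, pow_succ, hk']
    exact Nat.mul_dvd_mul_left _ h
  intro j hj
  induction j, hj using Nat.le_induction with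
  | base => exact ⟨y, hy, hb⟩
  | succ j hj ih =>
    obtain ⟨z, hz, w, hw⟩ := ih
    have hu : IsUnit (((k' : ℤ) * z ^ (k - 1) : ℤ) : ZMod p) := by
      have hne : (((k' : ℤ) * z ^ (k - 1) : ℤ) : ZMod p) ≠ 0 := by
        rw [Ne, ZMod.intCast_zmod_eq_zero_iff_dvd]
        intro h
        rcases (Nat.prime_iff_prime_int.1 hp).dvd_or_dvd h with h | h
        · exact hk'p (Int.natCast_dvd_natCast.1 h)
        · exact hz ((Nat.prime_iff_prime_int.1 hp).dvd_of_dvd_pow h)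
      exact isUnit_iff_ne_zero.2 hne
    obtain ⟨x, hx⟩ : ∃ x : ℤ, (p : ℤ) ∣ w + k' * z ^ (k - 1) * x := by
      refine ⟨((-(w : ZMod p)) * ↑hu.unit⁻¹ : ZMod p).val, ?_⟩
      rw [← ZMod.intCast_zmod_eq_zero_iff_dvd]
      have h1 := hu.mul_val_inv
      push_cast at h1 ⊢
      rw [ZMod.natCast_zmod_val]
      linear_combination -(w : ZMod p) * h1
    refine ⟨(p : ℤ) ^ (j - τ) * x + z, fun h => hz ?_, ?_⟩
    · have : (p : ℤ) ∣ (p : ℤ) ^ (j - τ) * x := (dvd_pow_self _ (by omega)).mul_right x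
      simpa using dvd_sub h this
    · have h1 := pow_add_congr hp hk (hk' ▸ dvd_mul_right _ k') (show 1 ≤ j - τ by omega)
        (he2.imp_right (Or.imp_right fun h => h.trans (by omega))) z x
      rw [show τ + (j - τ) + 1 = j + 1 by omega] at h1
      obtain ⟨c, hc⟩ := hx
      have h2 : (p : ℤ) ^ (j + 1) ∣
          z ^ k + (k : ℤ) * z ^ (k - 1) * ((p : ℤ) ^ (j - τ) * x) - b := by
        refine ⟨c, ?_⟩
        have hpj : (p : ℤ) ^ τ * (p : ℤ) ^ (j - τ) = (p : ℤ) ^ j := by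
          rw [← pow_add]; congr 1; omega
        have hkc : (k : ℤ) = (p : ℤ) ^ τ * k' := by exact_mod_cast hk'
        rw [hkc, pow_succ]
        linear_combination (p : ℤ) ^ j * hc + (k' : ℤ) * z ^ (k - 1) * x * hpj + hw
      simpa using dvd_add h1 h2

/-- From modulo `p ^ (2 v_p k + 1)` on. -/
theorem exists_pow_congr {p k : ℕ} (hp : p.Prime) (hk : 1 ≤ k) {b : ℤ} {y : ℤ}
    (hy : ¬(p : ℤ) ∣ y) (hb : (p : ℤ) ^ (2 * padicValNat p k + 1) ∣ y ^ k - b) :
    ∀ j, 2 * padicValNat p k + 1 ≤ j → ∃ z : ℤ, ¬(p : ℤ) ∣ z ∧ (p : ℤ) ^ j ∣ z ^ k - b :=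
  fun j hj => exists_pow_congr_unit hp hk (Nat.le_add_left 1 (padicValNat p k)) (by omega) hy
    (by rwa [← add_assoc, ← two_mul]) j (by omega)

/-- **Enough solutions modulo `p ^ L`.** -/
theorem congrCount_ge {k s N p : ℕ} (hp : p.Prime) (hk : 1 ≤ k) {y : Fin s → ℕ} {i₀ : Fin s}
    (hy : ¬p ∣ y i₀) (hN : ((p ^ (2 * padicValNat p k + 1) : ℕ) : ℤ) ∣ ((∑ i, y i ^ k : ℕ) : ℤ) - N)
    {L : ℕ} (hL : 2 * padicValNat p k + 1 ≤ L) :
    (p ^ (L - (2 * padicValNat p k + 1))) ^ (s - 1) ≤ congrCount k s N (p ^ L) := by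
  classical
  obtain ⟨γ, hγ⟩ : ∃ γ, γ = 2 * padicValNat p k + 1 := ⟨_, rfl⟩
  rw [← hγ] at hN hL ⊢
  have hq : p ^ L = p ^ γ * p ^ (L - γ) := by rw [← pow_add]; congr 1; omega
  obtain ⟨T, hT⟩ : ∃ T : Finset (Fin s → ℕ), T = Fintype.piFinset fun i : Fin s =>
      if i = i₀ then ({0} : Finset ℕ) else range (p ^ (L - γ)) := ⟨_, rfl⟩
  obtain ⟨v, hv⟩ : ∃ v : (Fin s → ℕ) → Fin s → ℕ,
      v = fun t i => y i % p ^ γ + p ^ γ * t i := ⟨_, rfl⟩
  have hroot : ∀ t : Fin s → ℕ, ∃ z < p ^ L,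
      (((p : ℤ)) ^ L) ∣ (z : ℤ) ^ k - ((N : ℤ) - ∑ i ∈ univ.erase i₀, (v t i : ℤ) ^ k) := by
    intro t
    have hb : (p : ℤ) ^ γ ∣
        (y i₀ : ℤ) ^ k - ((N : ℤ) - ∑ i ∈ univ.erase i₀, (v t i : ℤ) ^ k) := by
      rw [← Int.natCast_pow, ← ZMod.intCast_zmod_eq_zero_iff_dvd]
      have h0 : ((((∑ i, y i ^ k : ℕ) : ℤ) - N : ℤ) : ZMod (p ^ γ)) = 0 := by
        rwa [ZMod.intCast_zmod_eq_zero_iff_dvd]
      have hvy : ∀ i, ((v t i : ℕ) : ZMod (p ^ γ)) = (y i : ZMod (p ^ γ)) := fun i => by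
        rw [hv, ZMod.natCast_eq_natCast_iff', Nat.add_mul_mod_self_left, Nat.mod_mod]
      push_cast at h0 ⊢
      simp only [hvy]
      rw [← add_sum_erase univ _ (mem_univ i₀)] at h0
      linear_combination h0
    obtain ⟨z, -, hz⟩ := exists_pow_congr hp hk (y := (y i₀ : ℤ))
      (fun h => hy (Int.natCast_dvd_natCast.1 h)) (hγ ▸ hb) L (hγ ▸ hL)
    have : NeZero (p ^ L) := ⟨pow_ne_zero _ hp.ne_zero⟩
    refine ⟨((z : ZMod (p ^ L))).val, ZMod.val_lt _, ?_⟩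
    rw [← Int.natCast_pow, ← ZMod.intCast_zmod_eq_zero_iff_dvd] at hz ⊢
    push_cast at hz ⊢
    rwa [ZMod.natCast_zmod_val]
  choose root hrlt hrdvd using hroot
  refine le_trans (le_of_eq ?_) (card_le_card_of_injOn
    (fun t i => if i = i₀ then root t else v t i) (s := T) (fun t ht => ?_) fun t ht u hu e => ?_)
  · rw [hT, Fintype.card_piFinset, ← mul_prod_erase _ _ (mem_univ i₀), if_pos rfl, card_singleton,
      one_mul, prod_congr rfl fun l hl => by rw [if_neg (ne_of_mem_erase hl)], prod_const,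
      card_erase_of_mem (mem_univ i₀), card_univ, Fintype.card_fin, card_range]
  · rw [mem_coe, hT, Fintype.mem_piFinset] at ht
    rw [mem_coe, mem_filter, Fintype.mem_piFinset]
    dsimp only
    refine ⟨fun i => ?_, ?_⟩
    · rw [mem_range]
      split_ifs with h
      · exact hrlt t
      · have h1 := ht i
        rw [if_neg h, mem_range] at h1
        rw [hv, hq]
        calc y i % p ^ γ + p ^ γ * t i < p ^ γ + p ^ γ * t i :=
              Nat.add_lt_add_right (Nat.mod_lt _ (pow_pos hp.pos γ)) _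
          _ = p ^ γ * (t i + 1) := by ring
          _ ≤ _ := Nat.mul_le_mul_left _ h1
    · rw [← add_sum_erase univ _ (mem_univ i₀), if_pos rfl,
        sum_congr rfl fun i hi => by rw [if_neg (ne_of_mem_erase hi)]]
      have := hrdvd t
      push_cast
      convert this using 1
      ring
  · simp only [mem_coe, hT, Fintype.mem_piFinset] at ht hu
    funext i
    by_cases h : i = i₀
    · have h1 := ht i
      have h2 := hu i
      rw [if_pos h, mem_singleton] at h1 h2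
      rw [h1, h2]
    · have h1 := congrFun e i
      simp only [if_neg h, hv] at h1
      exact Nat.eq_of_mul_eq_mul_left (pow_pos hp.pos γ) (by omega)

/-- **Cauchy-Davenport**: modulo a prime `s > k` powers represent everything, one of them a
unit. -/
theorem exists_pattern_prime {k s : ℕ} (hk : 1 ≤ k) (hs : k < s) (N : ℕ) {p : ℕ} (hp : p.Prime) :
    ∃ (y : Fin s → ℕ) (i₀ : Fin s), ¬p ∣ y i₀ ∧
      ((p : ℕ) : ℤ) ∣ ((∑ i, y i ^ k : ℕ) : ℤ) - N := by
  classical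
  have : Fact p.Prime := ⟨hp⟩
  obtain ⟨B, hB⟩ : ∃ B, B = (univ : Finset (ZMod p)).image fun x => x ^ k := ⟨_, rfl⟩
  have h0 : (0 : ZMod p) ∈ B := hB ▸ mem_image.2 ⟨0, mem_univ _, zero_pow (by omega)⟩
  have hA : p - 1 ≤ k * (#B - 1) := by
    have h : #((univ : Finset (ZMod p)).erase 0) ≤
        k * #(((univ : Finset (ZMod p)).erase 0).image fun x => x ^ k) :=
      card_le_mul_card_image _ k fun b _ => (card_le_card (filter_subset_filter _
        (erase_subset _ _))).trans (card_pow_eq_le (by omega) b)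
    rw [card_erase_of_mem (mem_univ _), card_univ, ZMod.card] at h
    refine h.trans (Nat.mul_le_mul_left k ?_)
    rw [← card_erase_of_mem h0]
    refine card_le_card fun b hb => ?_
    obtain ⟨x, hx, rfl⟩ := mem_image.1 hb
    exact mem_erase.2 ⟨pow_ne_zero k (ne_of_mem_erase hx), hB ▸ mem_image_of_mem _ (mem_univ x)⟩
  have hsum : ∀ m : ℕ, min p (m * (#B - 1) + 1) ≤
      #((univ : Finset (Fin m → ZMod p)).image fun x => ∑ i, x i ^ k) := by
    intro m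
    induction m with
    | zero => simp
    | succ m ih =>
      obtain ⟨T, hT⟩ : ∃ T, T = (univ : Finset (Fin m → ZMod p)).image fun x => ∑ i, x i ^ k :=
        ⟨_, rfl⟩
      rw [← hT] at ih
      have hT1 : T.Nonempty := hT ▸ univ_nonempty.image _
      refine le_trans ?_ ((ZMod.cauchy_davenport hp ⟨0, h0⟩ hT1).trans
        (card_le_card fun z hz => ?_))
      · have := card_pos.2 ⟨_, h0⟩
        have := hT1.card_pos
        rw [Nat.add_one_mul]
        omega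
      · obtain ⟨b, hb, t, ht, rfl⟩ := mem_add.1 hz
        obtain ⟨u, -, rfl⟩ := mem_image.1 (hB ▸ hb)
        obtain ⟨x, -, rfl⟩ := mem_image.1 (hT ▸ ht)
        exact mem_image.2 ⟨Fin.cons u x, mem_univ _, by simp [Fin.sum_univ_succ]⟩
  obtain ⟨n, rfl⟩ : ∃ n, s = n + 1 := ⟨s - 1, by omega⟩
  have hfull : (univ : Finset (Fin n → ZMod p)).image (fun x => ∑ i, x i ^ k) = univ := by
    refine eq_univ_of_card _ (le_antisymm (card_le_univ _) ?_)
    have h1 := hsum n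
    have h2 : p - 1 ≤ n * (#B - 1) := hA.trans (Nat.mul_le_mul_right _ (by omega))
    rw [ZMod.card]
    omega
  obtain ⟨x, -, hx⟩ := mem_image.1 (hfull ▸ mem_univ ((N : ZMod p) - 1))
  refine ⟨Fin.cons 1 fun i => (x i).val, 0, by simpa using hp.not_dvd_one, ?_⟩
  rw [← ZMod.intCast_zmod_eq_zero_iff_dvd]
  push_cast
  rw [Fin.sum_univ_succ]
  simp only [Fin.cons_zero, Fin.cons_succ, Nat.cast_one, one_pow, ZMod.natCast_zmod_val, hx]
  ring

/-- Ones, and for seven squares `1 + 1 + 1 + 1 + 4`: enough modulo a low power of `p`. -/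
theorem exists_pattern_low {k s g : ℕ} (hk : 1 ≤ k) (hs : 1 ≤ s) (N : ℕ) {p : ℕ} (hp : p.Prime)
    (hg : p ^ g ≤ s ∨ k = 2 ∧ s = 7 ∧ p = 2 ∧ g = 3) :
    ∃ (y : Fin s → ℕ) (i₀ : Fin s), ¬p ∣ y i₀ ∧
      ((p ^ g : ℕ) : ℤ) ∣ ((∑ i, y i ^ k : ℕ) : ℤ) - N := by
  have hg0 : 0 < p ^ g := pow_pos hp.pos g
  obtain ⟨n, hn1, hn2, hnN⟩ : ∃ n, 1 ≤ n ∧ n ≤ p ^ g ∧ ((p ^ g : ℕ) : ℤ) ∣ (n : ℤ) - N := by
    rcases Nat.eq_zero_or_pos (N % p ^ g) with h | h
    · exact ⟨p ^ g, hg0, le_rfl, dvd_sub dvd_rfl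
        (Int.natCast_dvd_natCast.2 (Nat.dvd_of_mod_eq_zero h))⟩
    · refine ⟨N % p ^ g, h, (Nat.mod_lt N hg0).le, ?_⟩
      rw [Int.natCast_mod, Int.emod_def]
      exact ⟨-((N : ℤ) / (p ^ g : ℕ)), by ring⟩
  by_cases hns : n ≤ s
  · refine ⟨fun i => if (i : ℕ) < n then 1 else 0, ⟨0, by omega⟩, ?_, ?_⟩
    · simp only [if_pos (show 0 < n by omega)]
      exact hp.not_dvd_one
    · have e : ∑ i : Fin s, (if (i : ℕ) < n then 1 else 0) ^ k = n := by
        rw [Fin.sum_univ_eq_sum_range fun i => (if i < n then 1 else 0 : ℕ) ^ k,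
          sum_congr rfl fun i _ => show (if i < n then 1 else 0 : ℕ) ^ k =
            if i < n then 1 else 0 by split_ifs <;> simp [show k ≠ 0 by omega],
          ← sum_filter, show (range s).filter (· < n) = range n by
            ext i; simp; omega]
        simp
      rwa [e]
  · rcases hg with hg | ⟨rfl, rfl, rfl, rfl⟩
    · omega
    obtain rfl : n = 8 := by norm_num at hn2; omega
    exact ⟨![1, 1, 1, 1, 2, 0, 0], 0, by simp, by simpa [Fin.sum_univ_seven] using hnN⟩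

/-- A solution modulo `p ^ (v_p k + e)` lifts to one modulo `p ^ (2 v_p k + 1)`. -/
theorem exists_pattern_lift {k s N p e τ : ℕ} (hk : 1 ≤ k) (hp : p.Prime) (he1 : 1 ≤ e)
    (he : τ = 0 ∨ p ≠ 2 ∨ 2 ≤ e) (heτ : τ + e ≤ 2 * τ + 1) (hτ' : padicValNat p k = τ)
    {y : Fin s → ℕ} {i₀ : Fin s} (hy : ¬p ∣ y i₀)
    (hN : ((p ^ (τ + e) : ℕ) : ℤ) ∣ ((∑ i, y i ^ k : ℕ) : ℤ) - N) :
    ∃ (y : Fin s → ℕ) (i₀ : Fin s), ¬p ∣ y i₀ ∧
      ((p ^ (2 * τ + 1) : ℕ) : ℤ) ∣ ((∑ i, y i ^ k : ℕ) : ℤ) - N := by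
  have hτ : τ = padicValNat p k := hτ'.symm
  obtain ⟨b, hb⟩ : ∃ b : ℤ, b = (N : ℤ) - ∑ i ∈ univ.erase i₀, (y i : ℤ) ^ k := ⟨_, rfl⟩
  have hsplit : ∀ z : ℕ, ((∑ i, Function.update y i₀ z i ^ k : ℕ) : ℤ) - N =
      (z : ℤ) ^ k - b := fun z => by
    rw [← add_sum_erase univ _ (mem_univ i₀), Function.update_self,
      sum_congr rfl fun i hi => by rw [Function.update_of_ne (ne_of_mem_erase hi)], hb]
    push_cast
    ring
  have hN' : (p : ℤ) ^ (τ + e) ∣ (y i₀ : ℤ) ^ k - b := by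
    rw [← hsplit, Function.update_eq_self]
    exact_mod_cast hN
  obtain ⟨z, hz, hzb⟩ := exists_pow_congr_unit hp hk he1
    (hτ ▸ he) (fun hd' => hy (Int.natCast_dvd_natCast.1 hd')) (hτ ▸ hN') (2 * τ + 1)
    (hτ ▸ heτ)
  have : NeZero (p ^ (2 * τ + 1)) := ⟨pow_ne_zero _ hp.ne_zero⟩
  obtain ⟨w, hw⟩ : ∃ w, w = ((z : ℤ) : ZMod (p ^ (2 * τ + 1))).val := ⟨_, rfl⟩
  have hwz : ((p ^ (2 * τ + 1) : ℕ) : ℤ) ∣ (w : ℤ) - z := by
    rw [← ZMod.intCast_zmod_eq_zero_iff_dvd, hw]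
    push_cast
    rw [ZMod.natCast_zmod_val, sub_self]
  refine ⟨Function.update y i₀ w, i₀, ?_, ?_⟩
  · rw [Function.update_self, ← Int.natCast_dvd_natCast]
    intro hd'
    refine hz ?_
    have h' : (p : ℤ) ∣ (w : ℤ) - z :=
      (Int.natCast_dvd_natCast.2 (dvd_pow_self p (by omega))).trans hwz
    simpa using dvd_sub hd' h'
  · rw [hsplit, show (w : ℤ) ^ k - b = ((w : ℤ) ^ k - z ^ k) + (z ^ k - b) by ring]
    exact dvd_add (hwz.trans (sub_dvd_pow_sub_pow _ _ k)) (by exact_mod_cast hzb)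

/-- The prime `p` does not divide every coordinate of some solution. -/
theorem exists_pattern {k s : ℕ} (hk : 2 ≤ k) (hs : k * (k + 1) < s) (N : ℕ) {p : ℕ}
    (hp : p.Prime) : ∃ (y : Fin s → ℕ) (i₀ : Fin s), ¬p ∣ y i₀ ∧
      ((p ^ (2 * padicValNat p k + 1) : ℕ) : ℤ) ∣ ((∑ i, y i ^ k : ℕ) : ℤ) - N := by
  have hkk : k * 3 ≤ k * (k + 1) := Nat.mul_le_mul_left k (by omega)
  obtain ⟨τ, hτ⟩ : ∃ τ, τ = padicValNat p k := ⟨_, rfl⟩
  rw [← hτ]
  rcases Nat.eq_zero_or_pos τ with h | h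
  · rw [h, mul_zero, zero_add, pow_one]
    exact exists_pattern_prime (by omega) (by omega) N hp
  have hd : p ^ τ ≤ k := hτ ▸ Nat.le_of_dvd (by omega) pow_padicValNat_dvd
  have hpk : p ≤ k := (Nat.le_self_pow (by omega) p).trans hd
  obtain ⟨e, he, hpe, he1, heτ⟩ : ∃ e, (p ≠ 2 ∨ 2 ≤ e) ∧
      (p ^ (τ + e) ≤ s ∨ k = 2 ∧ s = 7 ∧ p = 2 ∧ τ + e = 3) ∧ 1 ≤ e ∧ τ + e ≤ 2 * τ + 1 := by
    rcases eq_or_ne p 2 with rfl | hp2
    · refine ⟨2, Or.inr le_rfl, ?_, one_le_two, by omega⟩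
      rcases Nat.lt_or_ge k 3 with h3 | h3
      · obtain rfl : k = 2 := by omega
        have hτ1 : τ = 1 := by rw [hτ]; simp
        rcases Nat.lt_or_ge s 8 with h8 | h8
        · exact Or.inr ⟨rfl, by omega, rfl, by omega⟩
        · exact Or.inl (by rw [hτ1]; exact h8)
      · refine Or.inl ?_
        rw [pow_add]
        have : k * 4 ≤ k * (k + 1) := Nat.mul_le_mul_left k (by omega)
        omega
    · refine ⟨1, Or.inl hp2, Or.inl ?_, le_rfl, by omega⟩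
      rw [pow_succ]
      have := Nat.mul_le_mul hd hpk
      rw [Nat.mul_add_one] at hs
      omega
  obtain ⟨y, i₀, hy, hN⟩ := exists_pattern_low (show 1 ≤ k by omega) (by omega) N hp hpe
  exact exists_pattern_lift (show 1 ≤ k by omega) hp he1 (Or.inr he) heτ hτ.symm hy hN

/-- **The lower bound for the partial sums of a local factor.** -/
theorem localSum_ge_of_pattern {k s : ℕ} (hk : 2 ≤ k) (hs : 1 ≤ s) (N : ℕ) {p : ℕ}
    (hp : p.Prime) (hpat : ∃ (y : Fin s → ℕ) (i₀ : Fin s), ¬p ∣ y i₀ ∧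
      ((p ^ (2 * padicValNat p k + 1) : ℕ) : ℤ) ∣ ((∑ i, y i ^ k : ℕ) : ℤ) - N)
    {L : ℕ} (hL : 2 * padicValNat p k + 1 ≤ L) :
    ∃ v : ℝ, ∑ l ∈ range (L + 1), singularTerm k s N (p ^ l) = (v : ℂ) ∧
      1 / ((p ^ (2 * padicValNat p k + 1) : ℕ) : ℝ) ^ (s - 1) ≤ v := by
  obtain ⟨y, i₀, hy, hN⟩ := hpat
  have hC := congrCount_ge hp (show 1 ≤ k by omega) hy hN hL
  obtain ⟨γ, hγ⟩ : ∃ γ, γ = 2 * padicValNat p k + 1 := ⟨_, rfl⟩
  rw [← hγ] at hC hL ⊢
  obtain ⟨q, hq⟩ : ∃ q, q = p ^ L := ⟨_, rfl⟩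
  have hq0 : 0 < q := hq ▸ pow_pos hp.pos L
  refine ⟨(q : ℝ) * congrCount k s N q / (q : ℝ) ^ s, ?_, ?_⟩
  · rw [← residueSum_primePow hp L, ← hq, residueSum_eq hq0]
    push_cast
    rfl
  · obtain ⟨n, rfl⟩ : ∃ n, s = n + 1 := ⟨s - 1, by omega⟩
    rw [Nat.add_sub_cancel] at hC ⊢
    have hq' : (0 : ℝ) < q := Nat.cast_pos.2 hq0
    rw [pow_succ' (q : ℝ) n, mul_div_mul_left _ _ hq'.ne', div_le_div_iff₀
      (pow_pos (Nat.cast_pos.2 (pow_pos hp.pos γ)) n) (pow_pos hq' n), one_mul]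
    have hpow : q ^ n = (p ^ (L - γ)) ^ n * (p ^ γ) ^ n := by
      rw [← mul_pow, ← pow_add, hq, Nat.sub_add_cancel hL]
    rw [← Nat.cast_pow, ← Nat.cast_pow, ← Nat.cast_mul, Nat.cast_le, hpow, hq]
    exact Nat.mul_le_mul_right _ hC

theorem localSum_ge {k s : ℕ} (hk : 2 ≤ k) (hs : k * (k + 1) < s) (N : ℕ) {p : ℕ} (hp : p.Prime)
    {L : ℕ} (hL : 2 * padicValNat p k + 1 ≤ L) :
    ∃ v : ℝ, ∑ l ∈ range (L + 1), singularTerm k s N (p ^ l) = (v : ℂ) ∧
      1 / ((p ^ (2 * padicValNat p k + 1) : ℕ) : ℝ) ^ (s - 1) ≤ v :=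
  localSum_ge_of_pattern hk (by omega) N hp (exists_pattern hk hs N hp) hL

end FA.WaringAsymptotic
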