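import Fermat.Agent.ThreePrimes.Exponential
import Fermat.Agent.Forms3.RepresentationBound
import Mathlib.Algebra.Order.Chebyshev
import Mathlib.Data.Int.NatAbs

/-!
# Weyl's inequality

`|∑_{x ≤ P} e (α x ^ k)| ^ (2 ^ (k - 1)) ≪ P ^ (2 ^ (k - 1) + ε) (1/q + 1/P + q/P ^ k) log q`
for `α` near `a / q`, by `k - 1` differencing steps.
-/

set_option autoImplicit false

noncomputable section

namespace FA.WaringAsymptotic

open Finset FA.ThreePrimes

/-- The `k`-th differences of `φ` are `c` times the product of the steps. -/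
def HasLead : ℕ → ℝ → (ℤ → ℝ) → Prop
  | 0, c, φ => ∀ x, φ x = c
  | k + 1, c, φ => ∀ h : ℤ, HasLead k ((h : ℝ) * c) fun x => φ (x + h) - φ x

theorem HasLead.add : ∀ {k : ℕ} {a b : ℝ} {φ ψ : ℤ → ℝ}, HasLead k a φ → HasLead k b ψ →
    HasLead k (a + b) fun x => φ x + ψ x
  | 0, _, _, _, _, h1, h2 => fun x => by simp only [h1 x, h2 x]
  | k + 1, _, _, _, _, h1, h2 => fun h => by
    rw [mul_add]
    simp only [add_sub_add_comm]
    exact (h1 h).add (h2 h)

theorem HasLead.smul : ∀ {k : ℕ} {a : ℝ} {φ : ℤ → ℝ}, HasLead k a φ → ∀ r : ℝ,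
    HasLead k (r * a) fun x => r * φ x
  | 0, _, _, h1, r => fun x => by simp only [h1 x]
  | k + 1, _, _, h1, r => fun h => by
    rw [mul_left_comm]
    simp only [← mul_sub]
    exact (h1 h).smul r

theorem HasLead.shift : ∀ {k : ℕ} {a : ℝ} {φ : ℤ → ℝ}, HasLead k a φ → ∀ t : ℤ,
    HasLead k a fun x => φ (x + t)
  | 0, _, _, h1, t => fun x => h1 _
  | k + 1, _, _, h1, t => fun h => by
    simp only [add_right_comm _ h t]
    exact (h1 h).shift t

theorem HasLead.mul_id : ∀ {k : ℕ} {a : ℝ} {φ : ℤ → ℝ}, HasLead k a φ →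
    HasLead (k + 1) (((k + 1 : ℕ) : ℝ) * a) fun x => (x : ℝ) * φ x
  | 0, a, φ, h1 => fun h x => by
    simp only [h1 _]
    push_cast
    ring
  | k + 1, a, φ, h1 => fun h => by
    have h2 := (h1 h).mul_id.add ((h1.shift h).smul (h : ℝ))
    rw [show (((k + 1 : ℕ) : ℝ)) * ((h : ℝ) * a) + (h : ℝ) * a =
      (h : ℝ) * (((k + 1 + 1 : ℕ) : ℝ) * a) by push_cast; ring] at h2
    refine (?_ : (fun x : ℤ => ((x + h : ℤ) : ℝ) * φ (x + h) - (x : ℝ) * φ x) = _) ▸ h2
    funext x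
    push_cast
    ring

theorem hasLead_pow (α : ℝ) : ∀ k : ℕ,
    HasLead k (α * (k.factorial : ℝ)) fun x => α * (x : ℝ) ^ k
  | 0 => fun x => by simp
  | k + 1 => by
    have h := (hasLead_pow α k).mul_id
    rw [Nat.factorial_succ, Nat.cast_mul, mul_left_comm]
    simp only [pow_succ']
    simpa only [mul_left_comm] using h

theorem nearDist_neg (x : ℝ) : nearDist (-x) = nearDist x := by
  have h : ∀ y : ℝ, nearDist (-y) ≤ nearDist y := fun y => by
    refine (nearDist_le_abs_sub _ (-round y)).trans (le_of_eq ?_)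
    rw [nearDist, ← abs_neg]
    push_cast
    ring_nf
  exact le_antisymm (h x) (by simpa using h (-x))

theorem clip_neg (Z x : ℝ) : clip Z (-x) = clip Z x := by
  rw [clip, clip, nearDist_neg]

theorem sum_piFinset_succ {α M : Type*} [DecidableEq α] [AddCommMonoid M] {k : ℕ} (S : Finset α)
    (F : (Fin (k + 1) → α) → M) :
    ∑ x ∈ Fintype.piFinset (fun _ : Fin (k + 1) => S), F x =
      ∑ a ∈ S, ∑ y ∈ Fintype.piFinset (fun _ : Fin k => S), F (Fin.cons a y) := by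
  rw [← sum_product' (f := fun a y => F (Fin.cons a y))]
  refine sum_nbij' (fun x => (x 0, Fin.tail x)) (fun z => Fin.cons z.1 z.2) (fun x hx => ?_)
    (fun z hz => ?_) (fun x _ => Fin.cons_self_tail x) (fun z _ => by simp) fun x _ => ?_
  · rw [mem_product]
    exact ⟨Fintype.mem_piFinset.1 hx 0, Fintype.mem_piFinset.2 fun i =>
      Fintype.mem_piFinset.1 hx i.succ⟩
  · rw [mem_product] at hz
    exact Fintype.mem_piFinset.2 (Fin.cases (by simpa using hz.1) fun i => by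
      simpa using Fintype.mem_piFinset.1 hz.2 i)
  · simp

/-- The differencing steps. -/
def steps (k P : ℕ) : Finset (Fin k → ℤ) := Fintype.piFinset fun _ => Ioo (-(P : ℤ)) P

/-- **Weyl differencing.** -/
theorem weyl_differencing : ∀ (k : ℕ) {c : ℝ} {φ : ℤ → ℝ}, HasLead (k + 1) c φ →
    ∀ {P : ℕ}, 1 ≤ P → ∀ a b : ℤ, b - a ≤ P →
      ‖∑ x ∈ Ioc a b, eAdd (φ x)‖ ^ 2 ^ k ≤
        (2 * (P : ℝ)) ^ (2 ^ k - (k + 1)) * ∑ h ∈ steps k P, clip P (c * ∏ i, (h i : ℝ)) := by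
  intro k
  induction k with
  | zero =>
    intro c φ hφ P hP a b hab
    have hlin : ∀ x : ℤ, φ x = φ 0 + x * c := fun x => by
      have h := hφ x 0
      simp only [zero_add] at h
      linarith
    have hmap : Ioc a b = (Ioc 0 (b - a).toNat).map
        ⟨fun n : ℕ => a + (n : ℤ), fun m n h => by simpa using h⟩ := by
      ext x
      simp only [mem_map, mem_Ioc, Function.Embedding.coeFn_mk]
      exact ⟨fun hx => ⟨(x - a).toNat, by omega, by omega⟩, fun ⟨n, hn, e⟩ => by omega⟩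
    rw [hmap, sum_map]
    have he : ∀ n : ℕ, eAdd (φ (a + n)) = eAdd (φ 0 + a * c) * eAdd (n * c) := fun n => by
      rw [← eAdd_add, hlin (a + n)]
      push_cast
      ring_nf
    simp only [Function.Embedding.coeFn_mk, he, ← mul_sum, norm_mul, norm_eAdd, one_mul, pow_zero,
      pow_one]
    refine (norm_geom_le c 0 _).trans ((clip_mono (Z' := (P : ℝ)) ?_ _).trans (le_of_eq ?_))
    · exact_mod_cast (show (b - a).toNat - 0 ≤ P by omega)
    · simp [steps]
  | succ k ih =>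
    intro c φ hφ P hP a b hab
    obtain ⟨T, hT⟩ : ∃ T : ℤ → ℝ, T = fun h : ℤ =>
        ‖∑ x ∈ Ioc (max a (a - h)) (min b (b - h)), eAdd (φ (x + h) - φ x)‖ := ⟨_, rfl⟩
    have hsq : ‖∑ x ∈ Ioc a b, eAdd (φ x)‖ ^ 2 ≤ ∑ h ∈ Ioo (-(P : ℤ)) P, T h := by
      rw [← Real.norm_of_nonneg (sq_nonneg _), ← Complex.norm_real]
      push_cast
      rw [← Complex.mul_conj', map_sum, sum_mul_sum, sum_comm]
      have e : ∀ x ∈ Ioc a b, ∑ y ∈ Ioc a b, eAdd (φ y) * (starRingEnd ℂ) (eAdd (φ x)) =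
          ∑ h ∈ Ioo (-(P : ℤ)) P,
            if x + h ∈ Ioc a b then eAdd (φ (x + h) - φ x) else 0 := fun x hx => by
        rw [mem_Ioc] at hx
        rw [← sum_filter]
        refine sum_nbij' (fun y => y - x) (fun h => x + h) (fun y hy => ?_)
          (fun h hh => (mem_filter.1 hh).2) (fun y _ => by ring) (fun h _ => by ring)
          fun y _ => ?_
        · rw [mem_filter, mem_Ioo, add_sub_cancel]
          rw [mem_Ioc] at hy ⊢
          omega
        · rw [add_sub_cancel, conj_eAdd, ← eAdd_add]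
          ring_nf
      rw [sum_congr rfl e, sum_comm]
      refine (norm_sum_le _ _).trans (le_of_eq (sum_congr rfl fun h _ => ?_))
      rw [hT, ← sum_filter]
      congr 2
      ext x
      simp only [mem_filter, mem_Ioc, max_lt_iff, le_min_iff]
      omega
    have hP1 : (1 : ℝ) ≤ P := by exact_mod_cast hP
    obtain ⟨n, hn⟩ : ∃ n, 2 ^ k = n + 1 := ⟨2 ^ k - 1, by
      have := Nat.two_pow_pos k; omega⟩
    have hk : k ≤ n := by
      have := Nat.lt_two_pow_self (n := k); omega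
    calc ‖∑ x ∈ Ioc a b, eAdd (φ x)‖ ^ 2 ^ (k + 1)
        = (‖∑ x ∈ Ioc a b, eAdd (φ x)‖ ^ 2) ^ (n + 1) := by
          rw [← pow_mul, ← hn, pow_succ']
      _ ≤ (∑ h ∈ Ioo (-(P : ℤ)) P, T h) ^ (n + 1) := pow_le_pow_left₀ (sq_nonneg _) hsq _
      _ ≤ ((Ioo (-(P : ℤ)) P).card : ℝ) ^ n * ∑ h ∈ Ioo (-(P : ℤ)) P, T h ^ (n + 1) :=
          pow_sum_le_card_mul_sum_pow (fun h _ => by rw [hT]; exact norm_nonneg _) n
      _ ≤ (2 * (P : ℝ)) ^ n * ∑ h ∈ Ioo (-(P : ℤ)) P, (2 * (P : ℝ)) ^ (n + 1 - (k + 1)) *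
            ∑ y ∈ steps k P, clip P ((h : ℝ) * c * ∏ i, (y i : ℝ)) := by
          refine mul_le_mul (pow_le_pow_left₀ (Nat.cast_nonneg _) ?_ n) (sum_le_sum fun h _ => ?_)
            (sum_nonneg fun h _ => pow_nonneg (by rw [hT]; exact norm_nonneg _) _) (by positivity)
          · rw [Int.card_Ioo]
            exact_mod_cast (show ((P : ℤ) - -(P : ℤ) - 1).toNat ≤ 2 * P by omega)
          · rw [hT, ← hn]
            exact ih (hφ h) hP _ _ (by omega)
      _ = _ := by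
          rw [← mul_sum, ← mul_assoc, ← pow_add, steps, steps, sum_piFinset_succ,
            show n + (n + 1 - (k + 1)) = 2 ^ (k + 1) - (k + 1 + 1) by rw [pow_succ]; omega]
          refine congrArg _ (sum_congr rfl fun h _ => sum_congr rfl fun y _ => ?_)
          rw [Fin.prod_univ_succ]
          simp only [Fin.cons_zero, Fin.cons_succ]
          ring_nf

/-- `∑_{n ≤ P} e (α n ^ k)`. -/
def waringSum (k P : ℕ) (α : ℝ) : ℂ := ∑ n ∈ Icc 1 P, eAdd (α * (n : ℝ) ^ k)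

theorem norm_waringSum_le (k P : ℕ) (α : ℝ) : ‖waringSum k P α‖ ≤ P := by
  refine (norm_sum_le _ _).trans ?_
  simp [norm_eAdd]

theorem waringSum_eq_int (k P : ℕ) (α : ℝ) :
    waringSum k P α = ∑ x ∈ Ioc (0 : ℤ) P, eAdd (α * (x : ℝ) ^ k) := by
  refine sum_nbij' (fun n : ℕ => (n : ℤ)) Int.toNat (fun n hn => ?_) (fun x hx => ?_)
    (fun n _ => Int.toNat_natCast n) (fun x hx => ?_) fun n _ => by push_cast; rfl
  · rw [mem_Icc] at hn; rw [mem_Ioc]; omega
  · rw [mem_Ioc] at hx; rw [mem_Icc]; omega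
  · rw [mem_Ioc] at hx; exact Int.toNat_of_nonneg hx.1.le

theorem card_steps_zero_le {j P : ℕ} (hP : 1 ≤ P) :
    ((steps j P).filter fun h => ∏ i, h i = 0).card ≤ j * (2 * P) ^ (j - 1) := by
  classical
  refine (card_le_card (t := (univ : Finset (Fin j)).biUnion fun i =>
    Fintype.piFinset fun l => if l = i then {0} else Ioo (-(P : ℤ)) P) fun h hh => ?_).trans
    ((card_biUnion_le).trans (le_of_le_of_eq (sum_le_card_nsmul _ _ ((2 * P) ^ (j - 1))
      fun i _ => ?_) (by simp)))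
  · rw [mem_filter, prod_eq_zero_iff] at hh
    obtain ⟨hh, i, -, hi⟩ := hh
    refine mem_biUnion.2 ⟨i, mem_univ _, Fintype.mem_piFinset.2 fun l => ?_⟩
    split_ifs with hl
    · rw [hl, hi]; exact mem_singleton_self 0
    · exact Fintype.mem_piFinset.1 hh l
  · rw [Fintype.card_piFinset, ← mul_prod_erase _ _ (mem_univ i), if_pos rfl, card_singleton,
      one_mul, prod_congr rfl fun l hl => by rw [if_neg (ne_of_mem_erase hl)], prod_const,
      card_erase_of_mem (mem_univ i), card_univ, Fintype.card_fin, Int.card_Ioo]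
    exact Nat.pow_le_pow_left (by omega) _

theorem card_steps_fibre_le {j P m r : ℕ} (hm : m ≠ 0) :
    ((steps j P).filter fun h => r * (∏ i, h i).natAbs = m).card ≤
      (2 * m.divisors.card) ^ j := by
  classical
  obtain ⟨D, hD⟩ : ∃ D : Finset ℤ, D = m.divisors.image (fun d : ℕ => (d : ℤ)) ∪
      m.divisors.image (fun d : ℕ => -(d : ℤ)) := ⟨_, rfl⟩
  refine (card_le_card (t := Fintype.piFinset fun _ : Fin j => D) fun h hh => ?_).trans ?_
  · rw [mem_filter] at hh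
    refine Fintype.mem_piFinset.2 fun i => ?_
    have hd : (h i).natAbs ∣ m :=
      hh.2 ▸ (Int.natAbs_dvd_natAbs.2 (dvd_prod_of_mem _ (mem_univ i))).mul_left r
    rw [hD, mem_union, mem_image, mem_image]
    rcases Int.natAbs_eq (h i) with e | e
    · exact Or.inl ⟨_, Nat.mem_divisors.2 ⟨hd, hm⟩, e.symm⟩
    · exact Or.inr ⟨_, Nat.mem_divisors.2 ⟨hd, hm⟩, e.symm⟩
  · rw [Fintype.card_piFinset_const]
    refine Nat.pow_le_pow_left ((hD ▸ card_union_le _ _).trans ?_) _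
    rw [two_mul]
    exact add_le_add card_image_le card_image_le

/-- The differenced sum for `x ^ k`, with the products grouped. -/
theorem exists_steps_sum_le {j : ℕ} (hj : 1 ≤ j) {ε : ℝ} (hε : 0 < ε) : ∃ C : ℝ, 0 < C ∧
    ∀ P : ℕ, 1 ≤ P → ∀ α : ℝ,
      ∑ h ∈ steps j P, clip P (α * ((j + 1).factorial : ℝ) * ∏ i, (h i : ℝ)) ≤
        C * ((P : ℝ) ^ j + (P : ℝ) ^ ε *
          ∑ m ∈ range ((j + 1).factorial * P ^ j + 1), clip P (α * m)) := by
  classical
  obtain ⟨F, hF⟩ : ∃ F, F = (j + 1).factorial := ⟨_, rfl⟩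
  rw [← hF]
  obtain ⟨ε', hε'⟩ : ∃ e : ℝ, e = ε / (j * j) := ⟨_, rfl⟩
  have hj0 : (0 : ℝ) < j := by exact_mod_cast hj
  obtain ⟨D, hD1, hD⟩ := RepresentationBound.card_divisors_isBigO ε' (by rw [hε']; positivity)
  refine ⟨(j : ℝ) * 2 ^ j + (2 * D * (F : ℝ) ^ ε') ^ j + 1, by positivity, fun P hP α => ?_⟩
  have hP1 : (1 : ℝ) ≤ P := by exact_mod_cast hP
  have hF1 : 1 ≤ F := hF ▸ Nat.factorial_pos _
  obtain ⟨S, hS⟩ : ∃ S, S = ∑ m ∈ range (F * P ^ j + 1), clip P (α * m) := ⟨_, rfl⟩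
  rw [← hS]
  have hclip : ∀ x, 0 ≤ clip (P : ℝ) x := fun x => clip_nonneg (by linarith) x
  rw [← sum_filter_add_sum_filter_not (steps j P) fun h => ∏ i, h i = 0]
  have h1 : ∑ h ∈ (steps j P).filter (fun h => ∏ i, h i = 0),
      clip P (α * (F : ℝ) * ∏ i, (h i : ℝ)) ≤ (j : ℝ) * 2 ^ j * (P : ℝ) ^ j := by
    refine (sum_le_card_nsmul _ _ (P : ℝ) fun h _ => clip_le _ _).trans ?_
    rw [nsmul_eq_mul]
    refine (mul_le_mul_of_nonneg_right (Nat.cast_le.2 (card_steps_zero_le hP)) (by linarith)).trans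
      ?_
    push_cast
    obtain ⟨i, rfl⟩ : ∃ i, j = i + 1 := ⟨j - 1, by omega⟩
    rw [Nat.add_sub_cancel, mul_pow, pow_succ _ i, pow_succ _ i]
    have : 0 ≤ ((i + 1 : ℕ) : ℝ) * ((2 : ℝ) ^ i * (P : ℝ) ^ i) * P := by positivity
    push_cast at this ⊢
    linarith
  have h2 : ∑ h ∈ (steps j P).filter (fun h => ¬∏ i, h i = 0),
      clip P (α * (F : ℝ) * ∏ i, (h i : ℝ)) ≤
        (2 * D * (F : ℝ) ^ ε') ^ j * ((P : ℝ) ^ ε * S) := by
    have hmem : ∀ h ∈ (steps j P).filter (fun h => ¬∏ i, h i = 0),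
        F * (∏ i, h i).natAbs ∈ Icc 1 (F * P ^ j) := fun h hh => by
      rw [mem_filter] at hh
      rw [mem_Icc]
      refine ⟨Nat.mul_pos (by omega) (Int.natAbs_pos.2 hh.2), Nat.mul_le_mul_left _ ?_⟩
      rw [show (∏ i, h i).natAbs = ∏ i, (h i).natAbs from map_prod Int.natAbsHom h univ]
      refine (prod_le_pow_card _ _ P fun i _ => ?_).trans (by simp)
      have := mem_Ioo.1 (Fintype.mem_piFinset.1 hh.1 i)
      omega
    rw [← sum_fiberwise_of_maps_to hmem, hS, ← mul_assoc, mul_sum]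
    refine le_trans (sum_le_sum fun m hm => ?_)
      (sum_le_sum_of_subset_of_nonneg (fun m hm => mem_range.2 (by
        have := (mem_Icc.1 hm).2; omega))
        fun m _ _ => mul_nonneg (by positivity) (hclip _))
    have hm1 := mem_Icc.1 hm
    refine (sum_le_card_nsmul _ _ (clip P (α * m)) fun h hh => le_of_eq ?_).trans ?_
    · rw [mem_filter] at hh
      rw [← hh.2, Nat.cast_mul, Nat.cast_natAbs, Int.cast_abs, Int.cast_prod, ← mul_assoc]
      rcases abs_choice (∏ i, (h i : ℝ)) with e | e <;> rw [e]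
      rw [mul_neg, clip_neg]
    · rw [nsmul_eq_mul]
      refine mul_le_mul_of_nonneg_right ?_ (hclip _)
      refine (Nat.cast_le.2 ((card_le_card (filter_subset_filter _
        (filter_subset _ _))).trans (card_steps_fibre_le (by omega : m ≠ 0)))).trans ?_
      push_cast
      rw [show (2 * D * (F : ℝ) ^ ε') ^ j * (P : ℝ) ^ ε =
        (2 * (D * ((F : ℝ) * (P : ℝ) ^ j) ^ ε')) ^ j by
          rw [Real.mul_rpow (by positivity) (by positivity), ← Real.rpow_natCast (P : ℝ) j,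
            ← Real.rpow_mul (by linarith), mul_pow, mul_pow, mul_pow, mul_pow, mul_pow,
            ← Real.rpow_natCast ((P : ℝ) ^ _) j, ← Real.rpow_mul (by linarith),
            show (j : ℝ) * ε' * j = ε by rw [hε']; field_simp]
          ring]
      refine pow_le_pow_left₀ (by positivity) (mul_le_mul_of_nonneg_left ((hD m (by omega)).trans
        (mul_le_mul_of_nonneg_left ?_ (by linarith))) two_pos.le) _
      refine Real.rpow_le_rpow (Nat.cast_nonneg _) ?_ (by rw [hε']; positivity)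
      exact_mod_cast hm1.2
  refine (add_le_add h1 h2).trans ?_
  have a1 : 0 ≤ (P : ℝ) ^ j := by positivity
  have a2 : 0 ≤ (P : ℝ) ^ ε * S := mul_nonneg (by positivity) (hS ▸ sum_nonneg fun m _ => hclip _)
  nlinarith [mul_nonneg (show 0 ≤ (2 * D * (F : ℝ) ^ ε') ^ j + 1 by positivity) a1,
    mul_nonneg (show 0 ≤ (j : ℝ) * 2 ^ j + 1 by positivity) a2]

/-- **Weyl's inequality.** -/
theorem exists_weyl {k : ℕ} (hk : 2 ≤ k) {ε : ℝ} (hε : 0 < ε) : ∃ C : ℝ, 0 < C ∧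
    ∀ (P q : ℕ) [NeZero q] (a : ℤ) (α : ℝ), 1 ≤ P → IsUnit (a : ZMod q) →
      |α - a / q| ≤ 1 / (q : ℝ) ^ 2 →
        ‖waringSum k P α‖ ^ 2 ^ (k - 1) ≤ C * (P : ℝ) ^ ((2 ^ (k - 1) : ℕ) + ε) *
          (1 / (q : ℝ) + 1 / P + q / (P : ℝ) ^ k) * (1 + Real.log q) := by
  obtain ⟨j, rfl⟩ : ∃ j, k = j + 1 := ⟨k - 1, by omega⟩
  rw [Nat.add_sub_cancel]
  obtain ⟨K, hK⟩ : ∃ K, K = 2 ^ j := ⟨_, rfl⟩
  obtain ⟨F, hF⟩ : ∃ F, F = (j + 1).factorial := ⟨_, rfl⟩
  rw [← hK]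
  have hjK : j + 1 ≤ K := hK ▸ Nat.lt_two_pow_self
  obtain ⟨C, hC, h⟩ := exists_steps_sum_le (j := j) (by omega) hε
  refine ⟨2 ^ K * C * (10 * (F : ℝ) + 20), by positivity, fun P q _ a α hP ha hα => ?_⟩
  have hP1 : (1 : ℝ) ≤ P := by exact_mod_cast hP
  have hq : (1 : ℝ) ≤ q := by exact_mod_cast (NeZero.pos q : 0 < q)
  have hweyl := weyl_differencing j (hasLead_pow α (j + 1)) hP 0 P (by simp)
  rw [← waringSum_eq_int, ← hK] at hweyl
  refine hweyl.trans ((mul_le_mul_of_nonneg_left (h P hP α) (by positivity)).trans ?_)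
  rw [← hF]
  obtain ⟨L, hL⟩ : ∃ L, L = 1 + Real.log q := ⟨_, rfl⟩
  have hL1 : 1 ≤ L := by linarith [Real.log_natCast_nonneg q]
  rw [← hL]
  have hsum := sum_clip_range_le ha hα 0 (Z := (P : ℝ)) (by linarith) (F * P ^ j + 1)
  simp only [zero_add, ← hL] at hsum
  push_cast at hsum
  have hPj : (1 : ℝ) ≤ (P : ℝ) ^ j := one_le_pow₀ hP1
  have hPP : (P : ℝ) ≤ (P : ℝ) ^ j := le_self_pow₀ hP1 (by omega)
  have hF1 : (1 : ℝ) ≤ F := by exact_mod_cast hF ▸ Nat.factorial_pos _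
  obtain ⟨Y, hY⟩ : ∃ Y : ℝ,
      Y = (P : ℝ) ^ (j + 1) * (1 / (q : ℝ) + 1 / P + q / (P : ℝ) ^ (j + 1)) := ⟨_, rfl⟩
  have hY' : Y = (P : ℝ) ^ (j + 1) / q + (P : ℝ) ^ j + q := by
    rw [hY]; field_simp; ring
  have hq' : 0 ≤ (P : ℝ) ^ (j + 1) / q := by positivity
  have hS : ((F * (P : ℝ) ^ j + 1) / q + 1) * (5 * P + 2 * q * L) ≤ (10 * F + 19) * Y * L := by
    have e : ((F * (P : ℝ) ^ j + 1) / q + 1) * (5 * P + 2 * q * L) =
        5 * ((F * (P : ℝ) ^ j * P + P) / q) + 2 * (F * (P : ℝ) ^ j + 1) * L + 5 * P +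
          2 * q * L := by
      field_simp
      ring
    rw [e]
    have e1 : (F * (P : ℝ) ^ j * P + P) / q ≤ 2 * F * ((P : ℝ) ^ (j + 1) / q) := by
      rw [mul_div_assoc', pow_succ]
      refine div_le_div_of_nonneg_right ?_ (by linarith)
      have : (P : ℝ) ≤ F * (P : ℝ) ^ j * P :=
        le_mul_of_one_le_left (by linarith) (one_le_mul_of_one_le_of_one_le hF1 hPj)
      linarith
    rw [hY']
    have n1 : ∀ X : ℝ, 0 ≤ X → X ≤ X * L := fun X hX => le_mul_of_one_le_right hX hL1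
    have := n1 _ hq'
    have := n1 ((P : ℝ) ^ j) (by positivity)
    have := mul_le_mul_of_nonneg_left (n1 _ hq') (show 0 ≤ (F : ℝ) by positivity)
    have := mul_le_mul_of_nonneg_left hPj (show 0 ≤ L by linarith)
    have := mul_nonneg (mul_nonneg (show (0 : ℝ) ≤ 10 * F + 19 by positivity) hq')
      (zero_le_one.trans hL1)
    nlinarith [mul_nonneg (show (0 : ℝ) ≤ F by positivity) (mul_nonneg (zero_le_one.trans hL1) hq'),
      mul_nonneg (show (0 : ℝ) ≤ F by positivity) (mul_nonneg (zero_le_one.trans hL1)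
        (zero_le_one.trans hq)),
      mul_nonneg (show (0 : ℝ) ≤ F by positivity) (mul_nonneg (zero_le_one.trans hL1)
        (zero_le_one.trans hPj))]
  have hPε : (1 : ℝ) ≤ (P : ℝ) ^ ε := Real.one_le_rpow hP1 hε.le
  have hYL : (P : ℝ) ^ j ≤ (P : ℝ) ^ ε * (Y * L) := by
    refine le_trans ?_ (le_mul_of_one_le_left (by rw [hY']; positivity) hPε)
    refine le_trans ?_ (le_mul_of_one_le_right (by rw [hY']; positivity) hL1)
    rw [hY']; linarith
  refine (mul_le_mul_of_nonneg_left (mul_le_mul_of_nonneg_left (add_le_add hYL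
    (mul_le_mul_of_nonneg_left (hsum.trans hS) (by positivity))) hC.le) (by positivity)).trans ?_
  have e : (P : ℝ) ^ ((K : ℝ) + ε) = (P : ℝ) ^ (K - (j + 1)) * (P : ℝ) ^ (j + 1) * (P : ℝ) ^ ε := by
    rw [← pow_add, Nat.sub_add_cancel hjK, Real.rpow_add (by linarith), Real.rpow_natCast]
  rw [e, mul_pow]
  have h2K : (2 : ℝ) ^ (K - (j + 1)) ≤ 2 ^ K := pow_le_pow_right₀ one_le_two (Nat.sub_le _ _)
  calc (2 : ℝ) ^ (K - (j + 1)) * (P : ℝ) ^ (K - (j + 1)) *
        (C * ((P : ℝ) ^ ε * (Y * L) + (P : ℝ) ^ ε * ((10 * F + 19) * Y * L)))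
      = 2 ^ (K - (j + 1)) *
          (C * (10 * F + 20) * ((P : ℝ) ^ (K - (j + 1)) * (P : ℝ) ^ ε * (Y * L))) := by ring
    _ ≤ 2 ^ K * (C * (10 * F + 20) * ((P : ℝ) ^ (K - (j + 1)) * (P : ℝ) ^ ε * (Y * L))) :=
        mul_le_mul_of_nonneg_right h2K (by rw [hY']; positivity)
    _ = _ := by rw [hY]; ring

end FA.WaringAsymptotic
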