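import Fermat.Agent.WaringAsymptotic.Weyl
import Fermat.Agent.Korobov.MeanValue
import Fermat.Agent.VinogradovMainConjecture.MeanValue

/-!
# The moment from Vinogradov's mean value theorem

`∑ x i ^ k = ∑ y i ^ k` has `O (P ^ (2 t - k + η))` solutions with `2 t` variables up to `P`,
`t = k r`, and `O (P ^ (2 t - k + ε))` for `t = k (k + 1) / 2` by the main conjecture; and the
identities on the points `h / M` which turn this into a moment of `waringSum`.
-/

set_option autoImplicit false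

noncomputable section

namespace FA.WaringAsymptotic

open Finset FA.ThreePrimes
open scoped ComplexConjugate

/-- The solutions of `∑ x i ^ k = ∑ y i ^ k` up to `P`. -/
def powerDiagonal (k t P : ℕ) : ℕ :=
  ((Korobov.box (Icc 1 P) t ×ˢ Korobov.box (Icc 1 P) t).filter
    fun z => ∑ i, z.1 i ^ k = ∑ i, z.2 i ^ k).card

theorem powerDiagonal_le (i t P : ℕ) (ht : 1 ≤ t) (hP : 1 ≤ P) :
    powerDiagonal (i + 1) t P ≤
      (3 * t) ^ i * P ^ (∑ j ∈ range i, (j + 1)) * Korobov.meanCount (i + 1) t (P + 1) := by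
  obtain ⟨D, hD⟩ : ∃ D : Finset (Fin (i + 1) → ℤ), D = Fintype.piFinset fun j => if j.1 = i then
      ({0} : Finset ℤ) else Icc (-((t * P ^ (j.1 + 1) : ℕ) : ℤ)) ((t * P ^ (j.1 + 1) : ℕ) : ℤ) :=
    ⟨_, rfl⟩
  obtain ⟨J, hJ⟩ : ∃ J, J = Korobov.energy (Korobov.box (Icc 1 P) t)
      (Korobov.powerSum (i + 1)) := ⟨_, rfl⟩
  have hbox : ∀ (x : Fin t → ℕ), x ∈ Korobov.box (Icc 1 P) t → ∀ j : ℕ,
      0 ≤ ∑ l, (x l : ℤ) ^ j ∧ ∑ l, (x l : ℤ) ^ j ≤ ((t * P ^ j : ℕ) : ℤ) := fun x hx j => by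
    refine ⟨sum_nonneg fun l _ => by positivity, ?_⟩
    refine (sum_le_card_nsmul _ _ ((P : ℤ) ^ j) fun l _ => ?_).trans (le_of_eq (by simp))
    have := (mem_Icc.1 (Fintype.mem_piFinset.1 hx l)).2
    gcongr
  have h1 : powerDiagonal (i + 1) t P ≤ D.card * J := by
    rw [powerDiagonal, card_eq_sum_card_fiberwise
      (f := fun z => Korobov.powerSum (i + 1) z.1 - Korobov.powerSum (i + 1) z.2) (t := D)
      fun z hz => ?_]
    · refine sum_le_card_nsmul _ _ J fun d _ => ?_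
      rw [hJ]
      exact (card_le_card (filter_subset_filter _ (filter_subset _ _))).trans
        (Korobov.card_sub_eq_le _ _ d)
    · rw [mem_coe, mem_filter, mem_product] at hz
      rw [mem_coe, hD, Fintype.mem_piFinset]
      intro j
      simp only [Pi.sub_apply, Korobov.powerSum]
      split_ifs with h
      · rw [mem_singleton, h, sub_eq_zero]
        exact_mod_cast hz.2
      · have a1 := hbox _ hz.1.1 (j.1 + 1)
        have a2 := hbox _ hz.1.2 (j.1 + 1)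
        rw [mem_Icc]
        omega
  refine h1.trans (Nat.mul_le_mul ?_ ?_)
  · rw [hD, Fintype.card_piFinset, Fin.prod_univ_castSucc]
    simp only [Fin.val_castSucc, Fin.val_last, if_true, card_singleton, mul_one]
    refine (prod_le_prod' (g := fun j : Fin i => 3 * t * P ^ (j.1 + 1)) fun j _ => ?_).trans
      (le_of_eq ?_)
    · rw [if_neg (Nat.ne_of_lt j.2), Int.card_Icc]
      have : 1 ≤ t * P ^ (j.1 + 1) := Nat.mul_pos ht (pow_pos hP _)
      rw [mul_assoc]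
      omega
    · rw [prod_mul_distrib, prod_const, card_univ, Fintype.card_fin, prod_pow_eq_pow_sum,
        Fin.sum_univ_eq_sum_range (fun j => j + 1)]
  · rw [hJ]
    exact Korobov.energy_mono (fun x hx => Fintype.mem_piFinset.2 fun l =>
      mem_range.2 (Nat.lt_succ_of_le (mem_Icc.1 (Fintype.mem_piFinset.1 hx l)).2)) _

/-- **The moment bound.** -/
theorem exists_powerDiagonal_le {k r : ℕ} (hk : 1 ≤ k) (hr : 1 ≤ r) : ∃ C : ℝ, 0 < C ∧
    ∀ P : ℕ, 1 ≤ P → (powerDiagonal k (k * r) P : ℝ) ≤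
      C * (P : ℝ) ^ (2 * (k : ℝ) * r - k + Korobov.eta k r) := by
  obtain ⟨i, rfl⟩ : ∃ i, k = i + 1 := ⟨k - 1, by omega⟩
  obtain ⟨e, he⟩ : ∃ e, e = Korobov.mvExp (i + 1) r := ⟨_, rfl⟩
  have he0 : 0 ≤ e := by
    have h1 := Korobov.le_mvExp hk r
    have h2 : ((i + 1 : ℕ) : ℝ) * 1 ≤ ((i + 1 : ℕ) : ℝ) * r :=
      mul_le_mul_of_nonneg_left (by exact_mod_cast hr) (Nat.cast_nonneg _)
    rw [he]
    linarith [(Nat.cast_nonneg (i + 1) : (0 : ℝ) ≤ (i + 1 : ℕ))]
  refine ⟨(3 * ((i + 1 : ℕ) : ℝ) * r) ^ i * (Korobov.mvConst (i + 1) r * 2 ^ e),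
    by rw [Korobov.mvConst]; positivity, fun P hP => ?_⟩
  have h := powerDiagonal_le i ((i + 1) * r) P (Nat.mul_pos hk hr) hP
  refine (Nat.cast_le.2 h).trans ?_
  push_cast
  refine (mul_le_mul_of_nonneg_left ((Korobov.meanCount_le hk r hr (P + 1) (by omega)).trans
    (mul_le_mul_of_nonneg_left (?_ : _ ≤ (2 : ℝ) ^ e * (P : ℝ) ^ e)
      (by rw [Korobov.mvConst]; positivity))) (by positivity)).trans (le_of_eq ?_)
  · rw [← he, ← Real.mul_rpow two_pos.le (Nat.cast_nonneg P)]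
    refine Real.rpow_le_rpow (Nat.cast_nonneg _) ?_ he0
    have : (1 : ℝ) ≤ P := by exact_mod_cast hP
    push_cast
    linarith
  · have hexp : ∀ n : ℕ, ((∑ j ∈ range n, (j + 1) : ℕ) : ℝ) = n * (n + 1) / 2 := fun n => by
      induction n with
      | zero => simp
      | succ m ih =>
        rw [sum_range_succ, Nat.cast_add, ih]
        push_cast
        ring
    have hpow : (P : ℝ) ^ (∑ j ∈ range i, (j + 1)) * (P : ℝ) ^ e =
        (P : ℝ) ^ (2 * ((i : ℝ) + 1) * r - ((i : ℝ) + 1) + Korobov.eta (i + 1) r) := by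
      rw [← Real.rpow_natCast (P : ℝ), ← Real.rpow_add (by exact_mod_cast hP), hexp, he,
        Korobov.mvExp]
      push_cast
      ring_nf
    rw [← hpow]
    ring

/-- **The moment at the critical exponent**, from the main conjecture in the mean value theorem. -/
theorem exists_powerDiagonal_tri {k : ℕ} (hk : 1 ≤ k) {ε : ℝ} (hε : 0 < ε) : ∃ C : ℝ, 0 < C ∧
    ∀ P : ℕ, 1 ≤ P → (powerDiagonal k (VMC.tri k) P : ℝ) ≤
      C * (P : ℝ) ^ (2 * (VMC.tri k : ℝ) - k + ε) := by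
  obtain ⟨i, rfl⟩ : ∃ i, k = i + 1 := ⟨k - 1, by omega⟩
  obtain ⟨t, ht⟩ : ∃ t, t = VMC.tri (i + 1) := ⟨_, rfl⟩
  have ht1 : 1 ≤ t := ht ▸ VMC.tri_pos hk
  obtain ⟨C, hC⟩ := VMC.solutions_bound hk t hε
  rw [← ht]
  have hti : t = (∑ j ∈ range i, (j + 1)) + (i + 1) := by rw [ht, VMC.tri, sum_range_succ]
  refine ⟨((3 * t) ^ i : ℕ) * (|C| * (2 : ℝ) ^ (ε + t) * 2) + 1, by positivity, fun P hP => ?_⟩
  have hP1 : (1 : ℝ) ≤ P := by exact_mod_cast hP
  have h1 : (Korobov.meanCount (i + 1) t (P + 1) : ℝ) ≤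
      |C| * (2 : ℝ) ^ (ε + t) * 2 * (P : ℝ) ^ (ε + t) := by
    have h : (Korobov.meanCount (i + 1) t (P + 1) : ℝ) ≤ _ := hC (P + 1) (by omega)
    rw [← ht, show 2 * (t : ℝ) - (t : ℝ) = (t : ℝ) by ring] at h
    refine h.trans ((mul_le_mul_of_nonneg_right (mul_le_mul_of_nonneg_right (le_abs_self C)
      (by positivity)) (by positivity)).trans ?_)
    rw [← two_mul, mul_assoc, mul_left_comm (((P + 1 : ℕ) : ℝ) ^ ε),
      ← Real.rpow_add (by positivity)]
    calc |C| * (2 * ((P + 1 : ℕ) : ℝ) ^ (ε + t)) ≤ |C| * (2 * (2 * (P : ℝ)) ^ (ε + t)) := by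
          gcongr
          push_cast
          linarith
      _ = _ := by rw [Real.mul_rpow two_pos.le (by linarith)]; ring
  refine (Nat.cast_le.2 (powerDiagonal_le i t P ht1 hP)).trans ?_
  rw [Nat.cast_mul, Nat.cast_mul, Nat.cast_pow P]
  refine (mul_le_mul_of_nonneg_left h1 (by positivity)).trans ?_
  have e : (P : ℝ) ^ (∑ j ∈ range i, (j + 1)) * (P : ℝ) ^ (ε + t) =
      (P : ℝ) ^ (2 * (t : ℝ) - (i + 1 : ℕ) + ε) := by
    rw [← Real.rpow_natCast, ← Real.rpow_add (by linarith)]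
    congr 1
    have h2 : (t : ℝ) = (∑ j ∈ range i, (j + 1) : ℕ) + ((i + 1 : ℕ) : ℝ) := by exact_mod_cast hti
    linarith
  rw [← e]
  have : 0 ≤ (P : ℝ) ^ (∑ j ∈ range i, (j + 1)) * (P : ℝ) ^ (ε + t) := by positivity
  linarith

/-- `(∑ g i e (φ i x)) ^ s` written out. -/
theorem sum_eAdd_pow (A : Finset ℕ) (g : ℕ → ℂ) (φ : ℕ → ℕ) (s : ℕ) (x : ℝ) :
    (∑ i ∈ A, g i * eAdd ((φ i : ℕ) * x)) ^ s =
      ∑ z ∈ Fintype.piFinset (fun _ : Fin s => A),
        (∏ j, g (z j)) * eAdd ((∑ j, φ (z j) : ℕ) * x) := by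
  rw [sum_pow']
  refine sum_congr rfl fun z _ => ?_
  rw [prod_mul_distrib, Nat.cast_sum, sum_mul]
  refine congrArg _ ?_
  classical
  induction (univ : Finset (Fin s)) using Finset.induction with
  | empty => simp
  | insert a S ha ih => rw [prod_insert ha, sum_insert ha, eAdd_add, ih]

/-- **Orthogonality on a translate of the grid.** -/
theorem sum_pow_grid (A : Finset ℕ) (g : ℕ → ℂ) (φ : ℕ → ℕ) {s N M B : ℕ}
    (hφ : ∀ i ∈ A, φ i ≤ B) (hB : s * B < N + M) (hN : N < M) (θ : ℝ) :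
    ∑ h ∈ range M, (∑ i ∈ A, g i * eAdd ((φ i : ℕ) * ((h : ℝ) / M + θ))) ^ s *
        eAdd (-((N : ℝ) * ((h : ℝ) / M + θ))) =
      M * ∑ z ∈ (Fintype.piFinset fun _ : Fin s => A).filter (fun z => ∑ j, φ (z j) = N),
        ∏ j, g (z j) := by
  simp only [sum_eAdd_pow, sum_mul]
  rw [sum_comm, sum_filter, mul_sum]
  refine sum_congr rfl fun z hz => ?_
  obtain ⟨n, hn⟩ : ∃ n, n = ∑ j, φ (z j) := ⟨_, rfl⟩
  rw [← hn]
  have hns : n ≤ s * B := by
    rw [hn]
    exact (sum_le_card_nsmul _ _ B fun j _ => hφ _ (Fintype.mem_piFinset.1 hz j)).trans (by simp)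
  have e : ∀ h : ℕ, (∏ j, g (z j)) * eAdd ((n : ℕ) * ((h : ℝ) / M + θ)) *
      eAdd (-((N : ℝ) * ((h : ℝ) / M + θ))) = (∏ j, g (z j)) * eAdd (((n : ℤ) - N : ℤ) * θ) *
        eAdd ((((n : ℤ) - N : ℤ) : ℝ) * h / M) := fun h => by
    rw [mul_assoc, mul_assoc, ← eAdd_add, ← eAdd_add]
    push_cast
    ring_nf
  simp only [e]
  rw [← mul_sum, sum_eAdd_grid (by omega)]
  split_ifs with h1 h2 h2
  · subst h2
    simp [mul_comm]
  · exfalso
    have := Int.le_of_dvd (abs_pos.2 (show ((n : ℤ) - N) ≠ 0 by omega)) ((dvd_abs _ _).2 h1)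
    have : |((n : ℤ) - N)| < M := abs_lt.2 ⟨by omega, by omega⟩
    omega
  · exact absurd (by subst h2; simp) h1
  · simp

/-- **The moment on the grid.** -/
theorem sum_norm_waringSum_pow {k t P M : ℕ} (hM : t * P ^ k < M) :
    ∑ h ∈ range M, ‖waringSum k P ((h : ℝ) / M)‖ ^ (2 * t) = M * powerDiagonal k t P := by
  have e : ∀ x : ℝ, ((‖waringSum k P x‖ ^ (2 * t) : ℝ) : ℂ) =
      ∑ z ∈ Korobov.box (Icc 1 P) t, ∑ w ∈ Korobov.box (Icc 1 P) t,
        eAdd ((((∑ i, z i ^ k : ℕ) : ℤ) - ((∑ i, w i ^ k : ℕ) : ℤ) : ℤ) * x) := fun x => by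
    have hf : waringSum k P x ^ t = ∑ z ∈ Korobov.box (Icc 1 P) t,
        eAdd ((∑ i, z i ^ k : ℕ) * x) := by
      have h := sum_eAdd_pow (Icc 1 P) (fun _ => 1) (fun n => n ^ k) t x
      simp only [one_mul, prod_const_one] at h
      rw [Korobov.box, ← h, waringSum]
      refine congrArg (· ^ t) (sum_congr rfl fun n _ => ?_)
      push_cast
      rw [mul_comm]
    rw [mul_comm 2 t, pow_mul, Complex.ofReal_pow, ← norm_pow, ← Complex.mul_conj', hf, map_sum,
      sum_mul_sum]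
    refine sum_congr rfl fun z _ => sum_congr rfl fun w _ => ?_
    rw [conj_eAdd, ← eAdd_add]
    push_cast
    ring_nf
  apply Complex.ofReal_injective
  rw [Complex.ofReal_sum, sum_congr rfl fun h _ => e _, powerDiagonal, card_filter, sum_product,
    Complex.ofReal_mul, Complex.ofReal_natCast, Complex.ofReal_natCast, Nat.cast_sum, mul_sum,
    sum_comm]
  refine sum_congr rfl fun z hz => ?_
  rw [sum_comm, Nat.cast_sum (Korobov.box (Icc 1 P) t), mul_sum]
  refine sum_congr rfl fun w hw => ?_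
  simp only [← mul_div_assoc]
  rw [sum_eAdd_grid (by omega)]
  have hb : ∀ v ∈ Korobov.box (Icc 1 P) t, ∑ i, v i ^ k ≤ t * P ^ k := fun v hv =>
    (sum_le_card_nsmul _ _ (P ^ k) fun i _ => Nat.pow_le_pow_left
      (mem_Icc.1 (Fintype.mem_piFinset.1 hv i)).2 k).trans (by simp)
  have hz' := hb z hz
  have hw' := hb w hw
  generalize ∑ i, z i ^ k = a at hz' ⊢
  generalize ∑ i, w i ^ k = b at hw' ⊢
  by_cases h : a = b
  · simp [h]
  · rw [if_neg, if_neg h]
    · simp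
    · intro hd
      have := Int.le_of_dvd (abs_pos.2 (show ((a : ℤ) - b) ≠ 0 by omega)) ((dvd_abs _ _).2 hd)
      have : |((a : ℤ) - b)| < M := abs_lt.2 ⟨by omega, by omega⟩
      omega

end FA.WaringAsymptotic
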