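import Fermat.Agent.WaringAsymptotic.Moment
import Fermat.Agent.ThreePrimes.Circle

/-!
# The minor arcs

Outside the arcs `|α - a/q| ≤ P ^ (1/10) / N`, `q ≤ P ^ (1/10)`, Weyl's inequality saves a power
of `P`; with the moment bound this gives `O (M P ^ (s - k - δ))` for the sum of `|f| ^ s` over
those points `h / M`, for `s > k (k + 1)`.
-/

set_option autoImplicit false

noncomputable section

namespace FA.WaringAsymptotic

open Finset FA.ThreePrimes

/-- The saving in Weyl's inequality on the minor arcs. -/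
def weylSaving (k : ℕ) : ℝ := 1 / (20 * 2 ^ (k - 1))

theorem weylSaving_pos (k : ℕ) : 0 < weylSaving k := by unfold weylSaving; positivity

theorem weylSaving_le (k : ℕ) : weylSaving k ≤ 1 / 20 := by
  unfold weylSaving
  gcongr
  exact le_mul_of_one_le_right (by norm_num) (one_le_pow₀ one_le_two)

/-- **Weyl's bound off the major arcs.** -/
theorem exists_minor_sup {k : ℕ} (hk : 2 ≤ k) : ∃ C : ℝ, 0 < C ∧ ∀ (N P : ℕ) (α : ℝ), 1 ≤ P →
    P ^ k ≤ N → N < (P + 1) ^ k →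
    (∀ z ∈ arcCentres ⌊(P : ℝ) ^ (1 / 10 : ℝ)⌋₊,
        (P : ℝ) ^ (1 / 10 : ℝ) / N < nearDist (α - centre z)) →
      ‖waringSum k P α‖ ≤ C * (P : ℝ) ^ (1 - weylSaving k) := by
  obtain ⟨K, hK⟩ : ∃ K, K = 2 ^ (k - 1) := ⟨_, rfl⟩
  obtain ⟨W, hW, hweyl⟩ := exists_weyl hk (show (0 : ℝ) < 1 / 40 by norm_num)
  rw [← hK] at hweyl
  obtain ⟨B, hB⟩ : ∃ B : ℝ, B = W * (2 + 2 ^ k) * (1 + k * 80) := ⟨_, rfl⟩
  refine ⟨(1 + B), by rw [hB]; positivity, fun N P α hP hPN hNP hout => ?_⟩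
  have hP1 : (1 : ℝ) ≤ P := by exact_mod_cast hP
  have hN0 : 0 < N := lt_of_lt_of_le (pow_pos hP k) hPN
  have hN' : (0 : ℝ) < N := Nat.cast_pos.2 hN0
  have hN2 : (N : ℝ) ≤ 2 ^ k * (P : ℝ) ^ k := by
    rw [← mul_pow]
    exact_mod_cast (hNP.le.trans (Nat.pow_le_pow_left (show P + 1 ≤ 2 * P by omega) k))
  obtain ⟨R, hR⟩ : ∃ R, R = (P : ℝ) ^ (1 / 10 : ℝ) := ⟨_, rfl⟩
  rw [← hR] at hout
  have hR1 : 1 ≤ R := hR ▸ Real.one_le_rpow hP1 (by norm_num)
  have hRP : R ≤ P := hR ▸ Real.rpow_le_self_of_one_le hP1 (by norm_num)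
  have hPk : (1 : ℝ) ≤ (P : ℝ) ^ k := one_le_pow₀ hP1
  have hRN : R ≤ N := by
    refine hRP.trans ?_
    exact_mod_cast (Nat.le_self_pow (by omega) P).trans hPN
  obtain ⟨n, hn⟩ : ∃ n, n = ⌊(N : ℝ) / R⌋₊ := ⟨_, rfl⟩
  have hn0 : 0 < n := hn ▸ Nat.floor_pos.2 ((one_le_div (by linarith)).2 hRN)
  obtain ⟨ρ, hρ, hρn⟩ := Real.exists_rat_abs_sub_le_and_den_le α hn0
  obtain ⟨q, hq⟩ : ∃ q, q = ρ.den := ⟨_, rfl⟩
  have : NeZero q := ⟨hq ▸ ρ.den_ne_zero⟩
  have hq0 : (0 : ℝ) < q := Nat.cast_pos.2 (NeZero.pos q)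
  have hρv : (ρ : ℝ) = (ρ.num : ℝ) / q := by rw [hq, Rat.cast_def]
  rw [hρv, ← hq] at hρ
  have hunit : IsUnit (ρ.num : ZMod q) := by
    rw [ZMod.coe_int_isUnit_iff_isCoprime, isCoprime_comm, Int.isCoprime_iff_nat_coprime, hq]
    simpa using ρ.reduced
  have hn1 : (N : ℝ) / R ≤ (n : ℝ) + 1 := hn ▸ (Nat.lt_floor_add_one _).le
  have hqR : R < q := by
    by_contra hle
    rw [not_lt] at hle
    obtain ⟨r, hr⟩ : ∃ r, r = (ρ.num : ZMod q).val := ⟨_, rfl⟩
    have hmem : (⟨q, r⟩ : Σ _ : ℕ, ℕ) ∈ arcCentres ⌊R⌋₊ := by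
      refine mem_arcCentres.2 ⟨⟨NeZero.pos q, Nat.le_floor hle⟩, hr ▸ ZMod.val_lt _, ?_⟩
      have h1 : IsUnit ((r : ℕ) : ZMod q) := by rwa [hr, ZMod.natCast_zmod_val]
      exact ((ZMod.isUnit_iff_coprime r q).1 h1).symm
    obtain ⟨m, hm⟩ : (q : ℤ) ∣ ρ.num - r := by
      rw [← ZMod.intCast_zmod_eq_zero_iff_dvd, hr]
      push_cast
      rw [ZMod.natCast_zmod_val, sub_self]
    have h2 : nearDist (α - centre ⟨q, r⟩) ≤ R / N := by
      refine (nearDist_le_abs_sub _ m).trans ?_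
      have e : α - centre ⟨q, r⟩ - (m : ℝ) = α - (ρ.num : ℝ) / q := by
        have h3 : (ρ.num : ℝ) - r = q * m := by exact_mod_cast hm
        simp only [centre]
        field_simp
        linarith
      rw [e]
      refine hρ.trans ?_
      rw [div_le_div_iff₀ (by positivity) hN', one_mul]
      have h4 : (N : ℝ) ≤ R * ((n : ℝ) + 1) := by
        rw [div_le_iff₀ (by linarith)] at hn1
        linarith
      refine h4.trans (mul_le_mul_of_nonneg_left ?_ (by linarith))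
      exact le_mul_of_one_le_right (by positivity) (by exact_mod_cast NeZero.pos q)
    exact absurd (hout _ hmem) (not_lt.2 h2)
  have hqn : (q : ℝ) ≤ n := Nat.cast_le.2 (hq ▸ hρn)
  have hqN : (q : ℝ) * R ≤ N := by
    have := hqn.trans (hn ▸ Nat.floor_le (by positivity))
    rwa [le_div_iff₀ (by linarith)] at this
  have hα : |α - (ρ.num : ℝ) / q| ≤ 1 / (q : ℝ) ^ 2 := by
    refine hρ.trans (one_div_le_one_div_of_le (by positivity) ?_)
    rw [sq]
    exact mul_le_mul_of_nonneg_right (by linarith) hq0.le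
  have h := hweyl P q ρ.num α hP hunit hα
  have hfac : 1 / (q : ℝ) + 1 / P + q / (P : ℝ) ^ k ≤ (2 + 2 ^ k) / R := by
    rw [add_div, show (2 : ℝ) / R = 1 / R + 1 / R by ring]
    refine add_le_add (add_le_add (one_div_le_one_div_of_le (by linarith) hqR.le)
      (one_div_le_one_div_of_le (by linarith) hRP)) ?_
    rw [div_le_div_iff₀ (by linarith) (by linarith)]
    exact hqN.trans hN2
  have hlog : 1 + Real.log q ≤ (1 + k * 80) * (P : ℝ) ^ (1 / 40 : ℝ) := by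
    have h1 : Real.log q ≤ k * Real.log (2 * (P : ℝ)) := by
      rw [← Real.log_pow]
      refine Real.log_le_log hq0 ?_
      rw [mul_pow]
      exact (le_mul_of_one_le_right hq0.le hR1).trans (hqN.trans hN2)
    have h2 := Real.log_le_rpow_div (show (0 : ℝ) ≤ 2 * P by positivity)
      (show (0 : ℝ) < 1 / 40 by norm_num)
    have h3 : (2 * (P : ℝ)) ^ (1 / 40 : ℝ) ≤ 2 * (P : ℝ) ^ (1 / 40 : ℝ) := by
      rw [Real.mul_rpow two_pos.le (by linarith)]
      exact mul_le_mul_of_nonneg_right (Real.rpow_le_self_of_one_le one_le_two (by norm_num))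
        (by positivity)
    have h4 : (1 : ℝ) ≤ (P : ℝ) ^ (1 / 40 : ℝ) := Real.one_le_rpow hP1 (by norm_num)
    have h5 : (k : ℝ) * Real.log (2 * (P : ℝ)) ≤ k * (40 * (2 * (P : ℝ) ^ (1 / 40 : ℝ))) := by
      refine mul_le_mul_of_nonneg_left (h2.trans ?_) (Nat.cast_nonneg k)
      rw [div_le_iff₀ (by norm_num)]
      linarith
    linarith
  have hexp : ((K : ℝ) + 1 / 40) - 1 / 10 + 1 / 40 = (1 - weylSaving k) * K := by
    have e : weylSaving k * K = 1 / 20 := by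
      rw [weylSaving, hK]; push_cast; field_simp
    linarith
  have hKr : ‖waringSum k P α‖ ^ K ≤ B * ((P : ℝ) ^ (1 - weylSaving k)) ^ K := by
    refine h.trans ((mul_le_mul (mul_le_mul_of_nonneg_left hfac (by positivity)) hlog
      (by linarith [Real.log_natCast_nonneg q]) (by positivity)).trans (le_of_eq ?_))
    rw [hR, hB, ← Real.rpow_natCast ((P : ℝ) ^ _) K, ← Real.rpow_mul (by linarith), ← hexp,
      Real.rpow_add (by linarith : (0 : ℝ) < P) ((K : ℝ) + 1 / 40 - 1 / 10) (1 / 40),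
      Real.rpow_sub (by linarith : (0 : ℝ) < P) ((K : ℝ) + 1 / 40) (1 / 10)]
    ring
  have hK1 : 1 ≤ K := hK ▸ Nat.one_le_two_pow
  have hB0 : 0 ≤ B := by rw [hB]; positivity
  refine le_of_pow_le_pow_left₀ (by omega : K ≠ 0) (by positivity) (hKr.trans ?_)
  rw [mul_pow (1 + B)]
  exact mul_le_mul_of_nonneg_right
    ((le_self_pow₀ (show 1 ≤ 1 + B by linarith) (by omega : K ≠ 0)).trans' (by linarith))
    (by positivity)

/-- The points `h / M` outside the major arcs. -/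
def minorSet (M P N : ℕ) : Finset ℕ :=
  range M \ (arcCentres ⌊(P : ℝ) ^ (1 / 10 : ℝ)⌋₊).biUnion (arc M ((P : ℝ) ^ (1 / 10 : ℝ) / N))

/-- **The minor arcs.** -/
theorem exists_minor_sum {k s : ℕ} (hk : 2 ≤ k) (hs : k * (k + 1) < s) : ∃ C : ℝ, 0 < C ∧
    ∀ N P M : ℕ, 1 ≤ P → P ^ k ≤ N → N < (P + 1) ^ k → s * N ≤ M →
      ∑ h ∈ minorSet M P N, ‖waringSum k P ((h : ℝ) / M)‖ ^ s ≤
        C * M * (P : ℝ) ^ ((s : ℝ) - k - weylSaving k / 2) := by
  obtain ⟨t, ht⟩ : ∃ t, t = VMC.tri k := ⟨_, rfl⟩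
  have hts : 2 * t < s := ht ▸ (VMC.two_mul_tri k).trans_lt hs
  obtain ⟨e, he⟩ : ∃ e, s = 2 * t + (e + 1) := ⟨s - 2 * t - 1, by omega⟩
  obtain ⟨C₁, hC₁, hsup⟩ := exists_minor_sup hk
  obtain ⟨C₂, hC₂, hmom⟩ := exists_powerDiagonal_tri (k := k) (by omega)
    (half_pos (weylSaving_pos k))
  rw [← ht] at hmom
  refine ⟨C₁ ^ (e + 1) * C₂, by positivity, fun N P M hP hPN hNP hM => ?_⟩
  have hP1 : (1 : ℝ) ≤ P := by exact_mod_cast hP
  have hM' : t * P ^ k < M := by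
    refine lt_of_lt_of_le ?_ hM
    refine lt_of_le_of_lt (Nat.mul_le_mul_left t hPN) ?_
    exact Nat.mul_lt_mul_of_pos_right (by omega) (lt_of_lt_of_le (pow_pos hP k) hPN)
  refine (sum_le_sum (g := fun h : ℕ => (C₁ * (P : ℝ) ^ (1 - weylSaving k)) ^ (e + 1) *
    ‖waringSum k P ((h : ℝ) / M)‖ ^ (2 * t)) fun h hh => ?_).trans ?_
  · rw [he, pow_add, mul_comm]
    refine mul_le_mul_of_nonneg_right (pow_le_pow_left₀ (norm_nonneg _) ?_ _) (by positivity)
    rw [minorSet, mem_sdiff, mem_biUnion] at hh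
    refine hsup N P _ hP hPN hNP fun z hz => ?_
    by_contra hle
    exact hh.2 ⟨z, hz, mem_filter.2 ⟨hh.1, not_lt.1 hle⟩⟩
  rw [← mul_sum]
  refine (mul_le_mul_of_nonneg_left (sum_le_sum_of_subset_of_nonneg (t := range M)
    (show minorSet M P N ⊆ range M from sdiff_subset)
    fun i _ _ => by positivity) (by positivity)).trans ?_
  rw [sum_norm_waringSum_pow hM']
  refine (mul_le_mul_of_nonneg_left (mul_le_mul_of_nonneg_left (hmom P hP)
    (Nat.cast_nonneg M)) (by positivity)).trans ?_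
  calc (C₁ * (P : ℝ) ^ (1 - weylSaving k)) ^ (e + 1) *
        ((M : ℝ) * (C₂ * (P : ℝ) ^ (2 * (t : ℝ) - k + weylSaving k / 2)))
      = C₁ ^ (e + 1) * C₂ * M * (P : ℝ) ^ ((1 - weylSaving k) * ((e : ℝ) + 1) +
          (2 * (t : ℝ) - k + weylSaving k / 2)) := by
        rw [Real.rpow_add (by linarith : (0 : ℝ) < P) ((1 - weylSaving k) * ((e : ℝ) + 1))
            (2 * (t : ℝ) - k + weylSaving k / 2),
          Real.rpow_mul (by linarith : (0 : ℝ) ≤ P) (1 - weylSaving k) ((e : ℝ) + 1),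
          show ((e : ℝ) + 1) = ((e + 1 : ℕ) : ℝ) by push_cast; rfl, Real.rpow_natCast, mul_pow]
        ring
    _ ≤ _ := by
        refine mul_le_mul_of_nonneg_left (Real.rpow_le_rpow_of_exponent_le hP1 ?_) (by positivity)
        have h1 : (s : ℝ) = 2 * (t : ℝ) + ((e : ℝ) + 1) := by
          rw [he]; push_cast; ring
        have h2 : weylSaving k ≤ weylSaving k * ((e : ℝ) + 1) :=
          le_mul_of_one_le_right (weylSaving_pos k).le
            (by linarith [(Nat.cast_nonneg e : (0:ℝ) ≤ e)])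
        linarith

end FA.WaringAsymptotic
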