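import Fermat.Agent.WaringAsymptotic.Weyl
import Mathlib.Analysis.SpecialFunctions.Gamma.BohrMollerup
import Mathlib.Analysis.SpecialFunctions.Pow.Real
import Mathlib.Analysis.Convex.SpecificFunctions.Basic

/-!
# The weights of the singular integral

`weight c m = Γ (1 + c) b (c, m - 1)`, `∑ b (c, n) X ^ n = (1 - X) ^ (-c)`, has the partial sums
`Γ (j + c) / Γ (j) = j ^ c + O (1)`, its `s`-fold convolution is exact, and the exponential sum
with these coefficients is `O (‖β‖ ^ (-c))`.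
-/

set_option autoImplicit false

noncomputable section

namespace FA.WaringAsymptotic

open Finset FA.ThreePrimes

/-- The coefficients of `(1 - X) ^ (-x)`. -/
def negBinom (x : ℝ) : ℕ → ℝ
  | 0 => 1
  | n + 1 => negBinom x n * (x + n) / ((n + 1 : ℕ) : ℝ)

theorem negBinom_nonneg {x : ℝ} (hx : 0 ≤ x) : ∀ n, 0 ≤ negBinom x n
  | 0 => zero_le_one
  | n + 1 => by
    have := negBinom_nonneg hx n
    rw [negBinom]
    positivity

theorem succ_mul_negBinom (x : ℝ) (n : ℕ) :
    ((n + 1 : ℕ) : ℝ) * negBinom x (n + 1) = (x + n) * negBinom x n := by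
  rw [negBinom]
  field_simp

theorem negBinom_one : ∀ n, negBinom 1 n = 1
  | 0 => rfl
  | n + 1 => by
    rw [negBinom, negBinom_one n]
    push_cast
    field_simp
    ring

theorem negBinom_zero_succ : ∀ n, negBinom 0 (n + 1) = 0
  | 0 => by simp [negBinom]
  | n + 1 => by rw [negBinom, negBinom_zero_succ n]; simp

/-- **Vandermonde.** -/
theorem sum_negBinom_mul (x y : ℝ) : ∀ n,
    ∑ p ∈ antidiagonal n, negBinom x p.1 * negBinom y p.2 = negBinom (x + y) n
  | 0 => by simp [negBinom]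
  | n + 1 => by
    refine mul_left_cancel₀ (show ((n + 1 : ℕ) : ℝ) ≠ 0 by positivity) ?_
    rw [succ_mul_negBinom, ← sum_negBinom_mul x y n, mul_sum, mul_sum]
    have e : ∀ p ∈ antidiagonal (n + 1),
        ((n + 1 : ℕ) : ℝ) * (negBinom x p.1 * negBinom y p.2) =
          (p.1 : ℝ) * negBinom x p.1 * negBinom y p.2 +
            negBinom x p.1 * ((p.2 : ℝ) * negBinom y p.2) := fun p hp => by
      rw [← mem_antidiagonal.1 hp, Nat.cast_add]
      ring
    rw [sum_congr rfl e, sum_add_distrib, Nat.sum_antidiagonal_succ, Nat.sum_antidiagonal_succ']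
    simp only [Nat.cast_zero, zero_mul, mul_zero, zero_add, succ_mul_negBinom]
    rw [← sum_add_distrib]
    refine sum_congr rfl fun p hp => ?_
    rw [← mem_antidiagonal.1 hp, Nat.cast_add]
    ring

theorem sum_negBinom (x : ℝ) (n : ℕ) :
    ∑ i ∈ range (n + 1), negBinom x i = negBinom (x + 1) n := by
  rw [← sum_negBinom_mul x 1 n, Nat.sum_antidiagonal_eq_sum_range_succ
    (fun i j => negBinom x i * negBinom 1 j)]
  simp [negBinom_one]

theorem negBinom_mul_Gamma {x : ℝ} (hx : 0 < x) : ∀ n : ℕ,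
    negBinom x n * Real.Gamma x * (n.factorial : ℝ) = Real.Gamma ((n : ℝ) + x)
  | 0 => by simp [negBinom]
  | n + 1 => by
    have h : 0 < (n : ℝ) + x := by positivity
    rw [Nat.cast_succ, show (n : ℝ) + 1 + x = (n : ℝ) + x + 1 by ring, Real.Gamma_add_one h.ne',
      ← negBinom_mul_Gamma hx n, negBinom, Nat.factorial_succ]
    push_cast
    field_simp
    ring

/-- `Γ (a + Y) / Γ a` lies between `(a - 1) ^ Y` and `(a + Y) ^ Y`. -/
theorem Gamma_ratio_bounds {a Y : ℝ} (ha : 1 < a) (hY : 0 ≤ Y) :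
    (a - 1) ^ Y * Real.Gamma a ≤ Real.Gamma (a + Y) ∧
      Real.Gamma (a + Y) ≤ (a + Y) ^ Y * Real.Gamma a := by
  have hga := Real.Gamma_pos_of_pos (by linarith : 0 < a)
  have hgb := Real.Gamma_pos_of_pos (by linarith : 0 < a - 1)
  have hgc := Real.Gamma_pos_of_pos (by linarith : 0 < a + Y)
  rcases hY.eq_or_lt with rfl | hY0
  · simp
  have hY1 : 0 < 1 + Y := by linarith
  have hsum : Y / (1 + Y) + 1 / (1 + Y) = 1 := by field_simp; ring
  constructor
  · have h := Real.Gamma_mul_add_mul_le_rpow_Gamma_mul_rpow_Gamma (s := a - 1) (t := a + Y)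
      (by linarith) (by linarith) (div_pos hY0 hY1) (div_pos one_pos hY1) hsum
    rw [show Y / (1 + Y) * (a - 1) + 1 / (1 + Y) * (a + Y) = a by field_simp; ring] at h
    have h2 := Real.rpow_le_rpow hga.le h hY1.le
    rw [Real.mul_rpow (by positivity) (by positivity), ← Real.rpow_mul hgb.le,
      ← Real.rpow_mul hgc.le, div_mul_cancel₀ _ hY1.ne', div_mul_cancel₀ _ hY1.ne',
      Real.rpow_one, Real.rpow_add hga, Real.rpow_one] at h2
    have e : Real.Gamma a = (a - 1) * Real.Gamma (a - 1) := by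
      have := Real.Gamma_add_one (by linarith : a - 1 ≠ 0)
      rwa [sub_add_cancel] at this
    have e2 : Real.Gamma a ^ Y = (a - 1) ^ Y * Real.Gamma (a - 1) ^ Y := by
      rw [e, Real.mul_rpow (by linarith) hgb.le]
    rw [e2] at h2
    refine le_of_mul_le_mul_left ?_ (Real.rpow_pos_of_pos hgb Y)
    linarith
  · have h := Real.Gamma_mul_add_mul_le_rpow_Gamma_mul_rpow_Gamma (s := a) (t := a + Y + 1)
      (by linarith) (by linarith) (div_pos one_pos hY1) (div_pos hY0 hY1) (by linarith)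
    rw [show 1 / (1 + Y) * a + Y / (1 + Y) * (a + Y + 1) = a + Y by field_simp; ring,
      Real.Gamma_add_one (by linarith : a + Y ≠ 0)] at h
    have h2 := Real.rpow_le_rpow hgc.le h hY1.le
    rw [Real.mul_rpow (by positivity) (by positivity), ← Real.rpow_mul hga.le,
      ← Real.rpow_mul (by positivity : 0 ≤ (a + Y) * Real.Gamma (a + Y)),
      div_mul_cancel₀ _ hY1.ne', div_mul_cancel₀ _ hY1.ne', Real.rpow_one,
      Real.rpow_add hgc, Real.rpow_one, Real.mul_rpow (by linarith) hgc.le] at h2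
    refine le_of_mul_le_mul_right ?_ (Real.rpow_pos_of_pos hgc Y)
    linarith

/-- The weights. -/
def weight (c : ℝ) (m : ℕ) : ℝ := Real.Gamma (1 + c) * negBinom c (m - 1)

theorem weight_nonneg {c : ℝ} (hc : 0 ≤ c) (m : ℕ) : 0 ≤ weight c m :=
  mul_nonneg (Real.Gamma_pos_of_pos (by linarith)).le (negBinom_nonneg hc _)

theorem sum_weight (c : ℝ) (j : ℕ) :
    ∑ m ∈ Ioc 0 (j + 1), weight c m = Real.Gamma (1 + c) * negBinom (c + 1) j := by
  rw [← sum_negBinom, mul_sum, show Ioc 0 (j + 1) = Ico (0 + 1) (j + 1 + 1) by ext; simp; omega,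
    ← sum_Ico_add', ← range_eq_Ico]
  simp [weight]

/-- **The partial sums.** -/
theorem abs_sum_weight_sub_le {c : ℝ} (hc : 0 < c) (hc1 : c ≤ 1) (j : ℕ) :
    (j : ℝ) ^ c - 1 ≤ ∑ m ∈ Ioc 0 j, weight c m ∧ ∑ m ∈ Ioc 0 j, weight c m ≤ (j : ℝ) ^ c := by
  obtain _ | i := j
  · simp [Real.zero_rpow hc.ne']
  obtain ⟨x, hx⟩ : ∃ x : ℝ, x = ((i + 1 : ℕ) : ℝ) := ⟨_, rfl⟩
  have hx1 : 1 ≤ x := by rw [hx]; exact_mod_cast Nat.le_add_left 1 i
  have hgx := Real.Gamma_pos_of_pos (by linarith : 0 < x)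
  have hgc := Real.Gamma_pos_of_pos (by linarith : 0 < x + c)
  have hS : ∑ m ∈ Ioc 0 (i + 1), weight c m = Real.Gamma (x + c) / Real.Gamma x := by
    rw [sum_weight, eq_div_iff hgx.ne', hx, show ((i + 1 : ℕ) : ℝ) + c = (i : ℝ) + (c + 1) by
      push_cast; ring, ← negBinom_mul_Gamma (by linarith : 0 < c + 1) i]
    push_cast
    rw [Real.Gamma_nat_eq_factorial, add_comm 1 c]
    ring
  have hsub : x ^ c - 1 ≤ Real.Gamma (x + c) / Real.Gamma x ∧
      Real.Gamma (x + c) / Real.Gamma x ≤ x ^ c := by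
    rcases hc1.eq_or_lt with rfl | hc1
    · rw [Real.Gamma_add_one (by linarith : x ≠ 0), mul_div_cancel_right₀ _ hgx.ne', Real.rpow_one]
      exact ⟨by linarith, le_rfl⟩
    constructor
    · have h := Real.Gamma_mul_add_mul_le_rpow_Gamma_mul_rpow_Gamma (s := x + c) (t := x + c + 1)
        (by linarith) (by linarith) hc (show 0 < 1 - c by linarith) (by ring)
      rw [show c * (x + c) + (1 - c) * (x + c + 1) = x + 1 by ring,
        Real.Gamma_add_one (by linarith : x ≠ 0), Real.Gamma_add_one (by linarith : x + c ≠ 0),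
        Real.mul_rpow (by linarith) hgc.le, mul_left_comm, ← Real.rpow_add hgc,
        add_sub_cancel, Real.rpow_one] at h
      have h3 : (x + c) ^ (1 - c) ≤ x ^ (1 - c) * ((x + c) / x) := by
        rw [show x + c = x * ((x + c) / x) by field_simp,
          Real.mul_rpow (by linarith) (by positivity)]
        rw [show x * ((x + c) / x) / x = (x + c) / x by field_simp]
        refine mul_le_mul_of_nonneg_left (Real.rpow_le_self_of_one_le ?_ (by linarith))
          (by positivity)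
        rw [le_div_iff₀ (by linarith)]
        linarith
      have h4 : x * Real.Gamma x ≤ x ^ (1 - c) * ((x + c) / x) * Real.Gamma (x + c) :=
        h.trans (mul_le_mul_of_nonneg_right h3 hgc.le)
      have hr : x ^ c * x ^ (1 - c) = x := by rw [← Real.rpow_add (by linarith)]; simp
      have h5 : x ^ c * Real.Gamma x * x ≤ (x + c) * Real.Gamma (x + c) := by
        have := mul_le_mul_of_nonneg_left h4 (Real.rpow_nonneg (by linarith : 0 ≤ x) c)
        rw [show x ^ c * (x ^ (1 - c) * ((x + c) / x) * Real.Gamma (x + c)) =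
          x ^ c * x ^ (1 - c) * ((x + c) / x) * Real.Gamma (x + c) by ring, hr,
          mul_div_cancel₀ _ (by linarith : x ≠ 0)] at this
        linarith
      rw [le_div_iff₀ hgx]
      refine le_of_mul_le_mul_right ?_ (by linarith : 0 < x + c)
      have h6 : c * x ^ c ≤ x + c := by
        have := mul_le_mul_of_nonneg_left (Real.rpow_le_self_of_one_le hx1 hc1.le) hc.le
        nlinarith
      have := mul_le_mul_of_nonneg_right h6 hgx.le
      linarith
    · have h := Real.Gamma_mul_add_mul_le_rpow_Gamma_mul_rpow_Gamma (s := x) (t := x + 1)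
        (by linarith) (by linarith) (show 0 < 1 - c by linarith) hc (by ring)
      rw [show (1 - c) * x + c * (x + 1) = x + c by ring,
        Real.Gamma_add_one (by linarith : x ≠ 0), Real.mul_rpow (by linarith) hgx.le,
        mul_left_comm, ← Real.rpow_add hgx, sub_add_cancel, Real.rpow_one] at h
      rwa [div_le_iff₀ hgx]
  rw [hS, ← hx]
  exact hsub

theorem weight_antitone {c : ℝ} (hc : 0 < c) (hc1 : c ≤ 1) {m n : ℕ} (hmn : m ≤ n) :
    weight c n ≤ weight c m := by
  refine mul_le_mul_of_nonneg_left ?_ (Real.Gamma_pos_of_pos (by linarith)).le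
  refine antitone_nat_of_succ_le (f := negBinom c) (fun i => ?_) (Nat.sub_le_sub_right hmn 1)
  rw [negBinom, div_le_iff₀ (by positivity)]
  refine mul_le_mul_of_nonneg_left ?_ (negBinom_nonneg hc.le i)
  push_cast
  linarith

/-- `∑_{m ≤ N} weight c m e (m β)`. -/
def weightSum (c : ℝ) (N : ℕ) (β : ℝ) : ℂ := ∑ m ∈ Ioc 0 N, (weight c m : ℂ) * eAdd (m * β)

theorem weightSum_sub_intCast (c : ℝ) (N : ℕ) (β : ℝ) (k : ℤ) :
    weightSum c N (β - k) = weightSum c N β := by
  refine sum_congr rfl fun m _ => ?_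
  rw [show (m : ℝ) * (β - k) = m * β + ((-(m * k) : ℤ) : ℝ) by push_cast; ring, eAdd_add_intCast]

theorem norm_weightSum_le {c : ℝ} (hc : 0 < c) (hc1 : c ≤ 1) (N : ℕ) (β : ℝ) :
    ‖weightSum c N β‖ ≤ (N : ℝ) ^ c := by
  refine (norm_sum_le _ _).trans (le_of_eq_of_le (sum_congr rfl fun m _ => ?_)
    (abs_sum_weight_sub_le hc hc1 N).2)
  rw [norm_mul, norm_eAdd, mul_one, Complex.norm_real, Real.norm_eq_abs,
    abs_of_nonneg (weight_nonneg hc.le m)]

/-- **Decay away from the integers.** -/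
theorem norm_weightSum_le_inv {c : ℝ} (hc : 0 < c) (hc1 : c ≤ 1) (N : ℕ) {β : ℝ}
    (hβ : 0 < nearDist β) : ‖weightSum c N β‖ ≤ 3 * nearDist β ^ (-c) := by
  obtain ⟨d, hd⟩ : ∃ d, d = nearDist β := ⟨_, rfl⟩
  rw [← hd] at hβ ⊢
  have hd2 : d ≤ 1 / 2 := hd ▸ abs_sub_round β
  have hinv : 1 ≤ 1 / d := by rw [le_div_iff₀ hβ]; linarith
  obtain ⟨L, hL⟩ : ∃ L, L = ⌈1 / d⌉₊ := ⟨_, rfl⟩
  have hL1 : 1 / d ≤ L := hL ▸ Nat.le_ceil _
  have hL2 : (L : ℝ) ≤ 2 * (1 / d) := by
    have := Nat.ceil_lt_add_one (show (0 : ℝ) ≤ 1 / d by positivity)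
    rw [← hL] at this
    linarith
  have hdc : (1 / d) ^ c = d ^ (-c) := by rw [Real.rpow_neg hβ.le, one_div, Real.inv_rpow hβ.le]
  have hLc : (L : ℝ) ^ c ≤ 2 * d ^ (-c) := by
    refine (Real.rpow_le_rpow (Nat.cast_nonneg L) hL2 hc.le).trans ?_
    rw [Real.mul_rpow two_pos.le (by positivity), hdc]
    exact mul_le_mul_of_nonneg_right (Real.rpow_le_self_of_one_le one_le_two hc1) (by positivity)
  rcases le_or_gt N L with hN | hN
  · refine (norm_weightSum_le hc hc1 N β).trans ((Real.rpow_le_rpow (Nat.cast_nonneg N)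
      (Nat.cast_le.2 hN) hc.le).trans (hLc.trans ?_))
    exact mul_le_mul_of_nonneg_right (by norm_num) (by positivity)
  rw [weightSum, ← Ioc_union_Ioc_eq_Ioc (Nat.zero_le L) hN.le,
    sum_union (disjoint_left.2 fun m h1 h2 => by
      rw [mem_Ioc] at h1 h2; omega)]
  refine (norm_add_le _ _).trans ?_
  have h1 : ‖∑ m ∈ Ioc 0 L, (weight c m : ℂ) * eAdd (m * β)‖ ≤ 2 * d ^ (-c) :=
    (norm_weightSum_le hc hc1 L β).trans hLc
  have htail : ∀ n, L ≤ n → ‖∑ m ∈ Ioc L n, (weight c m : ℂ) * eAdd (m * β) -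
      (weight c (n + 1) : ℂ) * ∑ m ∈ Ioc L n, eAdd (m * β)‖ ≤
        1 / (2 * d) * (weight c (L + 1) - weight c (n + 1)) := by
    intro n hn
    induction n, hn using Nat.le_induction with
    | base => simp
    | succ n hn ih =>
      rw [sum_Ioc_succ_top hn, sum_Ioc_succ_top hn]
      have hG : ‖∑ m ∈ Ioc L n, eAdd (m * β) + eAdd ((n + 1 : ℕ) * β)‖ ≤ 1 / (2 * d) := by
        rw [← sum_Ioc_succ_top hn fun m : ℕ => eAdd (m * β)]
        exact (norm_geom_le β L (n + 1)).trans (clip_le_inv hβ hd.le)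
      have hmono := sub_nonneg.2 (weight_antitone hc hc1 (show n + 1 ≤ n + 1 + 1 by omega))
      calc ‖_‖ = ‖(∑ m ∈ Ioc L n, (weight c m : ℂ) * eAdd (m * β) -
              (weight c (n + 1) : ℂ) * ∑ m ∈ Ioc L n, eAdd (m * β)) +
            ((weight c (n + 1) - weight c (n + 1 + 1) : ℝ) : ℂ) *
              (∑ m ∈ Ioc L n, eAdd (m * β) + eAdd ((n + 1 : ℕ) * β))‖ := by
            refine congrArg _ ?_
            push_cast
            ring
        _ ≤ 1 / (2 * d) * (weight c (L + 1) - weight c (n + 1)) +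
            (weight c (n + 1) - weight c (n + 1 + 1)) * (1 / (2 * d)) := by
            refine (norm_add_le _ _).trans (add_le_add ih ?_)
            rw [norm_mul, Complex.norm_real, Real.norm_eq_abs, abs_of_nonneg hmono]
            exact mul_le_mul_of_nonneg_left hG hmono
        _ = _ := by ring
  have h2 : ‖∑ m ∈ Ioc L N, (weight c m : ℂ) * eAdd (m * β)‖ ≤
      1 / (2 * d) * weight c (L + 1) := by
    have h := htail N hN.le
    have hw := weight_nonneg hc.le (N + 1)
    refine (norm_le_norm_sub_add _ ((weight c (N + 1) : ℂ) *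
      ∑ m ∈ Ioc L N, eAdd (m * β))).trans ?_
    rw [norm_mul ((weight c (N + 1) : ℂ)), Complex.norm_real, Real.norm_eq_abs, abs_of_nonneg hw]
    have := mul_le_mul_of_nonneg_left ((norm_geom_le β L N).trans (clip_le_inv hβ hd.le)) hw
    linarith
  have h3 : weight c (L + 1) ≤ d ^ (-c) * d := by
    have hL0 : (0 : ℝ) < ((L + 1 : ℕ) : ℝ) := Nat.cast_pos.2 L.succ_pos
    have hw : ((L + 1 : ℕ) : ℝ) * weight c (L + 1) ≤ ((L + 1 : ℕ) : ℝ) ^ c := by
      refine le_trans ?_ (abs_sum_weight_sub_le hc hc1 (L + 1)).2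
      refine le_trans ?_ (card_nsmul_le_sum _ _ (weight c (L + 1)) fun m hm =>
        weight_antitone hc hc1 (mem_Ioc.1 hm).2)
      simp
    rw [← le_div_iff₀' hL0, ← Real.rpow_sub_one hL0.ne'] at hw
    refine hw.trans ((Real.rpow_le_rpow_of_nonpos (z := c - 1) (show (0 : ℝ) < 1 / d by positivity)
      (hL1.trans (by exact_mod_cast L.le_succ)) (by linarith)).trans (le_of_eq ?_))
    rw [Real.rpow_sub_one (by positivity), hdc, div_div_eq_mul_div, div_one]
  have h4 : 1 / (2 * d) * weight c (L + 1) ≤ d ^ (-c) := by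
    refine (mul_le_mul_of_nonneg_left h3 (by positivity)).trans ?_
    have : 0 ≤ d ^ (-c) := by positivity
    rw [show 1 / (2 * d) * (d ^ (-c) * d) = d ^ (-c) / 2 by field_simp]
    linarith
  linarith

theorem sum_piFinset_negBinom (c : ℝ) : ∀ (s n L : ℕ), n < L →
    ∑ z ∈ (Fintype.piFinset fun _ : Fin s => range L).filter (fun z => ∑ i, z i = n),
      ∏ i, negBinom c (z i) = negBinom ((s : ℝ) * c) n
  | 0, n, L, _ => by
    rw [sum_filter]
    obtain _ | m := n
    · simp [negBinom]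
    · simp [negBinom_zero_succ]
  | s + 1, n, L, hn => by
    rw [sum_filter, sum_piFinset_succ]
    simp only [Fin.prod_univ_succ, Fin.cons_zero, Fin.cons_succ, Fin.sum_univ_succ]
    rw [← sum_subset (range_subset_range.2 (show n + 1 ≤ L by omega)) fun a _ ha =>
      sum_eq_zero fun y _ => if_neg (by rw [mem_range] at ha; omega)]
    rw [show ((s + 1 : ℕ) : ℝ) * c = c + (s : ℝ) * c by push_cast; ring,
      ← sum_negBinom_mul c ((s : ℝ) * c) n,
      Nat.sum_antidiagonal_eq_sum_range_succ (fun i j => negBinom c i * negBinom ((s : ℝ) * c) j)]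
    refine sum_congr rfl fun a ha => ?_
    rw [mem_range] at ha
    rw [← sum_piFinset_negBinom c s (n - a) L (by omega), mul_sum, sum_filter]
    refine sum_congr rfl fun y _ => ?_
    exact if_congr (by omega) rfl rfl

/-- The singular integral. -/
def weightConv (c : ℝ) (s N : ℕ) : ℝ :=
  ∑ z ∈ (Fintype.piFinset fun _ : Fin s => Ioc 0 N).filter (fun z => ∑ i, z i = N),
    ∏ i, weight c (z i)

theorem weightConv_eq {c : ℝ} {s N : ℕ} (hs : 1 ≤ s) (hN : s ≤ N) :
    weightConv c s N = Real.Gamma (1 + c) ^ s * negBinom ((s : ℝ) * c) (N - s) := by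
  rw [← sum_piFinset_negBinom c s (N - s) N (by omega), mul_sum, weightConv]
  refine sum_nbij' (fun z i => z i - 1) (fun z i => z i + 1) (fun z hz => ?_) (fun z hz => ?_)
    (fun z hz => funext fun i => ?_) (fun z _ => funext fun i => by simp) fun z _ => ?_
  · rw [mem_filter, Fintype.mem_piFinset] at hz ⊢
    refine ⟨fun i => mem_range.2 (by have := mem_Ioc.1 (hz.1 i); omega), ?_⟩
    rw [sum_tsub_distrib _ fun i _ => (mem_Ioc.1 (hz.1 i)).1, hz.2]
    simp
  · rw [mem_filter, Fintype.mem_piFinset] at hz ⊢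
    refine ⟨fun i => mem_Ioc.2 (by have := mem_range.1 (hz.1 i); omega), ?_⟩
    rw [sum_add_distrib, hz.2]
    simp
    omega
  · have := mem_Ioc.1 (Fintype.mem_piFinset.1 (mem_filter.1 hz).1 i)
    dsimp only
    omega
  · simp [weight, prod_mul_distrib]

theorem weightConv_of_lt {c : ℝ} {s N : ℕ} (hN : N < s) : weightConv c s N = 0 := by
  rw [weightConv, filter_false_of_mem, sum_empty]
  intro z hz h
  have := card_nsmul_le_sum univ z 1 fun i _ => (mem_Ioc.1 (Fintype.mem_piFinset.1 hz i)).1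
  have h' : univ.sum z = N := h
  simp at this
  omega

theorem rpow_sub_rpow_le {u v Y : ℝ} (hu : 0 ≤ u) (huv : u ≤ v) (hY : 1 ≤ Y) :
    v ^ Y - u ^ Y ≤ Y * v ^ (Y - 1) * (v - u) := by
  rcases eq_or_lt_of_le (hu.trans huv) with rfl | hv
  · obtain rfl : u = 0 := le_antisymm huv hu
    simp
  have h := one_add_mul_self_le_rpow_one_add (s := u / v - 1)
    (by have : 0 ≤ u / v := by positivity
        linarith) hY
  rw [add_sub_cancel, Real.div_rpow hu hv.le, le_div_iff₀ (Real.rpow_pos_of_pos hv Y)] at h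
  have e : v ^ Y = v ^ (Y - 1) * v := by
    rw [← Real.rpow_add_one hv.ne', sub_add_cancel]
  have e2 : v * (u / v) = u := mul_div_cancel₀ u hv.ne'
  rw [e] at h ⊢
  linear_combination h - Y * v ^ (Y - 1) * e2

/-- **The singular integral.** -/
theorem exists_weightConv_asymptotic {c : ℝ} (hc : 0 < c) {s : ℕ} (hs : 2 ≤ (s : ℝ) * c) :
    ∃ C : ℝ, 0 < C ∧ ∀ N : ℕ, 1 ≤ N →
      |weightConv c s N - Real.Gamma (1 + c) ^ s / Real.Gamma (s * c) * (N : ℝ) ^ ((s : ℝ) * c - 1)|
        ≤ C * (N : ℝ) ^ ((s : ℝ) * c - 2) := by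
  obtain ⟨Y, hY⟩ : ∃ Y : ℝ, Y = (s : ℝ) * c - 1 := ⟨_, rfl⟩
  obtain ⟨G, hG⟩ : ∃ G : ℝ, G = Real.Gamma (1 + c) ^ s / Real.Gamma (s * c) := ⟨_, rfl⟩
  have hs1 : 1 ≤ s := by
    by_contra h
    rw [show s = 0 by omega] at hs
    norm_num at hs
  have hG0 : 0 < G := hG ▸ div_pos (pow_pos (Real.Gamma_pos_of_pos (by linarith)) s)
    (Real.Gamma_pos_of_pos (by linarith))
  have hY1 : 1 ≤ Y := by linarith
  refine ⟨G * (Y * (2 + Y) ^ (Y - 1) * (s + 1 + Y)) + G * ((s : ℝ) + 1), by positivity,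
    fun N hN => ?_⟩
  rw [← hG, show (s : ℝ) * c - 2 = Y - 1 by linarith, ← hY]
  have hN0 : (1 : ℝ) ≤ N := by exact_mod_cast hN
  have hP : 0 ≤ G * (Y * (2 + Y) ^ (Y - 1) * (s + 1 + Y)) * (N : ℝ) ^ (Y - 1) := by positivity
  have hP' : 0 ≤ G * ((s : ℝ) + 1) * (N : ℝ) ^ (Y - 1) := by positivity
  have eN : (N : ℝ) ^ Y = (N : ℝ) ^ (Y - 1) * N := by
    rw [← Real.rpow_add_one (by linarith), sub_add_cancel]
  rcases lt_or_ge N (s + 1) with hsm | hbig
  · have hNs : (N : ℝ) ≤ s := by exact_mod_cast (show N ≤ s by omega)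
    have hJ : 0 ≤ weightConv c s N ∧ weightConv c s N ≤ G * (N : ℝ) ^ (Y - 1) * (s + 1) +
        G * (Y * (2 + Y) ^ (Y - 1) * (s + 1 + Y)) * (N : ℝ) ^ (Y - 1) := by
      rcases lt_or_ge N s with h | h
      · rw [weightConv_of_lt h]
        exact ⟨le_rfl, by linarith⟩
      · have e : negBinom ((s : ℝ) * c) 0 = 1 := rfl
        rw [weightConv_eq hs1 h, show N - s = 0 by omega, e, mul_one]
        refine ⟨pow_nonneg (Real.Gamma_pos_of_pos (by linarith)).le s, ?_⟩
        have h1 : Real.Gamma (1 + c) ^ s = G * Real.Gamma (s * c) := by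
          rw [hG, div_mul_cancel₀ _ (Real.Gamma_pos_of_pos (by linarith)).ne']
        rw [h1]
        have h2 : Real.Gamma (s * c) ≤ (1 + Y) ^ Y := by
          rcases hY1.eq_or_lt with h3 | h3
          · rw [show (s : ℝ) * c = 2 by linarith, Real.Gamma_two]
            exact Real.one_le_rpow (by linarith) (by linarith)
          · have := (Gamma_ratio_bounds (a := 2) (Y := Y - 1) one_lt_two (by linarith)).2
            rw [Real.Gamma_two, mul_one, show (2 : ℝ) + (Y - 1) = s * c by linarith] at this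
            refine this.trans ?_
            rw [show (s : ℝ) * c = 1 + Y by linarith]
            exact Real.rpow_le_rpow_of_exponent_le (by linarith) (by linarith)
        have h4 : (1 + Y) ^ Y ≤ Y * (2 + Y) ^ (Y - 1) * ((s : ℝ) + 1 + Y) := by
          rw [show (1 + Y) ^ Y = (1 + Y) ^ (Y - 1) * (1 + Y) by
            rw [← Real.rpow_add_one (by linarith), sub_add_cancel]]
          refine mul_le_mul ((Real.rpow_le_rpow (by linarith) (by linarith) (by linarith)).trans
            (le_mul_of_one_le_left (by positivity) hY1))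
            (by linarith [(Nat.cast_nonneg s : (0 : ℝ) ≤ s)]) (by linarith) (by positivity)
        have h5 : 1 ≤ (N : ℝ) ^ (Y - 1) := Real.one_le_rpow hN0 (by linarith)
        have h6 := mul_le_mul_of_nonneg_left (h2.trans h4) hG0.le
        have h7 := le_mul_of_one_le_right (show 0 ≤ G * (Y * (2 + Y) ^ (Y - 1) * ((s : ℝ) + 1 + Y))
          by positivity) h5
        linarith
    have hM : G * (N : ℝ) ^ Y ≤ G * (N : ℝ) ^ (Y - 1) * s := by
      rw [eN, ← mul_assoc]
      exact mul_le_mul_of_nonneg_left hNs (by positivity)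
    have hM0 : 0 ≤ G * (N : ℝ) ^ Y := by positivity
    have hM1 : 0 ≤ G * (N : ℝ) ^ (Y - 1) := by positivity
    rw [abs_le]
    constructor <;> linarith
  obtain ⟨n, hn⟩ : ∃ n, n = N - s := ⟨_, rfl⟩
  have hn1 : (1 : ℝ) ≤ n := by exact_mod_cast (show 1 ≤ n by omega)
  have hnN : (n : ℝ) + s = N := by exact_mod_cast (show n + s = N by omega)
  have e : weightConv c s N = G * (Real.Gamma ((n : ℝ) + 1 + Y) / Real.Gamma ((n : ℝ) + 1)) := by
    rw [weightConv_eq hs1 (by omega), ← hn, hG, show (n : ℝ) + 1 + Y = n + s * c by linarith,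
      ← negBinom_mul_Gamma (by linarith : 0 < (s : ℝ) * c) n, Real.Gamma_nat_eq_factorial]
    have := (Real.Gamma_pos_of_pos (by linarith : 0 < (s : ℝ) * c)).ne'
    have : (n.factorial : ℝ) ≠ 0 := Nat.cast_ne_zero.2 n.factorial_ne_zero
    field_simp
  obtain ⟨hlo, hhi⟩ := Gamma_ratio_bounds (a := (n : ℝ) + 1) (Y := Y) (by linarith) (by linarith)
  rw [add_sub_cancel_right] at hlo
  have hg := Real.Gamma_pos_of_pos (show 0 < (n : ℝ) + 1 by linarith)
  obtain ⟨R, hR⟩ : ∃ R, R = Real.Gamma ((n : ℝ) + 1 + Y) / Real.Gamma ((n : ℝ) + 1) := ⟨_, rfl⟩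
  have hlo' : (n : ℝ) ^ Y ≤ R := hR ▸ (le_div_iff₀ hg).2 hlo
  have hhi' : R ≤ ((n : ℝ) + 1 + Y) ^ Y := hR ▸ (div_le_iff₀ hg).2 hhi
  obtain ⟨V, hV⟩ : ∃ V : ℝ, V = (N : ℝ) + 1 + Y := ⟨_, rfl⟩
  have h1 : (N : ℝ) ^ Y - (n : ℝ) ^ Y ≤ Y * V ^ (Y - 1) * (s + 1 + Y) := by
    refine (rpow_sub_rpow_le (by linarith) (by linarith) hY1).trans ?_
    refine mul_le_mul (mul_le_mul_of_nonneg_left (Real.rpow_le_rpow (by linarith) (by linarith)
      (by linarith)) (by linarith)) (by linarith) (by linarith) (mul_nonneg (by linarith)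
      (Real.rpow_nonneg (by linarith) _))
  have h2 : ((n : ℝ) + 1 + Y) ^ Y - (N : ℝ) ^ Y ≤ Y * V ^ (Y - 1) * (s + 1 + Y) := by
    rcases le_total ((n : ℝ) + 1 + Y) N with h | h
    · have := Real.rpow_le_rpow (by linarith) h (show 0 ≤ Y by linarith)
      have : 0 ≤ Y * V ^ (Y - 1) * (s + 1 + Y) :=
        mul_nonneg (mul_nonneg (by linarith) (Real.rpow_nonneg (by linarith) _)) (by linarith)
      linarith
    · refine (rpow_sub_rpow_le (by linarith) h hY1).trans ?_
      refine mul_le_mul (mul_le_mul_of_nonneg_left (Real.rpow_le_rpow (by linarith) (by linarith)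
        (by linarith)) (by linarith)) (by linarith) (by linarith) (mul_nonneg (by linarith)
        (Real.rpow_nonneg (by linarith) _))
  have h3 : V ^ (Y - 1) ≤ (2 + Y) ^ (Y - 1) * (N : ℝ) ^ (Y - 1) := by
    rw [← Real.mul_rpow (by linarith) (by linarith)]
    refine Real.rpow_le_rpow (by linarith) ?_ (by linarith)
    nlinarith
  have h4 : |R - (N : ℝ) ^ Y| ≤ Y * ((2 + Y) ^ (Y - 1) * (N : ℝ) ^ (Y - 1)) * (s + 1 + Y) := by
    have h5 : Y * V ^ (Y - 1) * (s + 1 + Y) ≤
        Y * ((2 + Y) ^ (Y - 1) * (N : ℝ) ^ (Y - 1)) * (s + 1 + Y) := by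
      gcongr
    rw [abs_le]
    constructor <;> linarith
  rw [e, ← hR, ← mul_sub, abs_mul, abs_of_pos hG0]
  have := mul_le_mul_of_nonneg_left h4 hG0.le
  linarith

end FA.WaringAsymptotic
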